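import Mathlib

set_option autoImplicit false

namespace Fermat.Agent.S51

theorem nsmul_mod_of_torsion {G : Type*} [AddCommGroup G] {p : ℕ} {P : G} (hP : p • P = 0)
    (k : ℕ) : k • P = (k % p) • P := by
  conv_lhs => rw [← Nat.mod_add_div k p]
  rw [add_nsmul, mul_nsmul, hP, nsmul_zero, add_zero]

theorem cyclic_zsmul_eq_nsmul {G : Type*} [AddCommGroup G] {p : ℕ} (hp : p ≠ 0) {y : G}
    (hy : p • y = 0) (m : ℤ) : ∃ k : ℕ, m • y = k • y := by
  refine ⟨(m % p).toNat, ?_⟩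
  have h2 : 0 ≤ m % (p : ℤ) := Int.emod_nonneg _ (by exact_mod_cast hp)
  have h3 : (p : ℤ) • y = 0 := by rw [natCast_zsmul]; exact hy
  conv_lhs => rw [← Int.emod_add_mul_ediv m p]
  rw [add_zsmul, mul_comm, mul_zsmul, h3, zsmul_zero, add_zero]
  conv_lhs => rw [← Int.toNat_of_nonneg h2]
  rw [natCast_zsmul]

theorem cyclic_exists_zsmul_of_not_dvd {G : Type*} [AddCommGroup G] {p : ℕ} (hp : p.Prime)
    {x : G} (hx : p • x = 0) {d : ℤ} (hd : ¬ (p : ℤ) ∣ d) : ∃ u : ℤ, x = u • (d • x) := by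
  have hcop : IsCoprime (p : ℤ) d :=
    (Nat.prime_iff_prime_int.mp hp).irreducible.coprime_iff_not_dvd.mpr hd
  obtain ⟨a, b, hab⟩ := hcop
  refine ⟨b, ?_⟩
  have h3 : (p : ℤ) • x = 0 := by rw [natCast_zsmul]; exact hx
  calc x = (1 : ℤ) • x := (one_zsmul x).symm
    _ = (a * p + b * d) • x := by rw [hab]
    _ = b • (d • x) := by
        rw [add_zsmul, mul_zsmul, mul_zsmul, h3, zsmul_zero, zero_add]

theorem cyclic_of_card_le {G : Type*} [AddCommGroup G] (p : ℕ) (hp : p.Prime)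
    (hfin : {x : G | p • x = 0}.Finite) (hcard : {x : G | p • x = 0}.ncard ≤ p ^ 2)
    (N : AddSubgroup G) (hN : ∀ x ∈ N, p • x = 0) (hne : ∃ x : G, p • x = 0 ∧ x ∉ N)
    {P : G} (hP : P ∈ N) (hP0 : P ≠ 0) : ∀ Q ∈ N, ∃ k : ℕ, Q = k • P := by
  intro Q hQ
  by_contra hcon
  rw [not_exists] at hcon
  obtain ⟨x, hx, hxN⟩ := hne
  have hp0 : p ≠ 0 := hp.ne_zero
  have hPt := hN P hP
  have hQt := hN Q hQ
  let f : Fin p × Fin p → G := fun ab => (ab.1 : ℕ) • P + (ab.2 : ℕ) • Q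
  have hf : Function.Injective f := by
    rintro ⟨a, b⟩ ⟨a', b'⟩ h
    have h' : (a : ℕ) • P + (b : ℕ) • Q = (a' : ℕ) • P + (b' : ℕ) • Q := h
    have key : (((a : ℕ) : ℤ) - ((a' : ℕ) : ℤ)) • P = (((b' : ℕ) : ℤ) - ((b : ℕ) : ℤ)) • Q := by
      rw [sub_zsmul, sub_zsmul, natCast_zsmul, natCast_zsmul, natCast_zsmul, natCast_zsmul,
        ← sub_eq_add_neg, ← sub_eq_add_neg, sub_eq_sub_iff_add_eq_add, add_comm ((b' : ℕ) • Q)]
      exact h'
    have ha_lt := a.isLt
    have ha'_lt := a'.isLt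
    have hb_lt := b.isLt
    have hb'_lt := b'.isLt
    have hb : b = b' := by
      by_contra hbne
      have hbne' : (b : ℕ) ≠ (b' : ℕ) := fun h => hbne (Fin.ext h)
      have hd : ¬ (p : ℤ) ∣ (((b' : ℕ) : ℤ) - ((b : ℕ) : ℤ)) := by
        rintro ⟨c, hc⟩
        have hc0 : c ≠ 0 := by
          rintro rfl
          apply hbne'
          omega
        rcases lt_or_gt_of_ne hc0 with hneg | hpos
        · have : (p : ℤ) * c ≤ (p : ℤ) * (-1) :=
            mul_le_mul_of_nonneg_left (by omega) (by positivity)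
          omega
        · have : (p : ℤ) * 1 ≤ (p : ℤ) * c :=
            mul_le_mul_of_nonneg_left (by omega) (by positivity)
          omega
      obtain ⟨u, hu⟩ := cyclic_exists_zsmul_of_not_dvd hp hQt hd
      rw [← key, ← mul_zsmul] at hu
      obtain ⟨k, hk⟩ := cyclic_zsmul_eq_nsmul hp0 hPt (u * (((a : ℕ) : ℤ) - ((a' : ℕ) : ℤ)))
      exact hcon k (hu.trans hk)
    subst hb
    have ha : a = a' := by
      by_contra hane
      have hane' : (a : ℕ) ≠ (a' : ℕ) := fun h => hane (Fin.ext h)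
      have hd : ¬ (p : ℤ) ∣ (((a : ℕ) : ℤ) - ((a' : ℕ) : ℤ)) := by
        rintro ⟨c, hc⟩
        have hc0 : c ≠ 0 := by
          rintro rfl
          apply hane'
          omega
        rcases lt_or_gt_of_ne hc0 with hneg | hpos
        · have : (p : ℤ) * c ≤ (p : ℤ) * (-1) :=
            mul_le_mul_of_nonneg_left (by omega) (by positivity)
          omega
        · have : (p : ℤ) * 1 ≤ (p : ℤ) * c :=
            mul_le_mul_of_nonneg_left (by omega) (by positivity)
          omega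
      obtain ⟨u, hu⟩ := cyclic_exists_zsmul_of_not_dvd hp hPt hd
      rw [key, sub_self, zero_zsmul, zsmul_zero] at hu
      exact hP0 hu
    subst ha
    rfl
  have hsub : Set.range f ⊆ {x : G | p • x = 0} := by
    rintro _ ⟨⟨a, b⟩, rfl⟩
    show p • ((a : ℕ) • P + (b : ℕ) • Q) = 0
    rw [smul_add, smul_comm p (a : ℕ) P, smul_comm p (b : ℕ) Q, hPt, hQt, smul_zero, smul_zero,
      add_zero]
  have hcardr : (Set.range f).ncard = p ^ 2 := by
    rw [← Set.image_univ, Set.ncard_image_of_injective _ hf, Set.ncard_univ, Nat.card_prod,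
      Nat.card_fin, sq]
  have heq : Set.range f = {x : G | p • x = 0} :=
    Set.eq_of_subset_of_ncard_le hsub (by rw [hcardr]; exact hcard) hfin
  have hxr : x ∈ Set.range f := by rw [heq]; exact hx
  obtain ⟨⟨a, b⟩, rfl⟩ := hxr
  exact hxN (N.add_mem (N.nsmul_mem hP _) (N.nsmul_mem hQ _))

end Fermat.Agent.S51
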