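import Fermat.Agent.S51.GroupLaw

set_option linter.unusedSectionVars false

open WeierstrassCurve WeierstrassCurve.Affine WeierstrassCurve.Affine.Point

namespace Fermat.Agent.S51

variable {K : Type*} [Field K] [CharZero K] [DecidableEq K] {W : WeierstrassCurve.Affine K}

/-- A common zero of the cubic and of its derivative forces the discriminant to vanish. -/
theorem torsion_disc_zero {A B X : K} (hf : cub A B X = 0) (hf' : dcub A X = 0) :
    4 * A ^ 3 + 27 * B ^ 2 = 0 := by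
  unfold cub at hf
  unfold dcub at hf'
  linear_combination (6 * A * X ^ 2 - 9 * B * X + 4 * A ^ 2) * hf' - (18 * A * X - 27 * B) * hf

theorem torsion_psi3_eq (A B X : K) :
    psi3 A B X = 12 * X * cub A B X - dcub A X ^ 2 := by
  unfold psi3 cub dcub; ring

/-- On a nonsingular curve the cubic and its derivative have no common zero. -/
theorem torsion_not_singular (hΔ : W.Δ ≠ 0) {X : K} (hf : cub (sA W) (sB W) X = 0)
    (hf' : dcub (sA W) X = 0) : False := by
  apply hΔ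
  rw [disc_eq_sA_sB, torsion_disc_zero hf hf']; ring

theorem torsion_three_nsmul (P : W.Point) : 3 • P = P + P + P := by
  rw [succ_nsmul, two_nsmul]

theorem torsion_five_nsmul (P : W.Point) : 5 • P = P + (P + P) + (P + P) := by
  rw [show (5 : ℕ) = 2 + 2 + 1 from rfl, add_nsmul, add_nsmul, two_nsmul, one_nsmul]; abel

theorem psi3_of_three_nsmul {P : W.Point} (hP : P ≠ 0) (h3 : 3 • P = 0) :
    psi3 (sA W) (sB W) (pX P) = 0 := by
  have h2 : P + P = -P := by
    rw [torsion_three_nsmul] at h3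
    exact eq_neg_of_add_eq_zero_left h3
  have hY : pY P ≠ 0 := by
    intro hY
    have h0 := (add_self_eq_zero_iff hP).mpr hY
    rw [h0] at h2
    exact hP (neg_eq_zero.mp h2.symm)
  obtain ⟨-, hX, -⟩ := pX_add_self hP hY
  rw [h2, pX_neg, pY_sq hP] at hX
  have hf : cub (sA W) (sB W) (pX P) ≠ 0 := by
    rw [← pY_sq hP]; exact pow_ne_zero 2 hY
  rw [torsion_psi3_eq]
  field_simp at hX
  linear_combination hX

theorem three_nsmul_of_psi3 (hΔ : W.Δ ≠ 0) {P : W.Point} (hP : P ≠ 0)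
    (h : psi3 (sA W) (sB W) (pX P) = 0) : 3 • P = 0 := by
  rw [torsion_psi3_eq] at h
  have hY : pY P ≠ 0 := by
    intro hY
    have hf : cub (sA W) (sB W) (pX P) = 0 := by rw [← pY_sq hP, hY]; ring
    have hf' : dcub (sA W) (pX P) = 0 := by
      have : dcub (sA W) (pX P) ^ 2 = 0 := by rw [hf] at h; linear_combination -h
      exact pow_eq_zero_iff (two_ne_zero) |>.mp this
    exact torsion_not_singular hΔ hf hf'
  have hf : cub (sA W) (sB W) (pX P) ≠ 0 := by
    rw [← pY_sq hP]; exact pow_ne_zero 2 hY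
  obtain ⟨h2ne, hX, -⟩ := pX_add_self hP hY
  rw [pY_sq hP] at hX
  have hXX : pX (P + P) = pX P := by
    rw [hX]; field_simp; linear_combination -h
  rcases eq_or_eq_neg_of_pX_eq h2ne hP hXX with h2 | h2
  · exact absurd (by simpa using h2) hP
  · rw [torsion_three_nsmul, h2]; abel

/-- The chord relation in terms of the data at `P`: pure field algebra. -/
theorem torsion_chord_alg {X₁ X₂ Y₁ Y₂ f f' X₃ : K} (hY₁ : Y₁ ≠ 0) (hne : X₂ ≠ X₁)
    (hsq : Y₁ ^ 2 = f) (hX : X₂ = f' ^ 2 / (4 * Y₁ ^ 2) - 2 * X₁)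
    (hY2 : Y₂ = -Y₁ - f' / (2 * Y₁) * (X₂ - X₁))
    (hX3 : X₃ = ((Y₁ - Y₂) / (X₁ - X₂)) ^ 2 - X₁ - X₂) :
    (X₃ - X₂) * (X₂ - X₁) ^ 2 = -((X₂ - X₁) ^ 3 - (2 * f' * (X₂ - X₁) + 4 * f)) := by
  have hne' : X₁ - X₂ ≠ 0 := sub_ne_zero.mpr (Ne.symm hne)
  have hf : f ≠ 0 := by rw [← hsq]; exact pow_ne_zero 2 hY₁
  have R2 : 4 * f * (X₂ + 2 * X₁) = f' ^ 2 := by
    rw [hX, hsq]; field_simp; ring
  have hY12 : Y₁ - Y₂ = (4 * f + f' * (X₂ - X₁)) / (2 * Y₁) := by
    rw [hY2, ← hsq]; field_simp; ring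
  have R3 : (X₃ + X₁ + X₂) * (X₁ - X₂) ^ 2 * (4 * f) = (4 * f + f' * (X₂ - X₁)) ^ 2 := by
    rw [hX3, hY12, div_pow, div_pow, mul_pow, hsq]
    field_simp
    ring
  have key : 4 * f * ((X₃ - X₂) * (X₂ - X₁) ^ 2 +
      ((X₂ - X₁) ^ 3 - (2 * f' * (X₂ - X₁) + 4 * f))) = 0 := by
    linear_combination R3 - (X₂ - X₁) ^ 2 * R2
  have := (mul_eq_zero.mp key).resolve_left (mul_ne_zero (by norm_num) hf)
  linear_combination this

theorem rel5_of_five_nsmul {P : W.Point} (hP : P ≠ 0) (h5 : 5 • P = 0) :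
    Rel5 (sA W) (sB W) (pX P) (pX (2 • P)) := by
  rw [torsion_five_nsmul] at h5
  rw [two_nsmul]
  have hY : pY P ≠ 0 := by
    intro hY
    have h0 := (add_self_eq_zero_iff hP).mpr hY
    rw [h0] at h5
    exact hP (by simpa using h5)
  have hf : cub (sA W) (sB W) (pX P) ≠ 0 := by
    rw [← pY_sq hP]; exact pow_ne_zero 2 hY
  obtain ⟨h2ne, hX, hY2⟩ := pX_add_self hP hY
  have hne : pX (P + P) ≠ pX P := by
    intro hXX
    rcases eq_or_eq_neg_of_pX_eq h2ne hP hXX with h2 | h2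
    · exact absurd (by simpa using h2) hP
    · rw [h2] at h5
      have : P = 0 := by
        have h5' : P + -P + -P = 0 := h5
        simpa using h5'
      exact hP this
  have h3 : P + (P + P) = -(P + P) := eq_neg_of_add_eq_zero_left h5
  obtain ⟨-, hX3⟩ := pX_add_of_ne hP h2ne hne.symm
  have hsq := pY_sq hP
  refine ⟨hne, hf, ?_, ?_⟩
  · rw [hX, hsq]; field_simp; ring
  · have halg := torsion_chord_alg hY hne hsq hX hY2 hX3
    rw [h3, pX_neg, sub_self, zero_mul] at halg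
    linear_combination halg

theorem five_nsmul_of_psi5 (hΔ : W.Δ ≠ 0) {P : W.Point} (hP : P ≠ 0)
    (h : psi5 (sA W) (sB W) (pX P) = 0) : 5 • P = 0 := by
  have hf : cub (sA W) (sB W) (pX P) ≠ 0 := by
    intro hf
    have h3 : psi3 (sA W) (sB W) (pX P) = 0 := by
      have : psi3 (sA W) (sB W) (pX P) ^ 3 = 0 := by
        unfold psi5 at h; rw [hf] at h; linear_combination -h
      exact pow_eq_zero_iff (three_ne_zero) |>.mp this
    have hf' : dcub (sA W) (pX P) = 0 := by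
      have : dcub (sA W) (pX P) ^ 2 = 0 := by
        rw [torsion_psi3_eq, hf] at h3; linear_combination -h3
      exact pow_eq_zero_iff (two_ne_zero) |>.mp this
    exact torsion_not_singular hΔ hf hf'
  have hsq := pY_sq hP
  have hY : pY P ≠ 0 := by
    intro hY; rw [hY] at hsq; exact hf (by rw [← hsq]; ring)
  obtain ⟨h2ne, hX, hY2⟩ := pX_add_self hP hY
  -- `h := X₂ - X₁ = -psi3 / (4 f)`
  have hh : (pX (P + P) - pX P) * (4 * cub (sA W) (sB W) (pX P)) = -psi3 (sA W) (sB W) (pX P) := by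
    rw [hX, hsq, torsion_psi3_eq]; field_simp; ring
  have hrel : (pX (P + P) - pX P) ^ 3 =
      2 * dcub (sA W) (pX P) * (pX (P + P) - pX P) + 4 * cub (sA W) (sB W) (pX P) := by
    have key : 64 * cub (sA W) (sB W) (pX P) ^ 3 * ((pX (P + P) - pX P) ^ 3 -
        (2 * dcub (sA W) (pX P) * (pX (P + P) - pX P) + 4 * cub (sA W) (sB W) (pX P))) = 0 := by
      unfold psi5 at h
      linear_combination h + (16 * cub (sA W) (sB W) (pX P) ^ 2 * (pX (P + P) - pX P) ^ 2 -
        4 * cub (sA W) (sB W) (pX P) * (pX (P + P) - pX P) * psi3 (sA W) (sB W) (pX P) +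
        psi3 (sA W) (sB W) (pX P) ^ 2 -
        32 * dcub (sA W) (pX P) * cub (sA W) (sB W) (pX P) ^ 2) * hh
    have := (mul_eq_zero.mp key).resolve_left
      (mul_ne_zero (by norm_num) (pow_ne_zero 3 hf))
    linear_combination this
  have hne : pX (P + P) ≠ pX P := by
    intro hXX
    rw [hXX, sub_self] at hrel
    apply hf
    linear_combination -(1 / 4 : K) * hrel
  obtain ⟨h3ne, hX3⟩ := pX_add_of_ne hP h2ne hne.symm
  have halg := torsion_chord_alg hY hne hsq hX hY2 hX3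
  rw [hrel, sub_self, _root_.neg_zero] at halg
  have hX32 : pX (P + (P + P)) = pX (P + P) := by
    have := (mul_eq_zero.mp halg).resolve_right (pow_ne_zero 2 (sub_ne_zero.mpr hne))
    exact sub_eq_zero.mp this
  rw [torsion_five_nsmul]
  rcases eq_or_eq_neg_of_pX_eq h3ne h2ne hX32 with h3 | h3
  · exact absurd (by simpa using h3) hP
  · rw [h3]; abel

end Fermat.Agent.S51
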