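import Fermat.Agent.S51.GroupLaw
import Fermat.Agent.S51.Torsion

open WeierstrassCurve WeierstrassCurve.Affine WeierstrassCurve.Affine.Point
open Polynomial

namespace Fermat.Agent.S51

section Poly

variable {K : Type*} [Field K]

/-- The `3`-division polynomial as a polynomial in `X`. -/
noncomputable def exist_psi3Poly (A B : K) : K[X] :=
  C (3 : K) * X ^ 4 + C (6 * A) * X ^ 2 + C (12 * B) * X - C (A ^ 2)

/-- The `5`-division polynomial as a polynomial in `X`. -/
noncomputable def exist_psi5Poly (A B : K) : K[X] :=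
  C (5 : K) * X ^ 12 + C (62 * A) * X ^ 10 + C (380 * B) * X ^ 9 - C (105 * A ^ 2) * X ^ 8
    + C (240 * A * B) * X ^ 7 - C (300 * A ^ 3 + 240 * B ^ 2) * X ^ 6
    - C (696 * A ^ 2 * B) * X ^ 5 - C (125 * A ^ 4 + 1920 * A * B ^ 2) * X ^ 4
    - C (80 * A ^ 3 * B + 1600 * B ^ 3) * X ^ 3 - C (50 * A ^ 5 + 240 * A ^ 2 * B ^ 2) * X ^ 2
    - C (100 * A ^ 4 * B + 640 * A * B ^ 3) * X + C (A ^ 6 - 32 * A ^ 3 * B ^ 2 - 256 * B ^ 4)

theorem exist_psi3Poly_eval (A B x : K) : (exist_psi3Poly A B).eval x = psi3 A B x := by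
  simp [exist_psi3Poly, psi3]

theorem exist_psi5Poly_eval (A B x : K) : (exist_psi5Poly A B).eval x = psi5 A B x := by
  simp only [exist_psi5Poly, psi5, psi3, cub, dcub, eval_add, eval_sub, eval_mul, eval_C,
    eval_pow, eval_X]
  ring

theorem exist_psi3Poly_natDegree [CharZero K] (A B : K) :
    (exist_psi3Poly A B).natDegree = 4 := by
  unfold exist_psi3Poly
  compute_degree!

theorem exist_psi5Poly_natDegree [CharZero K] (A B : K) :
    (exist_psi5Poly A B).natDegree = 12 := by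
  unfold exist_psi5Poly
  compute_degree!

theorem exist_psi3_root [CharZero K] [IsAlgClosed K] (A B : K) : ∃ x : K, psi3 A B x = 0 := by
  have hdeg : (exist_psi3Poly A B).degree ≠ 0 := by
    intro h
    have := natDegree_eq_of_degree_eq_some h
    rw [exist_psi3Poly_natDegree] at this
    exact absurd this (by norm_num)
  obtain ⟨x, hx⟩ := IsAlgClosed.exists_root _ hdeg
  exact ⟨x, by rw [← exist_psi3Poly_eval]; exact hx⟩

theorem exist_psi5_root [CharZero K] [IsAlgClosed K] (A B : K) : ∃ x : K, psi5 A B x = 0 := by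
  have hdeg : (exist_psi5Poly A B).degree ≠ 0 := by
    intro h
    have := natDegree_eq_of_degree_eq_some h
    rw [exist_psi5Poly_natDegree] at this
    exact absurd this (by norm_num)
  obtain ⟨x, hx⟩ := IsAlgClosed.exists_root _ hdeg
  exact ⟨x, by rw [← exist_psi5Poly_eval]; exact hx⟩

theorem exist_sq_root [IsAlgClosed K] (c : K) : ∃ y : K, y ^ 2 = c := by
  obtain ⟨y, hy⟩ := IsAlgClosed.exists_pow_nat_eq c (n := 2) (by norm_num)
  exact ⟨y, hy⟩

end Poly

section Points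

variable {K : Type*} [Field K] [CharZero K] [DecidableEq K] {W : WeierstrassCurve.Affine K}

theorem exists_three_torsion [IsAlgClosed K] (hΔ : W.Δ ≠ 0) :
    ∃ P : W.Point, P ≠ 0 ∧ 3 • P = 0 := by
  obtain ⟨x, hx⟩ := exist_psi3_root (sA W) (sB W)
  obtain ⟨y, hy⟩ := exist_sq_root (cub (sA W) (sB W) x)
  obtain ⟨P, hP0, hPX, -⟩ := exists_point_of_eq hΔ hy
  exact ⟨P, hP0, three_nsmul_of_psi3 hΔ hP0 (by rw [hPX]; exact hx)⟩

theorem exists_five_torsion [IsAlgClosed K] (hΔ : W.Δ ≠ 0) :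
    ∃ P : W.Point, P ≠ 0 ∧ 5 • P = 0 := by
  obtain ⟨x, hx⟩ := exist_psi5_root (sA W) (sB W)
  obtain ⟨y, hy⟩ := exist_sq_root (cub (sA W) (sB W) x)
  obtain ⟨P, hP0, hPX, -⟩ := exists_point_of_eq hΔ hy
  exact ⟨P, hP0, five_nsmul_of_psi5 hΔ hP0 (by rw [hPX]; exact hx)⟩

end Points

end Fermat.Agent.S51
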