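import Fermat.Agent.S51.Defs
import Fermat.Prelude.Def_FLTPrelim_GaloisRep

open WeierstrassCurve WeierstrassCurve.Affine WeierstrassCurve.Affine.Point

namespace Fermat.Agent.S51

local notation "Qbar" => AlgebraicClosure ℚ

theorem rat_of_fixed (x : Qbar) (h : ∀ σ : Qbar ≃ₐ[ℚ] Qbar, σ x = x) :
    ∃ q : ℚ, algebraMap ℚ Qbar q = x := by
  have h1 : Algebra.IsAlgebraic ℚ Qbar := AlgebraicClosure.isAlgebraic ℚ
  have h2 : IsAlgClosure ℚ Qbar := ⟨inferInstance, h1⟩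
  have h3 : IsGalois ℚ Qbar := IsAlgClosure.isGalois ℚ Qbar
  exact (InfiniteGalois.mem_range_algebraMap_iff_fixed (k := ℚ) (K := Qbar) x).2 h

theorem galois_smul_eq_zero_iff (E : WeierstrassCurve ℚ) (σ : Qbar ≃ₐ[ℚ] Qbar)
    (P : (E⁄Qbar).Point) : σ • P = 0 ↔ P = 0 := by
  rw [algEquiv_smul_def]
  exact map_eq_zero_iff (Point.map σ.toAlgHom) (Point.map_injective σ.toAlgHom)

theorem galois_b₂_fixed (E : WeierstrassCurve ℚ) (σ : Qbar ≃ₐ[ℚ] Qbar) :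
    σ ((E⁄Qbar).b₂) = (E⁄Qbar).b₂ := by
  have h : (E⁄Qbar).b₂ = algebraMap ℚ Qbar E.b₂ := WeierstrassCurve.map_b₂ E (algebraMap ℚ Qbar)
  rw [h]
  exact σ.commutes _

theorem pX_galois_smul (E : WeierstrassCurve ℚ) (σ : Qbar ≃ₐ[ℚ] Qbar)
    (P : (E⁄Qbar).Point) : pX (σ • P) = σ (pX P) := by
  rw [algEquiv_smul_def]
  rcases P with _ | ⟨x, y, hxy⟩
  · show (0 : Qbar) = σ 0
    rw [_root_.map_zero]
  · show σ.toAlgHom x + (E⁄Qbar).b₂ / 12 = σ (x + (E⁄Qbar).b₂ / 12)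
    rw [map_add, map_div₀, galois_b₂_fixed, map_ofNat]
    rfl

theorem galois_smul_nsmul (E : WeierstrassCurve ℚ) (σ : Qbar ≃ₐ[ℚ] Qbar) (n : ℕ)
    (P : (E⁄Qbar).Point) : σ • (n • P) = n • (σ • P) :=
  (Point.map σ.toAlgHom).map_nsmul n P

theorem sA_baseChange (E : WeierstrassCurve ℚ) :
    sA (E⁄Qbar) = algebraMap ℚ Qbar (sA E) := by
  have h : (E⁄Qbar).c₄ = algebraMap ℚ Qbar E.c₄ := WeierstrassCurve.map_c₄ E (algebraMap ℚ Qbar)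
  unfold sA
  rw [h, map_div₀, map_neg, map_ofNat]

theorem sB_baseChange (E : WeierstrassCurve ℚ) :
    sB (E⁄Qbar) = algebraMap ℚ Qbar (sB E) := by
  have h : (E⁄Qbar).c₆ = algebraMap ℚ Qbar E.c₆ := WeierstrassCurve.map_c₆ E (algebraMap ℚ Qbar)
  unfold sB
  rw [h, map_div₀, map_neg, map_ofNat]

end Fermat.Agent.S51
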