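import Mathlib

set_option autoImplicit false

namespace Fermat.Agent.S51

/-- Rational points of `η² = ζ(9ζ+4)(1-4ζ)` from the statement that
`y² = x(x-1)(x-81)` has only the rational points with `y = 0` (via an explicit 2-isogeny). -/
theorem points15_of_descent
    (hD : ∀ x y : ℚ, y ^ 2 = x * (x - 1) * (x - 81) → y = 0)
    (ζ η : ℚ) (h : η ^ 2 = ζ * (9 * ζ + 4) * (1 - 4 * ζ)) :
    ζ = 0 ∨ ζ = 1 / 4 ∨ ζ = -4 / 9 ∨ ζ = -1 ∨ ζ = 1 / 9 := by
  -- x := -36ζ - 16, y := 36η satisfy y² = x(x+16)(x+25)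
  set x : ℚ := -36 * ζ - 16 with hx
  set y : ℚ := 36 * η with hy
  have hxy : y ^ 2 = x * (x + 16) * (x + 25) := by
    rw [hx, hy]; linear_combination 1296 * h
  by_cases hx0 : x = 0
  · right; right; left
    rw [hx] at hx0; linarith
  -- 2-isogenous point
  have h2 : (y * (400 - x ^ 2) / x ^ 2) ^ 2 =
      ((x + 16) * (x + 25) / x) * ((x + 16) * (x + 25) / x - 1) *
        ((x + 16) * (x + 25) / x - 81) := by
    field_simp
    linear_combination (400 - x ^ 2) ^ 2 * hxy
  have h3 := hD _ _ h2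
  have h4 : y * (400 - x ^ 2) = 0 := by
    have hx2 : x ^ 2 ≠ 0 := pow_ne_zero 2 hx0
    rcases div_eq_zero_iff.mp h3 with h5 | h5
    · exact h5
    · exact absurd h5 hx2
  rcases mul_eq_zero.mp h4 with hy0 | hx400
  · -- y = 0: x ∈ {0, -16, -25}
    have h5 : x * (x + 16) * (x + 25) = 0 := by rw [← hxy, hy0]; ring
    rcases mul_eq_zero.mp h5 with h6 | h6
    · rcases mul_eq_zero.mp h6 with h7 | h7
      · exact absurd h7 hx0
      · left; rw [hx] at h7; linarith
    · right; left; rw [hx] at h6; linarith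
  · -- x² = 400
    have h5 : (x - 20) * (x + 20) = 0 := by linear_combination -hx400
    rcases mul_eq_zero.mp h5 with h6 | h6
    · right; right; right; left; rw [hx] at h6; linarith
    · right; right; right; right; rw [hx] at h6; linarith

end Fermat.Agent.S51
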