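import Fermat.Agent.S51.Descent
import Fermat.Agent.S51.Points15Aux

set_option autoImplicit false

namespace Fermat.Agent.S51

theorem points_15a1 (ζ η : ℚ) (h : η ^ 2 = ζ * (9 * ζ + 4) * (1 - 4 * ζ)) :
    ζ = 0 ∨ ζ = 1 / 4 ∨ ζ = -4 / 9 ∨ ζ = -1 ∨ ζ = 1 / 9 :=
  points15_of_descent D15 ζ η h

end Fermat.Agent.S51
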