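import Mathlib

set_option autoImplicit false

namespace Fermat.Agent.S51

/-- Auxiliary: from `a * c4^3 = 5^e * m * Δ`-type identities conclude `5 ∣ c4` and `5 ∣ Δ`. -/
theorem semistable_aux (c4 Δ a m : ℤ) (ha : ¬ (5 : ℤ) ∣ a) (hm : ¬ (5 : ℤ) ∣ m)
    (h : a * c4 ^ 3 = 5 * m * Δ ∨ a * c4 ^ 3 = 25 * m * Δ) :
    (5 : ℤ) ∣ Δ ∧ (5 : ℤ) ∣ c4 := by
  have hp5 : Prime (5 : ℤ) := by
    rw [Int.prime_iff_natAbs_prime]; norm_num
  have hc4 : (5 : ℤ) ∣ c4 := by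
    have h1 : (5 : ℤ) ∣ a * c4 ^ 3 := by
      rcases h with h | h
      · exact ⟨m * Δ, by rw [h]; ring⟩
      · exact ⟨5 * m * Δ, by rw [h]; ring⟩
    rcases hp5.dvd_or_dvd h1 with h2 | h2
    · exact absurd h2 ha
    · exact hp5.dvd_of_dvd_pow h2
  refine ⟨?_, hc4⟩
  obtain ⟨k, rfl⟩ := hc4
  have h1 : (5 : ℤ) ∣ m * Δ := by
    rcases h with h | h
    · exact ⟨5 * a * k ^ 3, by linarith⟩
    · exact ⟨a * k ^ 3, by linarith⟩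
  rcases hp5.dvd_or_dvd h1 with h2 | h2
  · exact absurd h2 hm
  · exact h2

theorem semistable_contra (c4 Δ : ℤ) (hΔ : Δ ≠ 0) (hss : (5 : ℤ) ∣ Δ → ¬ (5 : ℤ) ∣ c4) (s : ℚ)
    (hs : s = -25 / 2 ∨ s = -25 / 8 ∨ s = -10 ∨ s = -40)
    (h : (c4 : ℚ) ^ 3 * s = (Δ : ℚ) * (s ^ 2 + 10 * s + 5) ^ 3) : False := by
  have key : ∃ a m : ℤ, ¬ (5 : ℤ) ∣ a ∧ ¬ (5 : ℤ) ∣ m ∧
      (a * c4 ^ 3 = 5 * m * Δ ∨ a * c4 ^ 3 = 25 * m * Δ) := by
    rcases hs with rfl | rfl | rfl | rfl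
    · refine ⟨-32, 24389, by norm_num, by norm_num, Or.inl ?_⟩
      have h2 : (-32 : ℚ) * (c4 : ℚ) ^ 3 = 5 * 24389 * (Δ : ℚ) := by
        norm_num at h; linarith
      exact_mod_cast h2
    · refine ⟨32768, 9393931, by norm_num, by norm_num, Or.inl ?_⟩
      have h2 : (32768 : ℚ) * (c4 : ℚ) ^ 3 = 5 * 9393931 * (Δ : ℚ) := by
        norm_num at h; linarith
      exact_mod_cast h2
    · refine ⟨-2, 1, by norm_num, by norm_num, Or.inr ?_⟩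
      have h2 : (-2 : ℚ) * (c4 : ℚ) ^ 3 = 25 * 1 * (Δ : ℚ) := by
        norm_num at h; linarith
      exact_mod_cast h2
    · refine ⟨-8, 13997521, by norm_num, by norm_num, Or.inr ?_⟩
      have h2 : (-8 : ℚ) * (c4 : ℚ) ^ 3 = 25 * 13997521 * (Δ : ℚ) := by
        norm_num at h; linarith
      exact_mod_cast h2
  obtain ⟨a, m, ha, hm, hk⟩ := key
  obtain ⟨h1, h2⟩ := semistable_aux c4 Δ a m ha hm hk
  exact hss h1 h2

end Fermat.Agent.S51
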