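import Fermat.Agent.S51.Defs

namespace Fermat.Agent.S51

section TateC

variable {K : Type*} [Field K] [CharZero K]

theorem tateC_s_eq {β c : K} (hβ : β ≠ 0) (h : β ^ 2 - 1 = c * β) : β - 1 / β - 11 = c - 11 := by
  have : β - 1 / β = c := by
    field_simp
    linear_combination h
  linear_combination this

theorem tateC_core {z β : K}
    (hC : z ^ 3 * β ^ 2 + 3 * z ^ 2 * (z - 1) ^ 2 * β + (z - 1) ^ 3 = 0)
    (hβ : β ≠ 0) (hd : β ^ 2 - 11 * β - 1 ≠ 0)
    (hζ : z * (1 - z) = 0 ∨ z * (1 - z) = 1 / 4 ∨ z * (1 - z) = -4 / 9 ∨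
      z * (1 - z) = -1 ∨ z * (1 - z) = 1 / 9) :
    β - 1 / β - 11 = -25 / 2 ∨ β - 1 / β - 11 = -25 / 8 ∨ β - 1 / β - 11 = -10 ∨
      β - 1 / β - 11 = -40 := by
  rcases hζ with h | h | h | h | h
  · -- z = 0 or z = 1
    exfalso
    rcases mul_eq_zero.mp h with hz | hz
    · rw [hz] at hC
      norm_num at hC
    · have hz1 : z = 1 := by linear_combination -hz
      rw [hz1] at hC
      norm_num at hC
      exact hβ hC
  · -- z = 1/2
    left
    have hz : z = 1 / 2 := by
      have h2 : (2 * z - 1) ^ 2 = 0 := by linear_combination -4 * h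
      have h3 : 2 * z - 1 = 0 := by simpa using h2
      linear_combination h3 / 2
    rw [hz] at hC
    have h4 : (2 * β - 1) * (β + 2) = 0 := by linear_combination 16 * hC
    rcases mul_eq_zero.mp h4 with h5 | h5
    · have hb : β = 1 / 2 := by linear_combination h5 / 2
      rw [hb]; norm_num
    · have hb : β = -2 := by linear_combination h5
      rw [hb]; norm_num
  · -- z = 4/3 or z = -1/3
    right; left
    have h2 : (3 * z - 4) * (3 * z + 1) = 0 := by linear_combination -9 * h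
    rcases mul_eq_zero.mp h2 with hz | hz
    · have hz' : z = 4 / 3 := by linear_combination hz / 3
      rw [hz'] at hC
      have h4 : (8 * β + 1) ^ 2 = 0 := by linear_combination 27 * hC
      have h5 : 8 * β + 1 = 0 := by simpa using h4
      have hb : β = -1 / 8 := by linear_combination h5 / 8
      rw [hb]; norm_num
    · have hz' : z = -1 / 3 := by linear_combination hz / 3
      rw [hz'] at hC
      have h4 : (β - 8) ^ 2 = 0 := by linear_combination -27 * hC
      have h5 : β - 8 = 0 := by simpa using h4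
      have hb : β = 8 := by linear_combination h5
      rw [hb]; norm_num
  · -- z^2 = z + 1
    right; right; left
    have hQ : z ^ 2 - z - 1 = 0 := by linear_combination -h
    have key : (β ^ 2 - 11 * β - 1) * (β ^ 2 - β - 1) = 0 := by
      linear_combination
        (-((-2) * z * β ^ 2 + (-2) * z + 3 * β ^ 2 + 3 * β + (-1))) * hC +
        (-(6 * z ^ 3 * β ^ 3 + 6 * z ^ 3 * β + 2 * z ^ 2 * β ^ 4 + (-15) * z ^ 2 * β ^ 3 +
          (-5) * z ^ 2 * β ^ 2 + (-3) * z ^ 2 * β + 2 * z ^ 2 + (-1) * z * β ^ 4 +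
          12 * z * β ^ 3 + 5 * z * β ^ 2 + (-3) * z + β ^ 4 + (-12) * β ^ 3 + 6 * β ^ 2 +
          9 * β + 2)) * hQ
    have h5 : β ^ 2 - β - 1 = 0 := (mul_eq_zero.mp key).resolve_left hd
    have := tateC_s_eq (c := 1) hβ (by linear_combination h5)
    rw [this]; norm_num
  · -- 9 z^2 = 9 z - 1
    right; right; right
    have hQ : z ^ 2 - z + 1 / 9 = 0 := by linear_combination -h
    have key : (β ^ 2 - 11 * β - 1) * (β ^ 2 + 29 * β - 1) = 0 := by
      linear_combination
        (729 * ((-8 / 9) * z * β ^ 2 + (-8 / 9) * z + (7 / 9) * β ^ 2 + (1 / 27) * β + (1 / 9))) * hC +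
        (729 * ((8 / 3) * z ^ 3 * β ^ 3 + (8 / 3) * z ^ 3 * β + (8 / 9) * z ^ 2 * β ^ 4 +
          (-5) * z ^ 2 * β ^ 3 + (5 / 3) * z ^ 2 * β ^ 2 + (-3) * z ^ 2 * β + (8 / 9) * z ^ 2 +
          (1 / 9) * z * β ^ 4 + 2 * z * β ^ 3 + (-5 / 3) * z * β ^ 2 + (-17 / 9) * z +
          (1 / 81) * β ^ 4 + (2 / 9) * β ^ 3 + (82 / 27) * β ^ 2 + (1 / 9) * β + (82 / 81))) * hQ
    have h5 : β ^ 2 + 29 * β - 1 = 0 := (mul_eq_zero.mp key).resolve_left hd
    have := tateC_s_eq (c := -29) hβ (by linear_combination h5)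
    rw [this]; norm_num

end TateC

end Fermat.Agent.S51
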