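import Fermat.Agent.S51.TateB
import Fermat.Agent.S51.TateCCore

namespace Fermat.Agent.S51

section B3

variable {K : Type*} [Field K] [CharZero K] {A B X₁ X₂ XQ : K}

theorem tS_of_tzeta (h : Rel5 A B X₁ X₂) (hQ : psi3 A B XQ = 0)
    (hΔ : 4 * A ^ 3 + 27 * B ^ 2 ≠ 0)
    (hζ : tzeta X₁ X₂ XQ = 0 ∨ tzeta X₁ X₂ XQ = 1 / 4 ∨ tzeta X₁ X₂ XQ = -4 / 9 ∨
      tzeta X₁ X₂ XQ = -1 ∨ tzeta X₁ X₂ XQ = 1 / 9) :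
    tS A B X₁ X₂ = -25 / 2 ∨ tS A B X₁ X₂ = -25 / 8 ∨ tS A B X₁ X₂ = -10 ∨
      tS A B X₁ X₂ = -40 :=
  tateC_core (tate_cubic h hQ) (tbeta_ne_zero h) (tate_disc_ne h hΔ) hζ

end B3

end Fermat.Agent.S51
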