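import Fermat.Agent.S51.Count
import Fermat.Agent.S51.Exist
import Fermat.Agent.S51.Cyclic
import Fermat.Agent.S51.Galois
import Fermat.Agent.S51.TateC
import Fermat.Agent.S51.Points15
import Fermat.Agent.S51.Semistable

set_option autoImplicit false
open WeierstrassCurve WeierstrassCurve.Affine WeierstrassCurve.Affine.Point

namespace Fermat.Agent.S51

local notation "Qbar" => AlgebraicClosure ℚ

theorem asm_reducible (E : WeierstrassCurve ℚ) (p : ℕ) (hp : p.Prime)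
    (hfin : {P : (E⁄Qbar).Point | p • P = 0}.Finite)
    (hcard : {P : (E⁄Qbar).Point | p • P = 0}.ncard ≤ p ^ 2)
    (hex : ∃ P : (E⁄Qbar).Point, P ≠ 0 ∧ p • P = 0)
    (h : ¬ GaloisRepIsIrreducible (K := Qbar) ℚ E p) :
    ∃ P : (E⁄Qbar).Point, P ≠ 0 ∧ p • P = 0 ∧
      ∀ σ : Qbar ≃ₐ[ℚ] Qbar, ∃ k : ℕ, σ • P = k • P := by
  unfold GaloisRepIsIrreducible at h
  have htors : ∀ z : Submodule.torsionBy ℤ (E⁄Qbar).Point p, p • (z : (E⁄Qbar).Point) = 0 := by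
    intro z
    have := z.2
    rw [Submodule.mem_torsionBy_iff] at this
    rwa [natCast_zsmul] at this
  have hnt : Nontrivial (Submodule.torsionBy ℤ (E⁄Qbar).Point p) := by
    obtain ⟨P, hP0, hP⟩ := hex
    refine ⟨⟨⟨P, ?_⟩, 0, ?_⟩⟩
    · rw [Submodule.mem_torsionBy_iff]; simpa using hP
    · intro h0; apply hP0; exact congrArg Subtype.val h0
  have h' : ¬ ∀ N : Submodule (ZMod p) (Submodule.torsionBy ℤ (E⁄Qbar).Point p),
      IsGaloisStable ℚ N → N = ⊥ ∨ N = ⊤ := fun hall => h ⟨hnt, hall⟩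
  push Not at h'
  obtain ⟨N, hstab, hbot, htop⟩ := h'
  obtain ⟨x, hxN, hx0⟩ := (Submodule.ne_bot_iff N).mp hbot
  have htop' : ∃ y, y ∉ N := by
    by_contra hall
    push Not at hall
    exact htop (Submodule.eq_top_iff'.mpr hall)
  obtain ⟨y, hyN⟩ := htop'
  let N' : AddSubgroup (E⁄Qbar).Point :=
    N.toAddSubgroup.map (Submodule.torsionBy ℤ (E⁄Qbar).Point p).subtype.toAddMonoidHom
  have hmem : ∀ z : Submodule.torsionBy ℤ (E⁄Qbar).Point p,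
      (z : (E⁄Qbar).Point) ∈ N' ↔ z ∈ N := by
    intro z
    constructor
    · rintro ⟨w, hw, hwz⟩
      have : w = z := Subtype.ext hwz
      rw [← this]; exact hw
    · intro hz; exact ⟨z, hz, rfl⟩
  have hx0' : (x : (E⁄Qbar).Point) ≠ 0 := fun h0 => hx0 (Subtype.ext h0)
  refine ⟨x, hx0', htors x, fun σ => ?_⟩
  exact cyclic_of_card_le p hp hfin hcard N' (by rintro _ ⟨z, _, rfl⟩; exact htors z)
    ⟨y, htors y, fun hy => hyN ((hmem y).mp hy)⟩ ((hmem x).mpr hxN) hx0'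
    (σ • (x : (E⁄Qbar).Point)) ((hmem (σ • x)).mpr (hstab σ x hxN))

theorem asm_map_tzeta (σ : Qbar ≃ₐ[ℚ] Qbar) (a b c : Qbar) :
    σ (tzeta a b c) = tzeta (σ a) (σ b) (σ c) := by
  simp [tzeta, tz, map_div₀]

theorem asm_map_teta (σ : Qbar ≃ₐ[ℚ] Qbar) (A B a b c : Qbar) :
    σ (teta A B a b c) = teta (σ A) (σ B) (σ a) (σ b) (σ c) := by
  simp [teta, tz, tbeta, cub, map_div₀, map_ofNat]

theorem asm_fix3 (E : WeierstrassCurve ℚ) {Q : (E⁄Qbar).Point} (hQ0 : Q ≠ 0) (hQ3 : 3 • Q = 0)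
    (σ : Qbar ≃ₐ[ℚ] Qbar) (hσ : ∃ k : ℕ, σ • Q = k • Q) : σ (pX Q) = pX Q := by
  obtain ⟨k, hk⟩ := hσ
  rw [nsmul_mod_of_torsion hQ3 k] at hk
  rw [← pX_galois_smul]
  have hlt : k % 3 < 3 := Nat.mod_lt _ (by norm_num)
  have h2 : 2 • Q = -Q := eq_neg_of_add_eq_zero_left (by rw [← hQ3]; abel)
  interval_cases h : k % 3
  · rw [zero_nsmul] at hk
    exact absurd ((galois_smul_eq_zero_iff E σ Q).mp hk) hQ0
  · rw [hk, one_nsmul]
  · rw [hk, h2, pX_neg]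

theorem asm_fix5 (E : WeierstrassCurve ℚ) {P : (E⁄Qbar).Point} (hP0 : P ≠ 0) (hP5 : 5 • P = 0)
    (σ : Qbar ≃ₐ[ℚ] Qbar) (hσ : ∃ k : ℕ, σ • P = k • P) :
    (σ (pX P) = pX P ∧ σ (pX (2 • P)) = pX (2 • P)) ∨
      (σ (pX P) = pX (2 • P) ∧ σ (pX (2 • P)) = pX P) := by
  obtain ⟨k, hk⟩ := hσ
  rw [nsmul_mod_of_torsion hP5 k] at hk
  rw [← pX_galois_smul, ← pX_galois_smul, galois_smul_nsmul]
  have hlt : k % 5 < 5 := Nat.mod_lt _ (by norm_num)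
  have h4 : 4 • P = -P := eq_neg_of_add_eq_zero_left (by rw [← hP5]; abel)
  have h3 : (3 : ℕ) • P = -((2 : ℕ) • P) := eq_neg_of_add_eq_zero_left (by rw [← hP5]; abel)
  interval_cases h : k % 5
  · rw [zero_nsmul] at hk
    exact absurd ((galois_smul_eq_zero_iff E σ P).mp hk) hP0
  · left; rw [hk, one_nsmul]; exact ⟨rfl, rfl⟩
  · right; rw [hk]
    refine ⟨rfl, ?_⟩
    rw [show 2 • 2 • P = 4 • P by abel, h4, pX_neg]
  · right; rw [hk]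
    refine ⟨by rw [h3, pX_neg], ?_⟩
    rw [show 2 • 3 • P = 5 • P + P by abel, hP5, zero_add]
  · left; rw [hk]
    refine ⟨by rw [h4, pX_neg], ?_⟩
    rw [show 2 • 4 • P = 5 • P + 3 • P by abel, hP5, zero_add, h3, pX_neg]

theorem asm_main (E : WeierstrassCurve ℚ) (hΔ : E.Δ ≠ 0)
    (h3 : ¬ GaloisRepIsIrreducible (K := Qbar) ℚ E 3)
    (h5 : ¬ GaloisRepIsIrreducible (K := Qbar) ℚ E 5) :
    ∃ s : ℚ, (s = -25 / 2 ∨ s = -25 / 8 ∨ s = -10 ∨ s = -40) ∧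
      E.c₄ ^ 3 * s = E.Δ * (s ^ 2 + 10 * s + 5) ^ 3 := by
  have hc4K : (E⁄Qbar).c₄ = algebraMap ℚ Qbar E.c₄ := by
    simp [WeierstrassCurve.baseChange]
  have hΔK' : (E⁄Qbar).Δ = algebraMap ℚ Qbar E.Δ := by
    simp [WeierstrassCurve.baseChange]
  have hΔK : (E⁄Qbar).Δ ≠ 0 := by
    rw [hΔK']
    exact (map_ne_zero_iff _ (algebraMap ℚ Qbar).injective).mpr hΔ
  obtain ⟨Q, hQ0, hQ3, hQσ⟩ := asm_reducible E 3 Nat.prime_three three_torsion_finite.1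
    three_torsion_finite.2 (exists_three_torsion hΔK) h3
  obtain ⟨P, hP0, hP5, hPσ⟩ := asm_reducible E 5 Nat.prime_five five_torsion_finite.1
    five_torsion_finite.2 (exists_five_torsion hΔK) h5
  have hrel : Rel5 (sA (E⁄Qbar)) (sB (E⁄Qbar)) (pX P) (pX (2 • P)) :=
    rel5_of_five_nsmul hP0 hP5
  have hpsi : psi3 (sA (E⁄Qbar)) (sB (E⁄Qbar)) (pX Q) = 0 := psi3_of_three_nsmul hQ0 hQ3
  have hσA : ∀ σ : Qbar ≃ₐ[ℚ] Qbar, σ (sA (E⁄Qbar)) = sA (E⁄Qbar) := by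
    intro σ; rw [sA_baseChange]; exact σ.commutes _
  have hσB : ∀ σ : Qbar ≃ₐ[ℚ] Qbar, σ (sB (E⁄Qbar)) = sB (E⁄Qbar) := by
    intro σ; rw [sB_baseChange]; exact σ.commutes _
  have hζfix : ∀ σ : Qbar ≃ₐ[ℚ] Qbar,
      σ (tzeta (pX P) (pX (2 • P)) (pX Q)) = tzeta (pX P) (pX (2 • P)) (pX Q) := by
    intro σ
    rw [asm_map_tzeta, asm_fix3 E hQ0 hQ3 σ (hQσ σ)]
    rcases asm_fix5 E hP0 hP5 σ (hPσ σ) with ⟨h1, h2⟩ | ⟨h1, h2⟩
    · rw [h1, h2]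
    · rw [h1, h2]; exact tzeta_swap hrel.1
  have hηfix : ∀ σ : Qbar ≃ₐ[ℚ] Qbar,
      σ (teta (sA (E⁄Qbar)) (sB (E⁄Qbar)) (pX P) (pX (2 • P)) (pX Q)) =
        teta (sA (E⁄Qbar)) (sB (E⁄Qbar)) (pX P) (pX (2 • P)) (pX Q) := by
    intro σ
    rw [asm_map_teta, asm_fix3 E hQ0 hQ3 σ (hQσ σ), hσA, hσB]
    rcases asm_fix5 E hP0 hP5 σ (hPσ σ) with ⟨h1, h2⟩ | ⟨h1, h2⟩
    · rw [h1, h2]
    · rw [h1, h2]; exact teta_swap hrel hpsi
  obtain ⟨ζ₀, hζ₀⟩ := rat_of_fixed _ hζfix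
  obtain ⟨η₀, hη₀⟩ := rat_of_fixed _ hηfix
  have hsq := teta_sq hrel hpsi
  rw [← hζ₀, ← hη₀] at hsq
  have hsq' : η₀ ^ 2 = ζ₀ * (9 * ζ₀ + 4) * (1 - 4 * ζ₀) := by
    apply (algebraMap ℚ Qbar).injective
    simpa [map_ofNat] using hsq
  have hlist := points_15a1 ζ₀ η₀ hsq'
  have hΔAB : 4 * sA (E⁄Qbar) ^ 3 + 27 * sB (E⁄Qbar) ^ 2 ≠ 0 := by
    intro h0
    apply hΔK
    rw [disc_eq_sA_sB, h0, mul_zero]
  have hs := tS_of_tzeta hrel hpsi hΔAB (by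
    rw [← hζ₀]
    rcases hlist with h | h | h | h | h <;> rw [h] <;> simp [map_ofNat, map_div₀])
  have hc4 := tate_c4_cube hrel
  rw [← c4_eq_sA, ← disc_eq_sA_sB, hc4K, hΔK'] at hc4
  rcases hs with hs | hs | hs | hs
  · refine ⟨-25 / 2, Or.inl rfl, ?_⟩
    apply (algebraMap ℚ Qbar).injective
    rw [hs] at hc4
    simpa [map_ofNat, map_div₀] using hc4
  · refine ⟨-25 / 8, Or.inr (Or.inl rfl), ?_⟩
    apply (algebraMap ℚ Qbar).injective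
    rw [hs] at hc4
    simpa [map_ofNat, map_div₀] using hc4
  · refine ⟨-10, Or.inr (Or.inr (Or.inl rfl)), ?_⟩
    apply (algebraMap ℚ Qbar).injective
    rw [hs] at hc4
    simpa [map_ofNat, map_div₀] using hc4
  · refine ⟨-40, Or.inr (Or.inr (Or.inr rfl)), ?_⟩
    apply (algebraMap ℚ Qbar).injective
    rw [hs] at hc4
    simpa [map_ofNat, map_div₀] using hc4

end Fermat.Agent.S51
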