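import Mathlib

set_option autoImplicit false

namespace Fermat.Agent.S51

open WeierstrassCurve

section VarChange

variable {F : Type*} [Field F]

/-- The `X`-coordinate of the image of a point under a variable change. -/
def vc_X (C : VariableChange F) (x : F) : F := (C.u : F) ^ 2 * x + C.r

/-- The `Y`-coordinate of the image of a point under a variable change. -/
def vc_Y (C : VariableChange F) (x y : F) : F :=
  (C.u : F) ^ 3 * y + (C.u : F) ^ 2 * C.s * x + C.t

lemma vc_u_ne_zero (C : VariableChange F) : (C.u : F) ≠ 0 := C.u.ne_zero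

lemma vc_X_injective (C : VariableChange F) : Function.Injective (vc_X C) := by
  intro x x' h
  have hu := vc_u_ne_zero C
  simp only [vc_X] at h
  have h2 : (C.u : F) ^ 2 * (x - x') = 0 := by linear_combination h
  have h3 : (C.u : F) ^ 2 ≠ 0 := pow_ne_zero 2 hu
  have := (mul_eq_zero.mp h2).resolve_left h3
  exact sub_eq_zero.mp this

lemma vc_Y_injective (C : VariableChange F) (x : F) : Function.Injective (vc_Y C x) := by
  intro y y' h
  have hu := vc_u_ne_zero C
  simp only [vc_Y] at h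
  have h2 : (C.u : F) ^ 3 * (y - y') = 0 := by linear_combination h
  have h3 : (C.u : F) ^ 3 ≠ 0 := pow_ne_zero 3 hu
  have := (mul_eq_zero.mp h2).resolve_left h3
  exact sub_eq_zero.mp this

lemma vc_equation_iff (W : WeierstrassCurve F) (C : VariableChange F) (x y : F) :
    (C • W).toAffine.Equation x y ↔ W.toAffine.Equation (vc_X C x) (vc_Y C x y) := by
  have hu := vc_u_ne_zero C
  rw [Affine.equation_iff, Affine.equation_iff]
  simp only [variableChange_a₁, variableChange_a₂, variableChange_a₃, variableChange_a₄,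
    variableChange_a₆, Units.val_inv_eq_inv_val, vc_X, vc_Y]
  constructor
  · intro h
    field_simp at h
    linear_combination h
  · intro h
    field_simp
    linear_combination h

lemma vc_polyY (W : WeierstrassCurve F) (C : VariableChange F) (x y : F) :
    2 * vc_Y C x y + W.a₁ * vc_X C x + W.a₃ =
      (C.u : F) ^ 3 * (2 * y + (C • W).a₁ * x + (C • W).a₃) := by
  have hu := vc_u_ne_zero C
  simp only [variableChange_a₁, variableChange_a₃, Units.val_inv_eq_inv_val, vc_X, vc_Y]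
  field_simp
  ring

lemma vc_polyX (W : WeierstrassCurve F) (C : VariableChange F) (x y : F) :
    W.a₁ * vc_Y C x y - (3 * vc_X C x ^ 2 + 2 * W.a₂ * vc_X C x + W.a₄) =
      (C.u : F) ^ 4 * ((C • W).a₁ * y - (3 * x ^ 2 + 2 * (C • W).a₂ * x + (C • W).a₄))
        - C.s * ((C.u : F) ^ 3 * (2 * y + (C • W).a₁ * x + (C • W).a₃)) := by
  have hu := vc_u_ne_zero C
  simp only [variableChange_a₁, variableChange_a₂, variableChange_a₃, variableChange_a₄,
    Units.val_inv_eq_inv_val, vc_X, vc_Y]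
  field_simp
  ring

lemma vc_nonsingular_iff (W : WeierstrassCurve F) (C : VariableChange F) (x y : F) :
    (C • W).toAffine.Nonsingular x y ↔ W.toAffine.Nonsingular (vc_X C x) (vc_Y C x y) := by
  have hu := vc_u_ne_zero C
  rw [Affine.nonsingular_iff', Affine.nonsingular_iff', vc_equation_iff, vc_polyX, vc_polyY]
  refine and_congr_right fun _ => ?_
  constructor
  · rintro (h | h)
    · by_cases h2 : 2 * y + (C • W).a₁ * x + (C • W).a₃ = 0
      · left
        rw [h2, mul_zero, mul_zero, sub_zero]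
        exact mul_ne_zero (pow_ne_zero 4 hu) h
      · right
        exact mul_ne_zero (pow_ne_zero 3 hu) h2
    · right
      exact mul_ne_zero (pow_ne_zero 3 hu) h
  · rintro (h | h)
    · by_contra hc
      rw [not_or, not_not, not_not] at hc
      rw [hc.1, hc.2] at h
      simp at h
    · right
      exact right_ne_zero_of_mul h

lemma vc_negY (W : WeierstrassCurve F) (C : VariableChange F) (x y : F) :
    W.toAffine.negY (vc_X C x) (vc_Y C x y) = vc_Y C x ((C • W).toAffine.negY x y) := by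
  have hu := vc_u_ne_zero C
  simp only [Affine.negY, variableChange_a₁, variableChange_a₃, Units.val_inv_eq_inv_val, vc_X,
    vc_Y]
  field_simp
  ring

lemma vc_slope [DecidableEq F] (W : WeierstrassCurve F) (C : VariableChange F) {x₁ x₂ y₁ y₂ : F}
    (h₁ : (C • W).toAffine.Equation x₁ y₁) (h₂ : (C • W).toAffine.Equation x₂ y₂)
    (hxy : ¬(x₁ = x₂ ∧ y₁ = (C • W).toAffine.negY x₂ y₂)) :
    W.toAffine.slope (vc_X C x₁) (vc_X C x₂) (vc_Y C x₁ y₁) (vc_Y C x₂ y₂) =
      (C.u : F) * (C • W).toAffine.slope x₁ x₂ y₁ y₂ + C.s := by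
  have hu := vc_u_ne_zero C
  by_cases hx : x₁ = x₂
  · have hy : y₁ ≠ (C • W).toAffine.negY x₂ y₂ := fun h => hxy ⟨hx, h⟩
    have hy12 : y₁ = y₂ := Affine.Y_eq_of_Y_ne h₁ h₂ hx hy
    subst hx hy12
    have hy' : vc_Y C x₁ y₁ ≠ W.toAffine.negY (vc_X C x₁) (vc_Y C x₁ y₁) := by
      rw [vc_negY]
      exact fun h => hy (vc_Y_injective C x₁ h)
    rw [Affine.slope_of_Y_ne rfl hy, Affine.slope_of_Y_ne rfl hy']
    have hd : y₁ - (C • W).toAffine.negY x₁ y₁ ≠ 0 := sub_ne_zero.mpr hy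
    have hd' : vc_Y C x₁ y₁ - W.toAffine.negY (vc_X C x₁) (vc_Y C x₁ y₁) ≠ 0 :=
      sub_ne_zero.mpr hy'
    have e1 : vc_Y C x₁ y₁ - W.toAffine.negY (vc_X C x₁) (vc_Y C x₁ y₁) =
        (C.u : F) ^ 3 * (y₁ - (C • W).toAffine.negY x₁ y₁) := by
      have := vc_polyY W C x₁ y₁
      simp only [Affine.negY]
      linear_combination this
    have e2 : 3 * vc_X C x₁ ^ 2 + 2 * W.a₂ * vc_X C x₁ + W.a₄ - W.a₁ * vc_Y C x₁ y₁ =
        (C.u : F) ^ 4 * (3 * x₁ ^ 2 + 2 * (C • W).a₂ * x₁ + (C • W).a₄ - (C • W).a₁ * y₁)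
          + C.s * ((C.u : F) ^ 3 * (y₁ - (C • W).toAffine.negY x₁ y₁)) := by
      have := vc_polyX W C x₁ y₁
      simp only [Affine.negY]
      linear_combination -this
    rw [e1, e2]
    field_simp
  · have hx' : vc_X C x₁ ≠ vc_X C x₂ := fun h => hx (vc_X_injective C h)
    rw [Affine.slope_of_X_ne hx, Affine.slope_of_X_ne hx']
    have hd : x₁ - x₂ ≠ 0 := sub_ne_zero.mpr hx
    have hd' : vc_X C x₁ - vc_X C x₂ ≠ 0 := sub_ne_zero.mpr hx'
    rw [div_eq_iff hd']
    simp only [vc_X, vc_Y]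
    field_simp
    ring

lemma vc_addX (W : WeierstrassCurve F) (C : VariableChange F) (x₁ x₂ ℓ : F) :
    W.toAffine.addX (vc_X C x₁) (vc_X C x₂) ((C.u : F) * ℓ + C.s) =
      vc_X C ((C • W).toAffine.addX x₁ x₂ ℓ) := by
  have hu := vc_u_ne_zero C
  simp only [Affine.addX, variableChange_a₁, variableChange_a₂, Units.val_inv_eq_inv_val, vc_X]
  field_simp
  ring

lemma vc_negAddY (W : WeierstrassCurve F) (C : VariableChange F) (x₁ x₂ y₁ ℓ : F) :
    W.toAffine.negAddY (vc_X C x₁) (vc_X C x₂) (vc_Y C x₁ y₁) ((C.u : F) * ℓ + C.s) =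
      vc_Y C ((C • W).toAffine.addX x₁ x₂ ℓ) ((C • W).toAffine.negAddY x₁ x₂ y₁ ℓ) := by
  rw [Affine.negAddY, Affine.negAddY, vc_addX]
  simp only [vc_X, vc_Y]
  ring

lemma vc_addY (W : WeierstrassCurve F) (C : VariableChange F) (x₁ x₂ y₁ ℓ : F) :
    W.toAffine.addY (vc_X C x₁) (vc_X C x₂) (vc_Y C x₁ y₁) ((C.u : F) * ℓ + C.s) =
      vc_Y C ((C • W).toAffine.addX x₁ x₂ ℓ) ((C • W).toAffine.addY x₁ x₂ y₁ ℓ) := by
  rw [Affine.addY, Affine.addY, vc_negAddY, vc_addX, vc_negY]

/-- The map on points induced by a variable change. -/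
def vc_fun (W : WeierstrassCurve F) (C : VariableChange F) :
    (C • W).toAffine.Point → W.toAffine.Point
  | .zero => .zero
  | .some x y h => .some (vc_X C x) (vc_Y C x y) ((vc_nonsingular_iff W C x y).mp h)

lemma vc_fun_zero (W : WeierstrassCurve F) (C : VariableChange F) :
    vc_fun W C 0 = 0 := rfl

lemma vc_fun_some (W : WeierstrassCurve F) (C : VariableChange F) {x y : F}
    (h : (C • W).toAffine.Nonsingular x y) :
    vc_fun W C (.some x y h) = .some (vc_X C x) (vc_Y C x y) ((vc_nonsingular_iff W C x y).mp h) :=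
  rfl

lemma vc_fun_add [DecidableEq F] (W : WeierstrassCurve F) (C : VariableChange F)
    (P Q : (C • W).toAffine.Point) :
    vc_fun W C (P + Q) = vc_fun W C P + vc_fun W C Q := by
  rcases P with _ | ⟨x₁, y₁, h₁⟩
  · change vc_fun W C (0 + Q) = 0 + vc_fun W C Q
    rw [zero_add, zero_add]
  rcases Q with _ | ⟨x₂, y₂, h₂⟩
  · change vc_fun W C (_ + 0) = _ + 0
    rw [add_zero, add_zero]
  by_cases hxy : x₁ = x₂ ∧ y₁ = (C • W).toAffine.negY x₂ y₂
  · rw [Affine.Point.add_of_Y_eq hxy.1 hxy.2, vc_fun_some, vc_fun_some,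
      Affine.Point.add_of_Y_eq (by rw [hxy.1]) (by rw [vc_negY, ← hxy.2, hxy.1])]
    rfl
  · have hxy' : ¬(vc_X C x₁ = vc_X C x₂ ∧
        vc_Y C x₁ y₁ = W.toAffine.negY (vc_X C x₂) (vc_Y C x₂ y₂)) := by
      rintro ⟨hx, hy⟩
      have hx' := vc_X_injective C hx
      subst hx'
      rw [vc_negY] at hy
      exact hxy ⟨rfl, vc_Y_injective C x₁ hy⟩
    rw [Affine.Point.add_some hxy, vc_fun_some, vc_fun_some, vc_fun_some,
      Affine.Point.add_some hxy']
    have hs := vc_slope W C h₁.1 h₂.1 hxy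
    simp only [Affine.Point.some.injEq]
    rw [hs]
    exact ⟨(vc_addX W C x₁ x₂ _).symm, (vc_addY W C x₁ x₂ y₁ _).symm⟩

lemma vc_fun_injective (W : WeierstrassCurve F) (C : VariableChange F) :
    Function.Injective (vc_fun W C) := by
  rintro (_ | ⟨x₁, y₁, h₁⟩) (_ | ⟨x₂, y₂, h₂⟩) h
  · rfl
  · exact absurd h (by simp [vc_fun])
  · exact absurd h (by simp [vc_fun])
  · simp only [vc_fun, Affine.Point.some.injEq] at h
    obtain ⟨hx, hy⟩ := h
    have hx' := vc_X_injective C hx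
    subst hx'
    have hy' := vc_Y_injective C x₁ hy
    subst hy'
    rfl

lemma vc_fun_surjective (W : WeierstrassCurve F) (C : VariableChange F) :
    Function.Surjective (vc_fun W C) := by
  have hu := vc_u_ne_zero C
  rintro (_ | ⟨X, Y, h⟩)
  · exact ⟨0, rfl⟩
  · have hX : vc_X C ((X - C.r) / (C.u : F) ^ 2) = X := by
      simp only [vc_X]
      field_simp
      ring
    have hY : vc_Y C ((X - C.r) / (C.u : F) ^ 2)
        ((Y - C.s * (X - C.r) - C.t) / (C.u : F) ^ 3) = Y := by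
      simp only [vc_Y]
      field_simp
      ring
    have h' : (C • W).toAffine.Nonsingular ((X - C.r) / (C.u : F) ^ 2)
        ((Y - C.s * (X - C.r) - C.t) / (C.u : F) ^ 3) := by
      rw [vc_nonsingular_iff, hX, hY]
      exact h
    refine ⟨.some _ _ h', ?_⟩
    rw [vc_fun_some]
    simp only [Affine.Point.some.injEq]
    exact ⟨hX, hY⟩

/-- The additive equivalence on points induced by a variable change. -/
noncomputable def vc_addEquiv [DecidableEq F] (W : WeierstrassCurve F) (C : VariableChange F) :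
    (C • W).toAffine.Point ≃+ W.toAffine.Point :=
  AddEquiv.ofBijective (AddMonoidHom.mk' (vc_fun W C) (vc_fun_add W C))
    ⟨vc_fun_injective W C, vc_fun_surjective W C⟩

lemma vc_addEquiv_apply [DecidableEq F] (W : WeierstrassCurve F) (C : VariableChange F)
    (P : (C • W).toAffine.Point) : vc_addEquiv W C P = vc_fun W C P := rfl

end VarChange

section Tate

open Polynomial

variable {K : Type*} [Field K]

lemma vc_double [DecidableEq K] {W : Affine K} {x y x' y' : K} (h : W.Nonsingular x y)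
    (hy : y ≠ W.negY x y) (hx' : W.addX x x (W.slope x x y y) = x')
    (hy' : W.addY x x y (W.slope x x y y) = y') :
    ∃ h' : W.Nonsingular x' y', Affine.Point.some x y h + Affine.Point.some x y h =
      Affine.Point.some x' y' h' := by
  subst hx' hy'
  exact ⟨_, Affine.Point.add_self_of_Y_ne hy⟩

lemma vc_transport [DecidableEq K] (E T : WeierstrassCurve K) (C : VariableChange K)
    (hC : C • E = T) (n : ℕ) (h : ∃ P : T.toAffine.Point, P ≠ 0 ∧ n • P = 0) :
    ∃ P : E.toAffine.Point, P ≠ 0 ∧ n • P = 0 := by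
  subst hC
  obtain ⟨P, hP, hn⟩ := h
  refine ⟨vc_addEquiv E C P, ?_, ?_⟩
  · rwa [Ne, AddEquiv.map_eq_zero_iff]
  · rw [← map_nsmul, hn, map_zero]

/-- The Tate normal form of a curve with a point of order five. -/
def vc_tate5 (b : K) : WeierstrassCurve K := ⟨1 - b, -b, -b, 0, 0⟩

lemma vc_tate5_Δ (b : K) : (vc_tate5 b).Δ = b ^ 5 * (b ^ 2 - 11 * b - 1) := by
  simp only [vc_tate5, WeierstrassCurve.Δ, WeierstrassCurve.b₂, WeierstrassCurve.b₄,
    WeierstrassCurve.b₆, WeierstrassCurve.b₈]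
  ring

lemma vc_tate5_c₄ (b : K) :
    (vc_tate5 b).c₄ = b ^ 4 - 12 * b ^ 3 + 14 * b ^ 2 + 12 * b + 1 := by
  simp only [vc_tate5, WeierstrassCurve.c₄, WeierstrassCurve.b₂, WeierstrassCurve.b₄]
  ring

lemma vc_tate5_order [DecidableEq K] (b : K) (hb : b ≠ 0) :
    ∃ P : (vc_tate5 b).toAffine.Point, P ≠ 0 ∧ 5 • P = 0 := by
  have h0 : (vc_tate5 b).toAffine.Nonsingular 0 0 := by
    rw [Affine.nonsingular_zero]
    exact ⟨rfl, Or.inl (neg_ne_zero.mpr hb)⟩
  have hn0 : (vc_tate5 b).toAffine.negY 0 0 = b := by simp [vc_tate5]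
  have hy0 : (0 : K) ≠ (vc_tate5 b).toAffine.negY 0 0 := by rw [hn0]; exact hb.symm
  have hs0 : (vc_tate5 b).toAffine.slope 0 0 0 0 = 0 := by
    rw [Affine.slope_of_Y_ne rfl hy0]
    simp [vc_tate5]
  obtain ⟨h1, e1⟩ := vc_double (x' := b) (y' := b ^ 2) h0 hy0
    (by rw [hs0]; simp [vc_tate5])
    (by rw [hs0]; simp [Affine.addY, vc_tate5]; ring)
  have hn1 : (vc_tate5 b).toAffine.negY b (b ^ 2) = 0 := by simp [vc_tate5]; ring
  have hy1 : b ^ 2 ≠ (vc_tate5 b).toAffine.negY b (b ^ 2) := by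
    rw [hn1]; exact pow_ne_zero 2 hb
  have hs1 : (vc_tate5 b).toAffine.slope b b (b ^ 2) (b ^ 2) = b := by
    rw [Affine.slope_of_Y_ne rfl hy1, hn1]
    simp only [vc_tate5]
    field_simp
    ring
  obtain ⟨h2, e2⟩ := vc_double (x' := 0) (y' := b) h1 hy1
    (by rw [hs1]; simp [vc_tate5]; ring)
    (by rw [hs1]; simp [Affine.addY, vc_tate5]; ring)
  have e3 : Affine.Point.some 0 b h2 = -Affine.Point.some 0 0 h0 := by
    rw [Affine.Point.neg_some]
    simp only [Affine.Point.some.injEq, true_and]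
    exact hn0.symm
  refine ⟨Affine.Point.some 0 0 h0, Affine.Point.some_ne_zero h0, ?_⟩
  have e5 : 5 • Affine.Point.some 0 0 h0 =
      (Affine.Point.some 0 0 h0 + Affine.Point.some 0 0 h0) +
        (Affine.Point.some 0 0 h0 + Affine.Point.some 0 0 h0) + Affine.Point.some 0 0 h0 := by
    abel
  rw [e5, e1, e2, e3, neg_add_cancel]

/-- The Tate normal form of a curve with a point of order three. -/
def vc_tate3 (c : K) : WeierstrassCurve K := ⟨c, 0, 1, 0, 0⟩

lemma vc_tate3_Δ (c : K) : (vc_tate3 c).Δ = c ^ 3 - 27 := by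
  simp only [vc_tate3, WeierstrassCurve.Δ, WeierstrassCurve.b₂, WeierstrassCurve.b₄,
    WeierstrassCurve.b₆, WeierstrassCurve.b₈]
  ring

lemma vc_tate3_c₄ (c : K) : (vc_tate3 c).c₄ = c ^ 4 - 24 * c := by
  simp only [vc_tate3, WeierstrassCurve.c₄, WeierstrassCurve.b₂, WeierstrassCurve.b₄]
  ring

lemma vc_tate3_order [DecidableEq K] (c : K) :
    ∃ P : (vc_tate3 c).toAffine.Point, P ≠ 0 ∧ 3 • P = 0 := by
  have h0 : (vc_tate3 c).toAffine.Nonsingular 0 0 := by
    rw [Affine.nonsingular_zero]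
    exact ⟨rfl, Or.inl one_ne_zero⟩
  have hn0 : (vc_tate3 c).toAffine.negY 0 0 = -1 := by simp [vc_tate3]
  have hy0 : (0 : K) ≠ (vc_tate3 c).toAffine.negY 0 0 := by
    rw [hn0]; exact (neg_ne_zero.mpr one_ne_zero).symm
  have hs0 : (vc_tate3 c).toAffine.slope 0 0 0 0 = 0 := by
    rw [Affine.slope_of_Y_ne rfl hy0]
    simp [vc_tate3]
  obtain ⟨h1, e1⟩ := vc_double (x' := 0) (y' := -1) h0 hy0
    (by rw [hs0]; simp [vc_tate3])
    (by rw [hs0]; simp [Affine.addY, vc_tate3])
  have e3 : Affine.Point.some 0 (-1) h1 = -Affine.Point.some 0 0 h0 := by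
    rw [Affine.Point.neg_some]
    simp only [Affine.Point.some.injEq, true_and]
    exact hn0.symm
  refine ⟨Affine.Point.some 0 0 h0, Affine.Point.some_ne_zero h0, ?_⟩
  have e5 : 3 • Affine.Point.some 0 0 h0 =
      (Affine.Point.some 0 0 h0 + Affine.Point.some 0 0 h0) + Affine.Point.some 0 0 h0 := by
    abel
  rw [e5, e1, e3, neg_add_cancel]

end Tate

section Exist

open Polynomial

variable {K : Type*} [Field K] [CharZero K] [DecidableEq K] [IsAlgClosed K]

omit [DecidableEq K] in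
lemma vc_exists_root5 (j : K) :
    ∃ b : K, (b ^ 4 - 12 * b ^ 3 + 14 * b ^ 2 + 12 * b + 1) ^ 3 =
      j * (b ^ 5 * (b ^ 2 - 11 * b - 1)) := by
  let p : K[X] := (X ^ 4 - 12 * X ^ 3 + 14 * X ^ 2 + 12 * X + 1) ^ 3 -
    C j * (X ^ 5 * (X ^ 2 - 11 * X - 1))
  have hdeg : p.natDegree = 12 := by
    simp only [p]
    compute_degree!
  have hdeg' : p.degree ≠ 0 := by
    have h12 : p.natDegree ≠ 0 := by rw [hdeg]; norm_num
    exact_mod_cast degree_ne_of_natDegree_ne h12
  obtain ⟨b, hb⟩ := IsAlgClosed.exists_root p hdeg'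
  refine ⟨b, ?_⟩
  simp only [p, IsRoot, eval_sub, eval_pow, eval_add, eval_mul, eval_X, eval_C, eval_one,
    eval_ofNat] at hb
  linear_combination hb

omit [DecidableEq K] in
lemma vc_exists_root3 (j : K) :
    ∃ c : K, (c ^ 4 - 24 * c) ^ 3 = j * (c ^ 3 - 27) := by
  let p : K[X] := (X ^ 4 - 24 * X) ^ 3 - C j * (X ^ 3 - 27)
  have hdeg : p.natDegree = 12 := by
    simp only [p]
    compute_degree!
  have hdeg' : p.degree ≠ 0 := by
    have h12 : p.natDegree ≠ 0 := by rw [hdeg]; norm_num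
    exact_mod_cast degree_ne_of_natDegree_ne h12
  obtain ⟨c, hc⟩ := IsAlgClosed.exists_root p hdeg'
  refine ⟨c, ?_⟩
  simp only [p, IsRoot, eval_sub, eval_pow, eval_mul, eval_X, eval_C, eval_ofNat] at hc
  linear_combination hc

/-- A Weierstrass curve with nonzero discriminant over an algebraically closed field of
characteristic zero has a point of order five. -/
theorem vc_exists_five_torsion {W : WeierstrassCurve.Affine K} (hΔ : W.Δ ≠ 0) :
    ∃ P : W.Point, P ≠ 0 ∧ 5 • P = 0 := by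
  have : WeierstrassCurve.IsElliptic W := ⟨isUnit_iff_ne_zero.mpr hΔ⟩
  obtain ⟨b, hb⟩ := vc_exists_root5 (WeierstrassCurve.j W)
  have hb0 : b ≠ 0 := by
    rintro rfl
    simp at hb
  have hb1 : b ^ 2 - 11 * b - 1 ≠ 0 := by
    intro h
    rw [h, mul_zero, mul_zero] at hb
    have hc4 : b ^ 4 - 12 * b ^ 3 + 14 * b ^ 2 + 12 * b + 1 = 0 := by
      simpa using hb
    have h5 : (5 : K) * (11 * b + 1) = 0 := by
      linear_combination hc4 - (b ^ 2 - b + 4) * h
    have h11 : 11 * b + 1 = 0 := by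
      rcases mul_eq_zero.mp h5 with h' | h'
      · exact absurd h' (by norm_num)
      · exact h'
    have : (1 : K) = 0 := by linear_combination 121 * h - (11 * b - 122) * h11
    exact one_ne_zero this
  have hΔT : (vc_tate5 b).Δ ≠ 0 := by
    rw [vc_tate5_Δ]
    exact mul_ne_zero (pow_ne_zero 5 hb0) hb1
  have : (vc_tate5 b).IsElliptic := ⟨isUnit_iff_ne_zero.mpr hΔT⟩
  have hj : WeierstrassCurve.j W = (vc_tate5 b).j := by
    have e : (vc_tate5 b).j = ((vc_tate5 b).Δ)⁻¹ * (vc_tate5 b).c₄ ^ 3 := by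
      rw [WeierstrassCurve.j, Units.val_inv_eq_inv_val, WeierstrassCurve.coe_Δ']
    have hne : b ^ 5 * (b ^ 2 - 11 * b - 1) ≠ 0 := mul_ne_zero (pow_ne_zero 5 hb0) hb1
    rw [e, vc_tate5_Δ, vc_tate5_c₄, hb, mul_comm (WeierstrassCurve.j W), ← mul_assoc,
      inv_mul_cancel₀ hne, one_mul]
  obtain ⟨C, hC⟩ := WeierstrassCurve.exists_variableChange_of_j_eq W (vc_tate5 b) hj
  exact vc_transport W (vc_tate5 b) C hC 5 (vc_tate5_order b hb0)

/-- A Weierstrass curve with nonzero discriminant over an algebraically closed field of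
characteristic zero has a point of order three. -/
theorem vc_exists_three_torsion {W : WeierstrassCurve.Affine K} (hΔ : W.Δ ≠ 0) :
    ∃ P : W.Point, P ≠ 0 ∧ 3 • P = 0 := by
  have : WeierstrassCurve.IsElliptic W := ⟨isUnit_iff_ne_zero.mpr hΔ⟩
  obtain ⟨c, hc⟩ := vc_exists_root3 (WeierstrassCurve.j W)
  have hc1 : c ^ 3 - 27 ≠ 0 := by
    intro h
    rw [h, mul_zero] at hc
    have hc4 : c ^ 4 - 24 * c = 0 := by
      simpa using hc
    have : (81 : K) * c = 0 := by linear_combination 27 * (hc4 - c * h)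
    have hc0 : c = 0 := by
      rcases mul_eq_zero.mp this with h' | h'
      · exact absurd h' (by norm_num)
      · exact h'
    rw [hc0] at h
    norm_num at h
  have hΔT : (vc_tate3 c).Δ ≠ 0 := by
    rw [vc_tate3_Δ]
    exact hc1
  have : (vc_tate3 c).IsElliptic := ⟨isUnit_iff_ne_zero.mpr hΔT⟩
  have hj : WeierstrassCurve.j W = (vc_tate3 c).j := by
    have e : (vc_tate3 c).j = ((vc_tate3 c).Δ)⁻¹ * (vc_tate3 c).c₄ ^ 3 := by
      rw [WeierstrassCurve.j, Units.val_inv_eq_inv_val, WeierstrassCurve.coe_Δ']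
    rw [e, vc_tate3_Δ, vc_tate3_c₄, hc, mul_comm (WeierstrassCurve.j W), ← mul_assoc,
      inv_mul_cancel₀ hc1, one_mul]
  obtain ⟨C, hC⟩ := WeierstrassCurve.exists_variableChange_of_j_eq W (vc_tate3 c) hj
  exact vc_transport W (vc_tate3 c) C hC 3 (vc_tate3_order c)

end Exist

end Fermat.Agent.S51
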