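import Fermat.Agent.S51.Defs

set_option autoImplicit false

namespace Fermat.Agent.S51

variable {K : Type*} [Field K] [CharZero K] {A B X₁ X₂ : K}

theorem psi5_of_rel5 (h : Rel5 A B X₁ X₂) : psi5 A B X₁ = 0 := by
  obtain ⟨-, -, hD, hb⟩ := h
  simp only [psi5, psi3, cub, dcub] at hD hb ⊢
  linear_combination (64 * (X₁ ^ 3 + A * X₁ + B) ^ 3) * hb +
    (32 * (3 * X₁ ^ 2 + A) * (X₁ ^ 3 + A * X₁ + B) ^ 2 -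
      ((3 * X₁ ^ 4 + 6 * A * X₁ ^ 2 + 12 * B * X₁ - A ^ 2) ^ 2 +
        (3 * X₁ ^ 4 + 6 * A * X₁ ^ 2 + 12 * B * X₁ - A ^ 2) *
          (-4 * (X₁ ^ 3 + A * X₁ + B) * (X₂ - X₁)) +
        (-4 * (X₁ ^ 3 + A * X₁ + B) * (X₂ - X₁)) ^ 2)) * hD

theorem tateA_aux {f f' h X : K} (hh : h ≠ 0) (hf : f ≠ 0)
    (hD : 4 * f * (h + 3 * X) = f' ^ 2) (hb : h ^ 3 = 2 * f' * h + 4 * f) :
    X = (4 * f / h ^ 2) * ((h ^ 3 / (4 * f)) ^ 2 - 6 * (h ^ 3 / (4 * f)) + 1) / 12 ∧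
    f' - 3 * X ^ 2 = -((4 * f / h ^ 2) ^ 2 * ((h ^ 3 / (4 * f)) ^ 4 - 12 * (h ^ 3 / (4 * f)) ^ 3
      + 14 * (h ^ 3 / (4 * f)) ^ 2 + 12 * (h ^ 3 / (4 * f)) + 1)) / 48 ∧
    f - X ^ 3 - (f' - 3 * X ^ 2) * X = (4 * f / h ^ 2) ^ 3 * (((h ^ 3 / (4 * f)) ^ 2 + 1) *
      ((h ^ 3 / (4 * f)) ^ 4 - 18 * (h ^ 3 / (4 * f)) ^ 3 + 74 * (h ^ 3 / (4 * f)) ^ 2
        + 18 * (h ^ 3 / (4 * f)) + 1)) / 864 := by
  have e1 : f' = (h ^ 3 - 4 * f) / (2 * h) := by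
    rw [eq_div_iff (mul_ne_zero two_ne_zero hh)]
    linear_combination (-1 : K) * hb
  subst e1
  have h12 : (12 : K) * f ≠ 0 := mul_ne_zero (by norm_num) hf
  have e2 : X = (((h ^ 3 - 4 * f) / (2 * h)) ^ 2 - 4 * f * h) / (12 * f) := by
    rw [eq_div_iff h12]
    linear_combination hD
  subst e2
  refine ⟨?_, ?_, ?_⟩
  · field_simp
    ring
  · field_simp
    ring
  · field_simp
    ring

theorem tate_param (h : Rel5 A B X₁ X₂) :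
    ∃ v β : K, v ≠ 0 ∧ β ≠ 0 ∧ β = tbeta A B X₁ X₂ ∧ X₂ - X₁ = v * β ∧
      X₁ = v * (β ^ 2 - 6 * β + 1) / 12 ∧
      A = -(v ^ 2 * (β ^ 4 - 12 * β ^ 3 + 14 * β ^ 2 + 12 * β + 1)) / 48 ∧
      B = v ^ 3 * ((β ^ 2 + 1) * (β ^ 4 - 18 * β ^ 3 + 74 * β ^ 2 + 18 * β + 1)) / 864 := by
  obtain ⟨hne, hf, hD, hb⟩ := h
  have hh : X₂ - X₁ ≠ 0 := sub_ne_zero.mpr hne
  have hD' : 4 * cub A B X₁ * ((X₂ - X₁) + 3 * X₁) = dcub A X₁ ^ 2 := by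
    rw [← hD]; ring
  obtain ⟨a1, a2, a3⟩ := tateA_aux hh hf hD' hb
  have hA : A = dcub A X₁ - 3 * X₁ ^ 2 := by unfold dcub; ring
  have hB : B = cub A B X₁ - X₁ ^ 3 - (dcub A X₁ - 3 * X₁ ^ 2) * X₁ := by
    unfold cub dcub; ring
  refine ⟨4 * cub A B X₁ / (X₂ - X₁) ^ 2, (X₂ - X₁) ^ 3 / (4 * cub A B X₁), ?_, ?_, rfl, ?_,
    a1, ?_, ?_⟩
  · exact div_ne_zero (mul_ne_zero (by norm_num : (4 : K) ≠ 0) hf) (pow_ne_zero 2 hh)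
  · exact div_ne_zero (pow_ne_zero 3 hh) (mul_ne_zero (by norm_num : (4 : K) ≠ 0) hf)
  · field_simp
  · rw [← a2]; exact hA
  · rw [← a3]; exact hB

theorem tbeta_ne_zero (h : Rel5 A B X₁ X₂) : tbeta A B X₁ X₂ ≠ 0 := by
  obtain ⟨hne, hf, -, -⟩ := h
  exact div_ne_zero (pow_ne_zero 3 (sub_ne_zero.mpr hne)) (mul_ne_zero (by norm_num : (4 : K) ≠ 0) hf)

theorem tateA_cub_swap {v β : K} :
    cub (-(v ^ 2 * (β ^ 4 - 12 * β ^ 3 + 14 * β ^ 2 + 12 * β + 1)) / 48)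
      (v ^ 3 * ((β ^ 2 + 1) * (β ^ 4 - 18 * β ^ 3 + 74 * β ^ 2 + 18 * β + 1)) / 864)
      (v * β + v * (β ^ 2 - 6 * β + 1) / 12) = v ^ 3 * β ^ 4 / 4 := by
  unfold cub
  ring

theorem tbeta_swap (h : Rel5 A B X₁ X₂) : tbeta A B X₂ X₁ = -1 / tbeta A B X₁ X₂ := by
  obtain ⟨v, β, hv, hβ, hβeq, hh, hX, hA, hB⟩ := tate_param h
  rw [← hβeq]
  clear hβeq h
  obtain rfl : X₂ = v * β + X₁ := by linear_combination hh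
  subst hX hA hB
  unfold tbeta
  rw [tateA_cub_swap]
  field_simp
  ring

theorem tS_swap (h : Rel5 A B X₁ X₂) : tS A B X₂ X₁ = tS A B X₁ X₂ := by
  have hβ := tbeta_ne_zero h
  unfold tS
  rw [tbeta_swap h]
  field_simp
  ring

theorem tate_disc_ne (h : Rel5 A B X₁ X₂) (hΔ : 4 * A ^ 3 + 27 * B ^ 2 ≠ 0) :
    tbeta A B X₁ X₂ ^ 2 - 11 * tbeta A B X₁ X₂ - 1 ≠ 0 := by
  intro hzero
  apply hΔ
  obtain ⟨v, β, hv, hβ, hβeq, hh, hX, hA, hB⟩ := tate_param h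
  rw [← hβeq] at hzero
  have key : 4 * A ^ 3 + 27 * B ^ 2 = -(v ^ 6 * β ^ 5 * (β ^ 2 - 11 * β - 1)) / 16 := by
    rw [hA, hB]; ring
  rw [key, hzero]
  simp

theorem tate_c4_cube (h : Rel5 A B X₁ X₂) :
    (-48 * A) ^ 3 * tS A B X₁ X₂ =
      (-16 * (4 * A ^ 3 + 27 * B ^ 2)) * (tS A B X₁ X₂ ^ 2 + 10 * tS A B X₁ X₂ + 5) ^ 3 := by
  obtain ⟨v, β, hv, hβ, hβeq, hh, hX, hA, hB⟩ := tate_param h
  unfold tS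
  rw [← hβeq, hA, hB]
  field_simp
  ring

end Fermat.Agent.S51
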