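import Fermat.Agent.S51.GroupLaw
import Fermat.Agent.S51.Torsion
import Fermat.Agent.S51.TateA

open WeierstrassCurve WeierstrassCurve.Affine WeierstrassCurve.Affine.Point

namespace Fermat.Agent.S51

section CountPoly
variable {K : Type*} [Field K]

/-- The 3-division polynomial as an element of `K[X]`. -/
noncomputable def countPsi3Poly (A B : K) : Polynomial K :=
  Polynomial.C (3 : K) * Polynomial.X ^ 4 + Polynomial.C (6 * A) * Polynomial.X ^ 2
    + Polynomial.C (12 * B) * Polynomial.X - Polynomial.C (A ^ 2)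

theorem count_psi3Poly_eval (A B x : K) : (countPsi3Poly A B).eval x = psi3 A B x := by
  simp only [countPsi3Poly, Polynomial.eval_add, Polynomial.eval_sub, Polynomial.eval_mul,
    Polynomial.eval_C, Polynomial.eval_pow, Polynomial.eval_X]
  unfold psi3
  ring

theorem count_psi3Poly_natDegree_le (A B : K) : (countPsi3Poly A B).natDegree ≤ 4 := by
  unfold countPsi3Poly
  compute_degree

theorem count_psi3Poly_ne_zero [CharZero K] (A B : K) : countPsi3Poly A B ≠ 0 := by
  intro h
  have h4 : (countPsi3Poly A B).coeff 4 = 3 := by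
    simp only [countPsi3Poly, Polynomial.coeff_add, Polynomial.coeff_sub, Polynomial.coeff_C_mul,
      Polynomial.coeff_X_pow, Polynomial.coeff_X, Polynomial.coeff_C]
    norm_num
  rw [h, Polynomial.coeff_zero] at h4
  exact three_ne_zero h4.symm

/-- The 5-division polynomial as an element of `K[X]`. -/
noncomputable def countPsi5Poly (A B : K) : Polynomial K :=
  Polynomial.C (5 : K) * Polynomial.X ^ 12 + Polynomial.C (62 * A) * Polynomial.X ^ 10
    + Polynomial.C (380 * B) * Polynomial.X ^ 9 - Polynomial.C (105 * A ^ 2) * Polynomial.X ^ 8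
    + Polynomial.C (240 * A * B) * Polynomial.X ^ 7
    - Polynomial.C (300 * A ^ 3 + 240 * B ^ 2) * Polynomial.X ^ 6
    - Polynomial.C (696 * A ^ 2 * B) * Polynomial.X ^ 5
    - Polynomial.C (125 * A ^ 4 + 1920 * A * B ^ 2) * Polynomial.X ^ 4
    - Polynomial.C (80 * A ^ 3 * B + 1600 * B ^ 3) * Polynomial.X ^ 3
    - Polynomial.C (50 * A ^ 5 + 240 * A ^ 2 * B ^ 2) * Polynomial.X ^ 2
    - Polynomial.C (100 * A ^ 4 * B + 640 * A * B ^ 3) * Polynomial.X
    + Polynomial.C (A ^ 6 - 32 * A ^ 3 * B ^ 2 - 256 * B ^ 4)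

theorem count_psi5Poly_eval (A B x : K) : (countPsi5Poly A B).eval x = psi5 A B x := by
  simp only [countPsi5Poly, Polynomial.eval_add, Polynomial.eval_sub, Polynomial.eval_mul,
    Polynomial.eval_C, Polynomial.eval_pow, Polynomial.eval_X]
  unfold psi5 psi3 cub dcub
  ring

theorem count_psi5Poly_natDegree_le (A B : K) : (countPsi5Poly A B).natDegree ≤ 12 := by
  unfold countPsi5Poly
  compute_degree

theorem count_psi5Poly_ne_zero [CharZero K] (A B : K) : countPsi5Poly A B ≠ 0 := by
  intro h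
  have h12 : (countPsi5Poly A B).coeff 12 = 5 := by
    simp only [countPsi5Poly, Polynomial.coeff_add, Polynomial.coeff_sub, Polynomial.coeff_C_mul,
      Polynomial.coeff_X_pow, Polynomial.coeff_X, Polynomial.coeff_C]
    norm_num
  rw [h, Polynomial.coeff_zero] at h12
  have h5 : (5 : K) ≠ 0 := by norm_num
  exact h5 h12.symm

end CountPoly

section A3
variable {K : Type*} [Field K] [CharZero K] [DecidableEq K] {W : WeierstrassCurve.Affine K}

/-- The set of nonzero points with a given short `X`-coordinate has at most two elements. -/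
theorem count_fibre_ncard_le (r : K) :
    {P : W.Point | P ≠ 0 ∧ pX P = r}.Finite ∧ {P : W.Point | P ≠ 0 ∧ pX P = r}.ncard ≤ 2 := by
  by_cases hne : {P : W.Point | P ≠ 0 ∧ pX P = r}.Nonempty
  · obtain ⟨P₀, hP₀, hP₀r⟩ := hne
    have hsub : {P : W.Point | P ≠ 0 ∧ pX P = r} ⊆ {P₀, -P₀} := by
      rintro P ⟨hP, hPr⟩
      rcases eq_or_eq_neg_of_pX_eq hP hP₀ (hPr.trans hP₀r.symm) with h | h
      · exact Or.inl h
      · exact Or.inr h
    have hfin : ({P₀, -P₀} : Set W.Point).Finite := Set.toFinite _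
    refine ⟨hfin.subset hsub, ?_⟩
    calc {P : W.Point | P ≠ 0 ∧ pX P = r}.ncard ≤ ({P₀, -P₀} : Set W.Point).ncard :=
          Set.ncard_le_ncard hsub hfin
      _ ≤ ({-P₀} : Set W.Point).ncard + 1 := Set.ncard_insert_le P₀ {-P₀}
      _ = 2 := by rw [Set.ncard_singleton]
  · rw [Set.not_nonempty_iff_eq_empty] at hne
    rw [hne]
    simp

theorem ncard_le_of_pX_root (p : Polynomial K) (hp : p ≠ 0) (S : Set W.Point)
    (hS : ∀ P ∈ S, P ≠ 0 → p.eval (pX P) = 0) : S.Finite ∧ S.ncard ≤ 2 * p.natDegree + 1 := by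
  classical
  set T : Set W.Point := ⋃ r ∈ p.roots.toFinset, {P : W.Point | P ≠ 0 ∧ pX P = r} with hT
  have hsub : S ⊆ insert 0 T := by
    intro P hPS
    by_cases hP : P = 0
    · exact Or.inl hP
    · refine Or.inr ?_
      simp only [hT, Set.mem_iUnion, Set.mem_ofPred_eq, exists_prop]
      refine ⟨pX P, ?_, hP, rfl⟩
      rw [Multiset.mem_toFinset, Polynomial.mem_roots hp]
      exact hS P hPS hP
  have hTfin : T.Finite :=
    Set.Finite.biUnion (Finset.finite_toSet _) fun r _ => (count_fibre_ncard_le r).1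
  have hTcard : T.ncard ≤ 2 * p.natDegree := by
    calc T.ncard ≤ ∑ r ∈ p.roots.toFinset, {P : W.Point | P ≠ 0 ∧ pX P = r}.ncard :=
          Finset.set_ncard_biUnion_le _ _
      _ ≤ ∑ _r ∈ p.roots.toFinset, 2 := Finset.sum_le_sum fun r _ => (count_fibre_ncard_le r).2
      _ = p.roots.toFinset.card * 2 := by simp
      _ ≤ p.natDegree * 2 := by
          refine Nat.mul_le_mul_right 2 ?_
          exact (Multiset.toFinset_card_le _).trans (Polynomial.card_roots' p)
      _ = 2 * p.natDegree := Nat.mul_comm _ _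
  have hfin : (insert 0 T : Set W.Point).Finite := hTfin.insert 0
  refine ⟨hfin.subset hsub, ?_⟩
  calc S.ncard ≤ (insert 0 T : Set W.Point).ncard := Set.ncard_le_ncard hsub hfin
    _ ≤ T.ncard + 1 := Set.ncard_insert_le 0 T
    _ ≤ 2 * p.natDegree + 1 := by omega

theorem three_torsion_finite :
    {P : W.Point | 3 • P = 0}.Finite ∧ {P : W.Point | 3 • P = 0}.ncard ≤ 3 ^ 2 := by
  have key := ncard_le_of_pX_root (W := W) (countPsi3Poly (sA W) (sB W))
    (count_psi3Poly_ne_zero _ _) {P : W.Point | 3 • P = 0} (by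
      intro P hP hP0
      rw [count_psi3Poly_eval]
      exact psi3_of_three_nsmul hP0 hP)
  refine ⟨key.1, key.2.trans ?_⟩
  have := count_psi3Poly_natDegree_le (sA W) (sB W)
  omega

theorem five_torsion_finite :
    {P : W.Point | 5 • P = 0}.Finite ∧ {P : W.Point | 5 • P = 0}.ncard ≤ 5 ^ 2 := by
  have key := ncard_le_of_pX_root (W := W) (countPsi5Poly (sA W) (sB W))
    (count_psi5Poly_ne_zero _ _) {P : W.Point | 5 • P = 0} (by
      intro P hP hP0
      rw [count_psi5Poly_eval]
      exact psi5_of_rel5 (rel5_of_five_nsmul hP0 hP))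
  refine ⟨key.1, key.2.trans ?_⟩
  have := count_psi5Poly_natDegree_le (sA W) (sB W)
  omega

end A3

end Fermat.Agent.S51
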