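import Mathlib

namespace Fermat.Agent.S51

section Defs

variable {K : Type*} [Field K]

/-- Short Weierstrass coefficient `A = -c₄/48`. -/
def sA (W : WeierstrassCurve K) : K := -W.c₄ / 48

/-- Short Weierstrass coefficient `B = -c₆/864`. -/
def sB (W : WeierstrassCurve K) : K := -W.c₆ / 864

/-- The cubic `X^3 + A X + B`. -/
def cub (A B X : K) : K := X ^ 3 + A * X + B

/-- Its derivative `3 X^2 + A`. -/
def dcub (A X : K) : K := 3 * X ^ 2 + A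

/-- The 3-division polynomial of `Y^2 = X^3 + A X + B`. -/
def psi3 (A B X : K) : K := 3 * X ^ 4 + 6 * A * X ^ 2 + 12 * B * X - A ^ 2

/-- The 5-division polynomial (degree 12, leading coefficient 5). -/
def psi5 (A B X : K) : K :=
  32 * dcub A X * cub A B X ^ 2 * psi3 A B X - psi3 A B X ^ 3 - 256 * cub A B X ^ 4

/-- The relations between `X₁ = X(P)` and `X₂ = X(2P)` for a point `P` of order 5. -/
def Rel5 (A B X₁ X₂ : K) : Prop :=
  X₂ ≠ X₁ ∧ cub A B X₁ ≠ 0 ∧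
    4 * cub A B X₁ * (X₂ + 2 * X₁) = dcub A X₁ ^ 2 ∧
    (X₂ - X₁) ^ 3 = 2 * dcub A X₁ * (X₂ - X₁) + 4 * cub A B X₁

/-- Short `X`-coordinate `x + b₂/12` of a point (value `0` at the point at infinity). -/
def pX {W : WeierstrassCurve.Affine K} : W.Point → K
  | .zero => 0
  | .some x _ _ => x + W.b₂ / 12

/-- Short `Y`-coordinate `y + (a₁ x + a₃)/2` of a point (value `0` at the point at infinity). -/
def pY {W : WeierstrassCurve.Affine K} : W.Point → K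
  | .zero => 0
  | .some x y _ => y + (W.a₁ * x + W.a₃) / 2

/-- Tate normal form parameter `β = (X₂ - X₁)^3 / (4 f(X₁))`. -/
def tbeta (A B X₁ X₂ : K) : K := (X₂ - X₁) ^ 3 / (4 * cub A B X₁)

/-- `s = β - 1/β - 11`, a coordinate on `X₀(5)`. -/
def tS (A B X₁ X₂ : K) : K := tbeta A B X₁ X₂ - 1 / tbeta A B X₁ X₂ - 11

/-- `z = (X_Q - X₁)/(X₂ - X₁)`. -/
def tz (X₁ X₂ XQ : K) : K := (XQ - X₁) / (X₂ - X₁)

/-- `ζ = z (1 - z)`. -/
def tzeta (X₁ X₂ XQ : K) : K := tz X₁ X₂ XQ * (1 - tz X₁ X₂ XQ)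

/-- `η = (2z - 1)(2 z^2 β + 3 z (z-1)^2)/(z - 1)`. -/
def teta (A B X₁ X₂ XQ : K) : K :=
  (2 * tz X₁ X₂ XQ - 1) *
      (2 * tz X₁ X₂ XQ ^ 2 * tbeta A B X₁ X₂ + 3 * tz X₁ X₂ XQ * (tz X₁ X₂ XQ - 1) ^ 2) /
    (tz X₁ X₂ XQ - 1)

end Defs

end Fermat.Agent.S51
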