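import Mathlib

namespace Fermat.Agent.S51

theorem D15_base : ∀ m : ℕ, m ≤ 81 → ∀ n : ℕ, 1 ≤ n → n ≤ 9 → ∀ S : ℕ, S ≤ m →
    m ^ 2 = n ^ 2 + S ^ 2 → ∀ T : ℕ, T ≤ m → m ^ 2 ≠ 81 * n ^ 2 + T ^ 2 := by
  decide +kernel

lemma D15_rat_int_of_sq (q : ℚ) (k : ℤ) (h : q ^ 2 = k) : ∃ w : ℤ, q = w := by
  have h1 : (q ^ 2).den = 1 := by rw [h]; exact Rat.den_intCast k
  rw [Rat.den_pow] at h1
  have hden : q.den = 1 := by
    rcases Nat.eq_zero_or_pos q.den with h0 | h0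
    · exact absurd h0 q.den_nz
    · by_contra hne
      have : 1 < q.den := lt_of_le_of_ne h0 (Ne.symm hne)
      have : 1 < q.den ^ 2 := Nat.one_lt_pow two_ne_zero this
      omega
  exact ⟨q.num, ((Rat.den_eq_one_iff q).mp hden).symm⟩

lemma D15_split (u X v : ℤ) (g : ℕ) (hg : Int.gcd u X = g) (h : u * X = v ^ 2) (hu : u ≠ 0) :
    ∃ u₀ : ℤ, u = (g : ℤ) * u₀ ^ 2 ∨ u = -((g : ℤ) * u₀ ^ 2) := by
  have hgpos : 0 < Int.gcd u X := Int.gcd_pos_of_ne_zero_left X hu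
  have hcop1 := Int.gcd_div_gcd_div_gcd hgpos
  rw [hg] at hcop1 hgpos
  have hgu : (g : ℤ) ∣ u := hg ▸ Int.gcd_dvd_left u X
  have hgX : (g : ℤ) ∣ X := hg ▸ Int.gcd_dvd_right u X
  obtain ⟨u', hu'⟩ := hgu
  obtain ⟨X', hX'⟩ := hgX
  have hg0 : (g : ℤ) ≠ 0 := by exact_mod_cast hgpos.ne'
  have e1 : u / (g : ℤ) = u' := by rw [hu']; exact Int.mul_ediv_cancel_left _ hg0
  have e2 : X / (g : ℤ) = X' := by rw [hX']; exact Int.mul_ediv_cancel_left _ hg0
  rw [e1, e2] at hcop1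
  have hcop : IsCoprime u' X' := Int.isCoprime_iff_gcd_eq_one.mpr hcop1
  have hgv : (g : ℤ) ∣ v := by
    have : (g : ℤ) ^ 2 ∣ v ^ 2 := ⟨u' * X', by rw [← h, hu', hX']; ring⟩
    exact (Int.pow_dvd_pow_iff two_ne_zero).mp this
  obtain ⟨v', hv'⟩ := hgv
  have h2 : u' * X' = v' ^ 2 := by
    have : (g : ℤ) ^ 2 * (u' * X') = (g : ℤ) ^ 2 * v' ^ 2 := by
      rw [← mul_pow, ← hv', ← h, hu', hX']; ring
    exact mul_left_cancel₀ (pow_ne_zero 2 hg0) this
  obtain ⟨u₀, hu₀ | hu₀⟩ := Int.sq_of_isCoprime hcop h2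
  · exact ⟨u₀, Or.inl (by rw [hu', hu₀])⟩
  · exact ⟨u₀, Or.inr (by rw [hu', hu₀]; ring)⟩

lemma D15_no_three (c d e f δ : ℤ) (hδ : ¬ (3 : ℤ) ∣ δ) (hd : ¬ (3 : ℤ) ∣ d)
    (h1 : 3 * c ^ 2 - d ^ 2 = δ * e ^ 2) (h2 : 3 * δ * (3 * c ^ 2 - 81 * d ^ 2) = f ^ 2) :
    False := by
  have key : ∀ δ d e x y : ZMod 3, δ ≠ 0 → d ≠ 0 → -d ^ 2 = δ * e ^ 2 → δ * x ^ 2 = y ^ 2 →
      x = 0 ∧ y = 0 := by decide
  have hδ3 : (δ : ZMod 3) ≠ 0 := fun h0 => hδ ((ZMod.intCast_zmod_eq_zero_iff_dvd δ 3).mp h0)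
  have hd3 : (d : ZMod 3) ≠ 0 := fun h0 => hd ((ZMod.intCast_zmod_eq_zero_iff_dvd d 3).mp h0)
  have h13 : -(d : ZMod 3) ^ 2 = (δ : ZMod 3) * (e : ZMod 3) ^ 2 := by
    have := congrArg (Int.cast : ℤ → ZMod 3) h1
    push_cast at this
    rw [← this]
    have h3 : (3 : ZMod 3) = 0 := by decide
    rw [h3]; ring
  -- f = 3 f₂
  have hf : (3 : ℤ) ∣ f := by
    have : (3 : ℤ) ^ 2 ∣ f ^ 2 := ⟨δ * (c ^ 2 - 27 * d ^ 2), by rw [← h2]; ring⟩
    exact (Int.pow_dvd_pow_iff two_ne_zero).mp this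
  obtain ⟨f₂, rfl⟩ := hf
  have h2' : δ * (c ^ 2 - 27 * d ^ 2) = f₂ ^ 2 := by nlinarith
  have hz : ∀ x y z : ℤ, δ * (x ^ 2 - 3 * z) = y ^ 2 → (3 : ℤ) ∣ x ∧ (3 : ℤ) ∣ y := by
    intro x y z hxy
    have := congrArg (Int.cast : ℤ → ZMod 3) hxy
    push_cast at this
    have h3 : (3 : ZMod 3) = 0 := by decide
    rw [h3] at this
    have hh : (δ : ZMod 3) * (x : ZMod 3) ^ 2 = (y : ZMod 3) ^ 2 := by rw [← this]; ring
    obtain ⟨hx, hy⟩ := key _ _ _ _ _ hδ3 hd3 h13 hh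
    exact ⟨(ZMod.intCast_zmod_eq_zero_iff_dvd x 3).mp hx, (ZMod.intCast_zmod_eq_zero_iff_dvd y 3).mp hy⟩
  obtain ⟨⟨c₁, rfl⟩, ⟨f₃, rfl⟩⟩ := hz c f₂ (9 * d ^ 2) (by rw [← h2']; ring)
  have h2'' : δ * (c₁ ^ 2 - 3 * d ^ 2) = f₃ ^ 2 := by nlinarith
  obtain ⟨⟨c₂, rfl⟩, ⟨f₄, rfl⟩⟩ := hz c₁ f₃ (d ^ 2) h2''
  have h2''' : δ * d ^ 2 = 3 * (δ * c₂ ^ 2 - f₄ ^ 2) := by nlinarith
  have hdvd : (3 : ℤ) ∣ δ * d ^ 2 := ⟨_, h2'''⟩
  have hp : Prime (3 : ℤ) := Int.prime_three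
  rcases hp.dvd_or_dvd hdvd with h | h
  · exact hδ h
  · exact hd (hp.dvd_of_dvd_pow h)


lemma D15_no_even (c d e f k : ℤ) (hk : ¬ (2 : ℤ) ∣ k) (hcd : IsCoprime c d)
    (h1 : c ^ 2 - d ^ 2 = 2 * k * e ^ 2) (h2 : 2 * k * (c ^ 2 - 81 * d ^ 2) = f ^ 2) :
    False := by
  have hpar : Even (c ^ 2 - d ^ 2) := ⟨k * e ^ 2, by rw [h1]; ring⟩
  have hpar' : Even c ↔ Even d := by
    simpa [Int.even_sub, Int.even_pow] using hpar
  have hc : ¬ Even c := by
    intro hce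
    have hde := hpar'.mp hce
    have h2c : (2 : ℤ) ∣ c := even_iff_two_dvd.mp hce
    have h2d : (2 : ℤ) ∣ d := even_iff_two_dvd.mp hde
    have := hcd.isUnit_of_dvd' h2c h2d
    rw [Int.isUnit_iff] at this
    omega
  have hd : ¬ Even d := fun hde => hc (hpar'.mpr hde)
  have hc2 : c % 2 = 1 := by
    rcases Int.emod_two_eq_zero_or_one c with h | h
    · exact absurd (Int.even_iff.mpr h) hc
    · exact h
  have hd2 : d % 2 = 1 := by
    rcases Int.emod_two_eq_zero_or_one d with h | h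
    · exact absurd (Int.even_iff.mpr h) hd
    · exact h
  have hk2 : k % 2 = 1 := by
    rcases Int.emod_two_eq_zero_or_one k with h | h
    · exact absurd (Int.dvd_of_emod_eq_zero h) hk
    · exact h
  have odd8 : ∀ x : ℤ, x % 2 = 1 → (4 : ZMod 8) * (x : ZMod 8) = 4 := by
    intro x hx
    have : ((4 * x : ℤ) : ZMod 8) = ((4 : ℤ) : ZMod 8) :=
      (ZMod.intCast_eq_intCast_iff _ _ 8).mpr (by unfold Int.ModEq; omega)
    simpa using this
  have odd4 : ∀ x : ℤ, x % 2 = 1 → (2 : ZMod 4) * (x : ZMod 4) = 2 := by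
    intro x hx
    have : ((2 * x : ℤ) : ZMod 4) = ((2 : ℤ) : ZMod 4) :=
      (ZMod.intCast_eq_intCast_iff _ _ 4).mpr (by unfold Int.ModEq; omega)
    simpa using this
  have key8 : ∀ c d e k : ZMod 8, 4 * c = 4 → 4 * d = 4 → 4 * k = 4 →
      c ^ 2 - d ^ 2 = 2 * k * e ^ 2 → 4 * e = 0 := by decide
  have key4 : ∀ k d e f : ZMod 4, 2 * k = 2 → 2 * d = 2 →
      k * (k * e ^ 2 - 10 * d ^ 2) = f ^ 2 → False := by decide
  -- e is even
  have he : (2 : ℤ) ∣ e := by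
    have h18 := congrArg (Int.cast : ℤ → ZMod 8) h1
    push_cast at h18
    have h4e := key8 _ _ _ _ (odd8 c hc2) (odd8 d hd2) (odd8 k hk2) h18
    have : ((4 * e : ℤ) : ZMod 8) = 0 := by push_cast; exact h4e
    obtain ⟨t, ht⟩ := (ZMod.intCast_zmod_eq_zero_iff_dvd _ 8).mp this
    exact ⟨t, by push_cast at ht; omega⟩
  obtain ⟨e₁, rfl⟩ := he
  -- f is divisible by 4
  have hf : (4 : ℤ) ∣ f := by
    have : (4 : ℤ) ^ 2 ∣ f ^ 2 :=
      ⟨k * (k * e₁ ^ 2 - 10 * d ^ 2), by linear_combination (-1 : ℤ) * h2 + 2 * k * h1⟩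
    exact (Int.pow_dvd_pow_iff two_ne_zero).mp this
  obtain ⟨f₃, rfl⟩ := hf
  have h3 : k * (k * e₁ ^ 2 - 10 * d ^ 2) = f₃ ^ 2 := by
    have h16 : 16 * (k * (k * e₁ ^ 2 - 10 * d ^ 2)) = 16 * f₃ ^ 2 := by
      linear_combination h2 - 2 * k * h1
    linarith
  have h34 := congrArg (Int.cast : ℤ → ZMod 4) h3
  push_cast at h34
  exact key4 _ _ _ _ (odd4 k hk2) (odd4 d hd2) h34

theorem D15_class_int (a b w : ℤ) (hb : 0 < b) (hab : IsCoprime a b) (hw : w ≠ 0)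
    (h : w ^ 2 = a * b * (a - b) * (a - 81 * b)) :
    ∃ m n S T : ℤ, n ≠ 0 ∧ m ^ 2 - n ^ 2 = S ^ 2 ∧ m ^ 2 - 81 * n ^ 2 = T ^ 2 ∧
      (m ^ 2 ≤ 81 * b ∨ 5 * m ^ 2 ≤ 81 * a) := by
  have hw2 : 0 < w ^ 2 := by positivity
  have ha0 : a ≠ 0 := by
    rintro rfl
    simp at h
    exact hw h
  have hab0 : a - b ≠ 0 := by
    intro h0
    rw [h0] at h
    simp at h
    exact hw h
  have ha81 : a - 81 * b ≠ 0 := by
    intro h0
    rw [h0] at h
    simp at h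
    exact hw h
  have c1 : IsCoprime (a - b) b := by
    have := hab.add_mul_left_left (-1)
    rwa [show a + b * (-1) = a - b by ring] at this
  have c2 : IsCoprime (a - 81 * b) b := by
    have := hab.add_mul_left_left (-81)
    rwa [show a + b * (-81) = a - 81 * b by ring] at this
  have c3 : IsCoprime (a - b) a := by
    have := (hab.symm.neg_left).add_mul_left_left 1
    rwa [show -b + a * 1 = a - b by ring] at this
  have hbR : IsCoprime b (a * (a - b) * (a - 81 * b)) :=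
    (hab.symm.mul_right c1.symm).mul_right c2.symm
  obtain ⟨d, hd | hd⟩ := Int.sq_of_isCoprime hbR
    (show b * (a * (a - b) * (a - 81 * b)) = w ^ 2 by rw [h]; ring)
  swap
  · nlinarith [sq_nonneg d]
  obtain ⟨v, hv | hv⟩ := Int.sq_of_isCoprime hbR.symm
    (show (a * (a - b) * (a - 81 * b)) * b = w ^ 2 by rw [h]; ring)
  swap
  · exfalso
    have : w ^ 2 = -(v ^ 2) * b := by rw [h, ← hv]; ring
    nlinarith [sq_nonneg v, mul_nonneg (sq_nonneg v) hb.le]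
  have hapos : 0 < a := by
    by_contra hneg
    have ha : a < 0 := lt_of_le_of_ne (not_lt.mp hneg) ha0
    have h1 : a - b < 0 := by linarith
    have h2 : a - 81 * b < 0 := by linarith
    have : a * (a - b) * (a - 81 * b) < 0 :=
      mul_neg_of_pos_of_neg (mul_pos_of_neg_of_neg ha h1) h2
    nlinarith [sq_nonneg v]
  have hd0 : d ≠ 0 := by
    rintro rfl
    simp at hd
    omega
  -- first split: a against (a-b)(a-81b)
  obtain ⟨g₁, hg₁⟩ : ∃ g : ℕ, Int.gcd a ((a - b) * (a - 81 * b)) = g := ⟨_, rfl⟩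
  have hg₁81 : g₁ ∣ 81 := by
    have h1 : (g₁ : ℤ) ∣ a := hg₁ ▸ Int.gcd_dvd_left _ _
    have h2 : (g₁ : ℤ) ∣ (a - b) * (a - 81 * b) := hg₁ ▸ Int.gcd_dvd_right _ _
    have h3 : IsCoprime (g₁ : ℤ) (a - b) := (c3.symm).of_isCoprime_of_dvd_left h1
    have h4 : (g₁ : ℤ) ∣ a - 81 * b := h3.dvd_of_dvd_mul_left h2
    have h5 : (g₁ : ℤ) ∣ 81 * b := by
      have := dvd_sub h1 h4
      rwa [show a - (a - 81 * b) = 81 * b by ring] at this
    have h6 : IsCoprime (g₁ : ℤ) b := hab.of_isCoprime_of_dvd_left h1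
    have h7 : (g₁ : ℤ) ∣ 81 := h6.dvd_of_dvd_mul_right h5
    exact_mod_cast h7
  obtain ⟨c₀, hc₀ | hc₀⟩ := D15_split a ((a - b) * (a - 81 * b)) v g₁ hg₁
    (by rw [← hv]; ring) ha0
  swap
  · exfalso
    have : 0 ≤ (g₁ : ℤ) * c₀ ^ 2 := by positivity
    linarith
  -- second split: a - b against a (a-81b)
  obtain ⟨g₂, hg₂⟩ : ∃ g : ℕ, Int.gcd (a - b) (a * (a - 81 * b)) = g := ⟨_, rfl⟩
  have hg₂80 : g₂ ∣ 80 := by
    have h1 : (g₂ : ℤ) ∣ a - b := hg₂ ▸ Int.gcd_dvd_left _ _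
    have h2 : (g₂ : ℤ) ∣ a * (a - 81 * b) := hg₂ ▸ Int.gcd_dvd_right _ _
    have h3 : IsCoprime (g₂ : ℤ) a := c3.of_isCoprime_of_dvd_left h1
    have h4 : (g₂ : ℤ) ∣ a - 81 * b := h3.dvd_of_dvd_mul_left h2
    have h5 : (g₂ : ℤ) ∣ 80 * b := by
      have := dvd_sub h1 h4
      rwa [show a - b - (a - 81 * b) = 80 * b by ring] at this
    have h6 : IsCoprime (g₂ : ℤ) b := c1.of_isCoprime_of_dvd_left h1
    have h7 : (g₂ : ℤ) ∣ 80 := h6.dvd_of_dvd_mul_right h5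
    exact_mod_cast h7
  obtain ⟨e₀, he₀⟩ := D15_split (a - b) (a * (a - 81 * b)) v g₂ hg₂ (by rw [← hv]; ring) hab0
  obtain ⟨α, c, hα, hac⟩ : ∃ α c : ℤ, (α = 1 ∨ α = 3) ∧ a = α * c ^ 2 := by
    have hmem : g₁ ∈ Nat.divisors 81 := Nat.mem_divisors.mpr ⟨hg₁81, by norm_num⟩
    have e81 : Nat.divisors 81 = {1, 3, 9, 27, 81} := by decide +kernel
    rw [e81] at hmem
    simp only [Finset.mem_insert, Finset.mem_singleton] at hmem
    rcases hmem with rfl | rfl | rfl | rfl | rfl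
    · exact ⟨1, c₀, Or.inl rfl, by rw [hc₀]; push_cast; ring⟩
    · exact ⟨3, c₀, Or.inr rfl, by rw [hc₀]; push_cast; ring⟩
    · exact ⟨1, 3 * c₀, Or.inl rfl, by rw [hc₀]; push_cast; ring⟩
    · exact ⟨3, 3 * c₀, Or.inr rfl, by rw [hc₀]; push_cast; ring⟩
    · exact ⟨1, 9 * c₀, Or.inl rfl, by rw [hc₀]; push_cast; ring⟩
  obtain ⟨β, k, hβ, hgk⟩ : ∃ β k : ℤ, (β = 1 ∨ β = 5 ∨ β = 2 ∨ β = 10) ∧
      (g₂ : ℤ) = β * k ^ 2 := by
    have hmem : g₂ ∈ Nat.divisors 80 := Nat.mem_divisors.mpr ⟨hg₂80, by norm_num⟩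
    have e80 : Nat.divisors 80 = {1, 2, 4, 5, 8, 10, 16, 20, 40, 80} := by decide +kernel
    rw [e80] at hmem
    simp only [Finset.mem_insert, Finset.mem_singleton] at hmem
    rcases hmem with rfl | rfl | rfl | rfl | rfl | rfl | rfl | rfl | rfl | rfl
    · exact ⟨1, 1, by simp, by norm_num⟩
    · exact ⟨2, 1, by simp, by norm_num⟩
    · exact ⟨1, 2, by simp, by norm_num⟩
    · exact ⟨5, 1, by simp, by norm_num⟩
    · exact ⟨2, 2, by simp, by norm_num⟩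
    · exact ⟨10, 1, by simp, by norm_num⟩
    · exact ⟨1, 4, by simp, by norm_num⟩
    · exact ⟨5, 2, by simp, by norm_num⟩
    · exact ⟨10, 2, by simp, by norm_num⟩
    · exact ⟨5, 4, by simp, by norm_num⟩
  obtain ⟨ε, e, hε, hde⟩ : ∃ ε e : ℤ, (ε = 1 ∨ ε = -1) ∧ a - b = ε * β * e ^ 2 := by
    rcases he₀ with he₀ | he₀
    · exact ⟨1, k * e₀, Or.inl rfl, by rw [he₀, hgk]; ring⟩
    · exact ⟨-1, k * e₀, Or.inr rfl, by rw [he₀, hgk]; ring⟩
  have hc0 : c ≠ 0 := by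
    rintro rfl
    apply ha0
    rw [hac]; ring
  have he0 : e ≠ 0 := by
    rintro rfl
    apply hab0
    rw [hde]; ring
  have hcev : c * e ∣ v := by
    have : (c * e) ^ 2 ∣ v ^ 2 := ⟨α * (ε * β) * (a - 81 * b), by
      linear_combination (-1 : ℤ) * hv + (a - b) * (a - 81 * b) * hac
        + α * c ^ 2 * (a - 81 * b) * hde⟩
    exact (Int.pow_dvd_pow_iff two_ne_zero).mp this
  obtain ⟨f₁, hf₁⟩ := hcev
  have h3 : α * (ε * β) * (a - 81 * b) = f₁ ^ 2 := by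
    have : (c * e) ^ 2 * (α * (ε * β) * (a - 81 * b)) = (c * e) ^ 2 * f₁ ^ 2 := by
      rw [← mul_pow, ← hf₁]
      linear_combination hv - (a - b) * (a - 81 * b) * hac
        - α * c ^ 2 * (a - 81 * b) * hde
    exact mul_left_cancel₀ (pow_ne_zero 2 (mul_ne_zero hc0 he0)) this
  rcases hα with rfl | rfl
  · -- α = 1
    have hac' : a = c ^ 2 := by linarith
    have hcd : IsCoprime c d := by
      have : IsCoprime (c ^ 2) (d ^ 2) := by rw [← hac', ← hd]; exact hab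
      exact (IsCoprime.pow_left_iff two_pos).mp ((IsCoprime.pow_right_iff two_pos).mp this)
    rcases hβ with rfl | rfl | rfl | rfl
    · -- β = 1
      rcases hε with rfl | rfl
      · refine ⟨c, d, e, f₁, hd0, by linarith, by linarith, Or.inr (by nlinarith)⟩
      · refine ⟨9 * d, c, f₁, 9 * e, hc0, by linarith, by linarith, Or.inl (by nlinarith)⟩
    · -- β = 5
      have hf5 : (5 : ℤ) ∣ f₁ := by
        have h5 : ((5 : ℕ) : ℤ) ∣ f₁ ^ 2 := ⟨ε * (a - 81 * b), by rw [← h3]; push_cast; ring⟩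
        exact_mod_cast Int.Prime.dvd_pow' Nat.prime_five h5
      obtain ⟨f, rfl⟩ := hf5
      have h3' : ε * (a - 81 * b) = 5 * f ^ 2 := by linarith
      have hf0 : f ≠ 0 := by
        rintro rfl
        rcases hε with rfl | rfl
        · apply ha81; linarith
        · apply ha81; linarith
      rcases hε with rfl | rfl
      · refine ⟨9 * e, f, 4 * c, 36 * d, hf0, by linarith, by linarith, Or.inr (by nlinarith)⟩
      · refine ⟨f, e, 4 * d, 4 * c, he0, by linarith, by linarith,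
          Or.inl (by nlinarith [sq_nonneg f])⟩
    · -- β = 2
      exfalso
      rcases hε with rfl | rfl
      · exact D15_no_even c d e f₁ 1 (by norm_num) hcd (by linarith) (by linarith)
      · exact D15_no_even c d e f₁ (-1) (by norm_num) hcd (by linarith) (by linarith)
    · -- β = 10
      exfalso
      rcases hε with rfl | rfl
      · exact D15_no_even c d e f₁ 5 (by norm_num) hcd (by linarith) (by linarith)
      · exact D15_no_even c d e f₁ (-5) (by norm_num) hcd (by linarith) (by linarith)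
  · -- α = 3
    exfalso
    have hd3 : ¬ (3 : ℤ) ∣ d := by
      intro h3d
      have h3a : (3 : ℤ) ∣ a := ⟨c ^ 2, hac⟩
      have h3b : (3 : ℤ) ∣ b := by rw [hd]; exact Dvd.dvd.pow h3d two_ne_zero
      have := hab.isUnit_of_dvd' h3a h3b
      rw [Int.isUnit_iff] at this
      omega
    have hδ3 : ¬ (3 : ℤ) ∣ ε * β := by
      rcases hβ with rfl | rfl | rfl | rfl <;> rcases hε with rfl | rfl <;> norm_num
    exact D15_no_three c d e f₁ (ε * β) hδ3 hd3 (by rw [← hac, ← hd]; exact hde)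
      (by rw [← hac, ← hd]; exact h3)

theorem D15_class (x y : ℚ) (hy : y ≠ 0) (h : y ^ 2 = x * (x - 1) * (x - 81)) :
    ∃ m n S T : ℤ, n ≠ 0 ∧ m ^ 2 - n ^ 2 = S ^ 2 ∧ m ^ 2 - 81 * n ^ 2 = T ^ 2 ∧
      (m ^ 2 ≤ 81 * (x.den : ℤ) ∨ 5 * m ^ 2 ≤ 81 * x.num) := by
  have hbpos : (0 : ℤ) < (x.den : ℤ) := by exact_mod_cast x.den_pos
  have hb0 : (x.den : ℚ) ≠ 0 := by exact_mod_cast x.den_nz
  have hx : x = (x.num : ℚ) / (x.den : ℚ) := (Rat.num_div_den x).symm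
  have hsq : (y * (x.den : ℚ) ^ 2) ^ 2 =
      ((x.num * x.den * (x.num - x.den) * (x.num - 81 * x.den) : ℤ) : ℚ) := by
    have h' : y ^ 2 = ((x.num : ℚ) / (x.den : ℚ)) * ((x.num : ℚ) / (x.den : ℚ) - 1)
        * ((x.num : ℚ) / (x.den : ℚ) - 81) := by rw [← hx]; exact h
    push_cast
    rw [mul_pow, h']
    field_simp
  obtain ⟨w, hw⟩ := D15_rat_int_of_sq _ _ hsq
  have hw0 : w ≠ 0 := by
    rintro rfl
    have : y * (x.den : ℚ) ^ 2 = 0 := by rw [hw]; simp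
    rcases mul_eq_zero.mp this with h0 | h0
    · exact hy h0
    · exact hb0 (pow_eq_zero_iff two_ne_zero |>.mp h0)
  have hw2 : w ^ 2 = x.num * x.den * (x.num - x.den) * (x.num - 81 * x.den) := by
    have : ((w ^ 2 : ℤ) : ℚ) =
        ((x.num * x.den * (x.num - x.den) * (x.num - 81 * x.den) : ℤ) : ℚ) := by
      rw [← hsq, hw]; push_cast; ring
    exact_mod_cast this
  exact D15_class_int x.num x.den w hbpos (Rat.isCoprime_num_den x) hw0 hw2

theorem D15_core : ∀ (M : ℕ) (m n S T : ℤ), |m| ≤ (M : ℤ) → n ≠ 0 → m ^ 2 - n ^ 2 = S ^ 2 →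
    m ^ 2 - 81 * n ^ 2 = T ^ 2 → False := by
  intro M
  induction M using Nat.strong_induction_on with
  | _ M ih =>
    intro m n S T hmM hn h1 h2
    -- pass to absolute values
    have hm0 : (0 : ℤ) ≤ |m| := abs_nonneg m
    have hn0 : (0 : ℤ) < |n| := abs_pos.mpr hn
    have hS0 : (0 : ℤ) ≤ |S| := abs_nonneg S
    have hT0 : (0 : ℤ) ≤ |T| := abs_nonneg T
    have e1 : |m| ^ 2 - |n| ^ 2 = |S| ^ 2 := by simp only [sq_abs]; exact h1
    have e2 : |m| ^ 2 - 81 * |n| ^ 2 = |T| ^ 2 := by simp only [sq_abs]; exact h2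
    obtain ⟨mn, hmn⟩ := Int.eq_ofNat_of_zero_le hm0
    obtain ⟨nn, hnn⟩ := Int.eq_ofNat_of_zero_le hn0.le
    obtain ⟨Sn, hSn⟩ := Int.eq_ofNat_of_zero_le hS0
    obtain ⟨Tn, hTn⟩ := Int.eq_ofNat_of_zero_le hT0
    rw [hmn, hnn, hSn] at e1
    rw [hmn, hnn, hTn] at e2
    rw [hmn] at hmM
    rw [hnn] at hn0
    have hnn1 : 1 ≤ nn := by exact_mod_cast hn0
    have hmM' : mn ≤ M := by exact_mod_cast hmM
    have E1 : mn ^ 2 = nn ^ 2 + Sn ^ 2 := by
      have : ((mn ^ 2 : ℕ) : ℤ) = ((nn ^ 2 + Sn ^ 2 : ℕ) : ℤ) := by push_cast; linarith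
      exact_mod_cast this
    have E2 : mn ^ 2 = 81 * nn ^ 2 + Tn ^ 2 := by
      have : ((mn ^ 2 : ℕ) : ℤ) = ((81 * nn ^ 2 + Tn ^ 2 : ℕ) : ℤ) := by push_cast; linarith
      exact_mod_cast this
    have hSm : Sn < mn := by
      by_contra hcon
      have : mn ^ 2 ≤ Sn ^ 2 := Nat.pow_le_pow_left (not_lt.mp hcon) 2
      have : 0 < nn ^ 2 := by positivity
      omega
    have hTm : Tn < mn := by
      by_contra hcon
      have : mn ^ 2 ≤ Tn ^ 2 := Nat.pow_le_pow_left (not_lt.mp hcon) 2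
      have : 0 < nn ^ 2 := by positivity
      omega
    have h9 : 9 * nn ≤ mn := by
      by_contra hcon
      have : mn ^ 2 < (9 * nn) ^ 2 := Nat.pow_lt_pow_left (not_le.mp hcon) two_ne_zero
      have e : (9 * nn) ^ 2 = 81 * nn ^ 2 := by ring
      omega
    have hSpos : 0 < Sn := by
      by_contra hcon
      have hS0' : Sn = 0 := by omega
      rw [hS0'] at E1
      have : 0 < nn ^ 2 := by positivity
      have : 0 ≤ Tn ^ 2 := Nat.zero_le _
      omega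
    by_cases hsmall : mn ≤ 81
    · -- base case
      have hn9 : nn ≤ 9 := by omega
      exact D15_base mn hsmall nn hnn1 hn9 Sn hSm.le E1 Tn hTm.le E2
    · -- descent step
      have hbig : 81 < mn := not_le.mp hsmall
      have hnQ : (nn : ℚ) ≠ 0 := by exact_mod_cast (by omega : nn ≠ 0)
      have E1q : (mn : ℚ) ^ 2 = (nn : ℚ) ^ 2 + (Sn : ℚ) ^ 2 := by exact_mod_cast E1
      have E2q : (mn : ℚ) ^ 2 = 81 * (nn : ℚ) ^ 2 + (Tn : ℚ) ^ 2 := by exact_mod_cast E2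
      set r₁ : ℚ := (mn : ℚ) / nn with hr₁
      set r₂ : ℚ := (Sn : ℚ) / nn with hr₂
      set r₃ : ℚ := (Tn : ℚ) / nn with hr₃
      have hr12 : r₁ ^ 2 - 1 = r₂ ^ 2 := by
        rw [hr₁, hr₂]; field_simp; linarith
      have hr13 : r₁ ^ 2 - 81 = r₃ ^ 2 := by
        rw [hr₁, hr₃]; field_simp; linarith
      have hr1pos : 0 < r₁ := by
        rw [hr₁]; apply div_pos
        · exact_mod_cast (by omega : 0 < mn)
        · exact_mod_cast (by omega : 0 < nn)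
      have hr2pos : 0 < r₂ := by
        rw [hr₂]; apply div_pos
        · exact_mod_cast hSpos
        · exact_mod_cast (by omega : 0 < nn)
      have hr3nn : 0 ≤ r₃ := by
        rw [hr₃]; positivity
      set X : ℚ := (r₁ + r₂) * (r₁ + r₃) with hX
      set Y : ℚ := (r₁ + r₂) * (r₁ + r₃) * (r₂ + r₃) with hY
      have hY0 : Y ≠ 0 := by
        have : 0 < Y := by rw [hY]; positivity
        exact this.ne'
      have hX1 : X - 1 = (r₂ + r₁) * (r₂ + r₃) := by rw [hX]; linear_combination hr12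
      have hX81 : X - 81 = (r₃ + r₁) * (r₃ + r₂) := by rw [hX]; linear_combination hr13
      have hXY : Y ^ 2 = X * (X - 1) * (X - 81) := by
        rw [hX1, hX81, hX, hY]; ring
      -- X as a quotient of integers
      have hden : ((mn : ℤ) - (Sn : ℤ)) ≠ 0 := by
        have : (Sn : ℤ) < (mn : ℤ) := by exact_mod_cast hSm
        omega
      have hdenQ : ((mn : ℚ) - (Sn : ℚ)) ≠ 0 := by
        have : (Sn : ℚ) < (mn : ℚ) := by exact_mod_cast hSm
        linarith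
      have hXdiv : X = Rat.divInt ((mn : ℤ) + (Tn : ℤ)) ((mn : ℤ) - (Sn : ℤ)) := by
        rw [Rat.divInt_eq_div]
        push_cast
        rw [eq_div_iff hdenQ]
        have hm : (mn : ℚ) = r₁ * nn := by rw [hr₁]; field_simp
        have hS : (Sn : ℚ) = r₂ * nn := by rw [hr₂]; field_simp
        have hT : (Tn : ℚ) = r₃ * nn := by rw [hr₃]; field_simp
        rw [hm, hS, hT, hX]
        linear_combination (r₁ + r₃) * (nn : ℚ) * hr12
      have hnumdvd : X.num ∣ (mn : ℤ) + (Tn : ℤ) := by rw [hXdiv]; exact Rat.num_dvd _ hden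
      have hdendvd : (X.den : ℤ) ∣ (mn : ℤ) - (Sn : ℤ) := by rw [hXdiv]; exact Rat.den_dvd _ _
      have hnumle : X.num ≤ (mn : ℤ) + (Tn : ℤ) :=
        Int.le_of_dvd (by have : (0 : ℤ) < (mn : ℤ) := by exact_mod_cast (by omega : 0 < mn)
                          have : (0 : ℤ) ≤ (Tn : ℤ) := Int.natCast_nonneg _
                          omega) hnumdvd
      have hdenle : (X.den : ℤ) ≤ (mn : ℤ) - (Sn : ℤ) :=
        Int.le_of_dvd (by have : (Sn : ℤ) < (mn : ℤ) := by exact_mod_cast hSm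
                          omega) hdendvd
      obtain ⟨m', n', S', T', hn', h1', h2', hbound⟩ := D15_class X Y hY0 hXY
      have hTmZ : (Tn : ℤ) < (mn : ℤ) := by exact_mod_cast hTm
      have hSnn : (0 : ℤ) ≤ (Sn : ℤ) := Int.natCast_nonneg _
      have hbigZ : (81 : ℤ) < (mn : ℤ) := by exact_mod_cast hbig
      have hm'sq : m' ^ 2 ≤ 81 * (mn : ℤ) := by
        rcases hbound with hb | hb
        · linarith
        · nlinarith [sq_nonneg m']
      have hm'lt : |m'| < (mn : ℤ) := by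
        apply abs_lt_of_sq_lt_sq _ (Int.natCast_nonneg _)
        nlinarith
      have hlt : m'.natAbs < M := by
        have : ((m'.natAbs : ℕ) : ℤ) < (M : ℤ) := by
          rw [Int.natCast_natAbs]
          have : (mn : ℤ) ≤ (M : ℤ) := by exact_mod_cast hmM'
          linarith
        exact_mod_cast this
      exact ih m'.natAbs hlt m' n' S' T' (by rw [Int.natCast_natAbs]) hn' h1' h2'

/-- The elliptic curve `y^2 = x (x - 1) (x - 81)` (15a2) has no rational points besides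
its 2-torsion. -/
theorem D15 (x y : ℚ) (h : y ^ 2 = x * (x - 1) * (x - 81)) : y = 0 := by
  by_contra hy
  obtain ⟨m, n, S, T, hn, h1, h2, -⟩ := D15_class x y hy h
  exact D15_core m.natAbs m n S T (by rw [Int.natCast_natAbs]) hn h1 h2

end Fermat.Agent.S51
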