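import Mathlib
import Fermat.Prelude.Def_FLTPrelim_Modularity

set_option autoImplicit false

namespace Fermat.Agent.S51

/-- If `a * c^3 = b * d` over `ℤ`, `5 ∤ a`, `5 ∣ b`, `125 ∤ b`, then `5 ∣ c` and `5 ∣ d`. -/
theorem eg_five (a b c d : ℤ) (h : a * c ^ 3 = b * d) (ha : ¬ (5 : ℤ) ∣ a) (hb5 : (5 : ℤ) ∣ b)
    (hb : ¬ (125 : ℤ) ∣ b) : (5 : ℤ) ∣ c ∧ (5 : ℤ) ∣ d := by
  have h5 : Prime (5 : ℤ) := by norm_num
  have hc : (5 : ℤ) ∣ c := by
    have h1 : (5 : ℤ) ∣ a * c ^ 3 := by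
      rw [h]; exact Dvd.dvd.mul_right hb5 d
    rcases h5.dvd_or_dvd h1 with h2 | h2
    · exact absurd h2 ha
    · exact h5.dvd_of_dvd_pow h2
  refine ⟨hc, ?_⟩
  by_contra hd
  obtain ⟨k, rfl⟩ := hc
  have h2 : (125 : ℤ) ∣ b * d := by
    rw [← h]; exact ⟨a * k ^ 3, by ring⟩
  have hcop : IsCoprime (125 : ℤ) d := by
    have : IsCoprime (5 : ℤ) d := (h5.coprime_iff_not_dvd).mpr hd
    have h3 : IsCoprime ((5 : ℤ) ^ 3) d := this.pow_left
    norm_num at h3
    exact h3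
  exact hb (hcop.dvd_of_dvd_mul_right h2)

/-- The four non-cuspidal rational points of `X₀(15)` do not come from a curve that is
semistable at `5`: the corresponding `j`-invariants have `5`-adic valuation `1` or `2`. -/
theorem eg_semistable_contra (c4 Δ : ℤ) (hss : (5 : ℤ) ∣ Δ → ¬ (5 : ℤ) ∣ c4) (s : ℚ)
    (hs : s = -25 / 2 ∨ s = -25 / 8 ∨ s = -10 ∨ s = -40)
    (h : (c4 : ℚ) ^ 3 * s = (Δ : ℚ) * (s ^ 2 + 10 * s + 5) ^ 3) : False := by
  have key : ∀ a b : ℤ, a * c4 ^ 3 = b * Δ → ¬ (5 : ℤ) ∣ a → (5 : ℤ) ∣ b →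
      ¬ (125 : ℤ) ∣ b → False := by
    intro a b h ha hb5 hb
    obtain ⟨h1, h2⟩ := eg_five a b c4 Δ h ha hb5 hb
    exact hss h2 h1
  rcases hs with rfl | rfl | rfl | rfl
  · refine key (-32) 121945 ?_ (by norm_num) (by norm_num) (by norm_num)
    have : ((-32 : ℤ) : ℚ) * (c4 : ℚ) ^ 3 = ((121945 : ℤ) : ℚ) * (Δ : ℚ) := by
      push_cast; linear_combination (64 / 25 : ℚ) * h
    exact_mod_cast this
  · refine key 32768 46969655 ?_ (by norm_num) (by norm_num) (by norm_num)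
    have : ((32768 : ℤ) : ℚ) * (c4 : ℚ) ^ 3 = ((46969655 : ℤ) : ℚ) * (Δ : ℚ) := by
      push_cast; linear_combination (-262144 / 25 : ℚ) * h
    exact_mod_cast this
  · refine key (-2) 25 ?_ (by norm_num) (by norm_num) (by norm_num)
    have : ((-2 : ℤ) : ℚ) * (c4 : ℚ) ^ 3 = ((25 : ℤ) : ℚ) * (Δ : ℚ) := by
      push_cast; linear_combination (1 / 5 : ℚ) * h
    exact_mod_cast this
  · refine key (-8) 349938025 ?_ (by norm_num) (by norm_num) (by norm_num)
    have : ((-8 : ℤ) : ℚ) * (c4 : ℚ) ^ 3 = ((349938025 : ℤ) : ℚ) * (Δ : ℚ) := by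
      push_cast; linear_combination (1 / 5 : ℚ) * h
    exact_mod_cast this

/-- The same for a semistable integral Weierstrass model. -/
theorem eg_semistable_false (W : WeierstrassCurve ℤ) (hW : W.IsSemistableModel)
    (s : ℚ) (hs : s = -25 / 2 ∨ s = -25 / 8 ∨ s = -10 ∨ s = -40)
    (hj : (W.c₄ : ℚ) ^ 3 * s = (W.Δ : ℚ) * (s ^ 2 + 10 * s + 5) ^ 3) : False :=
  eg_semistable_contra W.c₄ W.Δ (fun h5 => hW 5 (by norm_num) (by exact_mod_cast h5)) s hs hj

/-- Rational points of `η² = ζ (9ζ + 4) (1 - 4ζ)` (the curve `15a1`), deduced from the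
rational points of `y² = x (x - 1) (x - 81)` through the explicit `2`-isogeny. -/
theorem eg_zeta_list (hD : ∀ x y : ℚ, y ^ 2 = x * (x - 1) * (x - 81) → y = 0) (ζ η : ℚ)
    (h : η ^ 2 = ζ * (9 * ζ + 4) * (1 - 4 * ζ)) :
    ζ = 0 ∨ ζ = 1 / 4 ∨ ζ = -4 / 9 ∨ ζ = -1 ∨ ζ = 1 / 9 := by
  by_cases h4 : 9 * ζ + 4 = 0
  · right; right; left; linarith
  have h4' : 9 * ζ + 4 ≠ 0 := h4
  have hy := hD (81 * η ^ 2 / (9 * ζ + 4) ^ 2)
    (324 * η * (1 - 9 * ζ) * (1 + ζ) / (9 * ζ + 4) ^ 2) (by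
      have e1 : 81 * η ^ 2 / (9 * ζ + 4) ^ 2 - 1 = -4 * (9 * ζ - 1) ^ 2 / (9 * ζ + 4) := by
        rw [div_sub_one (pow_ne_zero 2 h4'), div_eq_div_iff (pow_ne_zero 2 h4') h4', h]; ring
      have e2 : 81 * η ^ 2 / (9 * ζ + 4) ^ 2 - 81 = -324 * (ζ + 1) ^ 2 / (9 * ζ + 4) := by
        rw [div_sub' (pow_ne_zero 2 h4'), div_eq_div_iff (pow_ne_zero 2 h4') h4', h]; ring
      rw [e1, e2]
      field_simp
      ring)
  have hy' : 324 * η * (1 - 9 * ζ) * (1 + ζ) = 0 := by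
    rcases div_eq_zero_iff.mp hy with h1 | h1
    · exact h1
    · exact absurd ((pow_eq_zero_iff two_ne_zero).mp h1) h4
  rcases mul_eq_zero.mp hy' with h1 | h1
  · rcases mul_eq_zero.mp h1 with h2 | h2
    · rcases mul_eq_zero.mp h2 with h3 | h3
      · norm_num at h3
      · -- η = 0
        rw [h3] at h
        have h5 : ζ * (9 * ζ + 4) * (1 - 4 * ζ) = 0 := by linarith
        rcases mul_eq_zero.mp h5 with h6 | h6
        · rcases mul_eq_zero.mp h6 with h7 | h7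
          · left; exact h7
          · exact absurd h7 h4
        · right; left; linarith
    · right; right; right; right; linarith
  · right; right; right; left; linarith

/-- The norm of the `3`-torsion relation in `z ↦ 1 - z`, as a polynomial in `ζ = z (1 - z)`. -/
theorem eg_norm {K : Type*} [Field K] (z β ζ : K) (hζ : z * (1 - z) = ζ)
    (hR : z ^ 3 * β ^ 2 + 3 * z ^ 2 * (z - 1) ^ 2 * β + (z - 1) ^ 3 = 0) :
    ζ ^ 3 * β ^ 4 + 3 * ζ ^ 2 * (1 - 3 * ζ) * β ^ 3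
      + (9 * ζ ^ 4 + 2 * ζ ^ 3 - (1 - 3 * ζ) ^ 2) * β ^ 2
      - 3 * ζ ^ 2 * (1 - 3 * ζ) * β + ζ ^ 3 = 0 := by
  subst hζ
  linear_combination ((1 - z) ^ 3 * β ^ 2 + 3 * (1 - z) ^ 2 * z ^ 2 * β - z ^ 3) * hR

/-- From the value of `ζ = z (1 - z)` at a rational point of `X₀(15)` to the value of the
`X₀(5)`-coordinate `s = β - 1/β - 11` (the value `ζ = 0` is impossible). -/
theorem eg_s_of_zeta {K : Type*} [Field K] [CharZero K] (z β : K)
    (hR : z ^ 3 * β ^ 2 + 3 * z ^ 2 * (z - 1) ^ 2 * β + (z - 1) ^ 3 = 0)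
    (hβ : β ≠ 0) (hcusp : β ^ 2 - 11 * β - 1 ≠ 0)
    (hζ : z * (1 - z) = 0 ∨ z * (1 - z) = 1 / 4 ∨ z * (1 - z) = -4 / 9 ∨ z * (1 - z) = -1 ∨
      z * (1 - z) = 1 / 9) :
    β - 1 / β - 11 = -25 / 2 ∨ β - 1 / β - 11 = -25 / 8 ∨ β - 1 / β - 11 = -10 ∨
      β - 1 / β - 11 = -40 := by
  rcases hζ with hζ | hζ | hζ | hζ | hζ
  · exfalso
    rcases mul_eq_zero.mp hζ with h0 | h1
    · subst h0
      norm_num at hR
    · have hz : z = 1 := by linear_combination -h1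
      subst hz
      have : β ^ 2 = 0 := by linear_combination hR
      exact hβ (by simpa using this)
  · have h := eg_norm z β _ hζ hR
    have h2 : (2 * β ^ 2 + 3 * β - 2) ^ 2 = 0 := by linear_combination 256 * h
    have h3 : 2 * β ^ 2 + 3 * β - 2 = 0 := by simpa using h2
    left; field_simp; linear_combination h3
  · have h := eg_norm z β _ hζ hR
    have h2 : (8 * β ^ 2 - 63 * β - 8) ^ 2 = 0 := by linear_combination (-729) * h
    have h3 : 8 * β ^ 2 - 63 * β - 8 = 0 := by simpa using h2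
    right; left; field_simp; linear_combination h3
  · have h := eg_norm z β _ hζ hR
    have h2 : (β ^ 2 - β - 1) * (β ^ 2 - 11 * β - 1) = 0 := by linear_combination (-1) * h
    have h3 : β ^ 2 - β - 1 = 0 := by
      rcases mul_eq_zero.mp h2 with h4 | h4
      · exact h4
      · exact absurd h4 hcusp
    right; right; left; field_simp; linear_combination h3
  · have h := eg_norm z β _ hζ hR
    have h2 : (β ^ 2 + 29 * β - 1) * (β ^ 2 - 11 * β - 1) = 0 := by linear_combination 729 * h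
    have h3 : β ^ 2 + 29 * β - 1 = 0 := by
      rcases mul_eq_zero.mp h2 with h4 | h4
      · exact h4
      · exact absurd h4 hcusp
    right; right; right; field_simp; linear_combination h3

end Fermat.Agent.S51
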