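import Fermat.Agent.S51.Defs

open WeierstrassCurve WeierstrassCurve.Affine WeierstrassCurve.Affine.Point

namespace Fermat.Agent.S51

section A1

variable {K : Type*} [Field K] [CharZero K] [DecidableEq K] {W : WeierstrassCurve.Affine K}

theorem c4_eq_sA (W : WeierstrassCurve K) : W.c₄ = -48 * sA W := by
  unfold sA
  field_simp

theorem disc_eq_sA_sB (W : WeierstrassCurve K) :
    W.Δ = -16 * (4 * sA W ^ 3 + 27 * sB W ^ 2) := by
  have h := W.c_relation
  unfold sA sB
  linear_combination (1 / 1728 : K) * h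

theorem groupLaw_pX_some {x y : K} (h : W.Nonsingular x y) :
    pX (Point.some x y h) = x + W.b₂ / 12 := rfl

theorem groupLaw_pY_some {x y : K} (h : W.Nonsingular x y) :
    pY (Point.some x y h) = y + (W.a₁ * x + W.a₃) / 2 := rfl

theorem groupLaw_pX_zero : pX (0 : W.Point) = 0 := rfl

theorem groupLaw_pY_zero : pY (0 : W.Point) = 0 := rfl

/-- The short Weierstrass equation in terms of the original coordinates. -/
theorem groupLaw_short_eq {x y : K} (h : W.Equation x y) :
    (y + (W.a₁ * x + W.a₃) / 2) ^ 2 = cub (sA W) (sB W) (x + W.b₂ / 12) := by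
  rw [equation_iff] at h
  unfold cub sA sB
  simp only [WeierstrassCurve.c₄, WeierstrassCurve.c₆, WeierstrassCurve.b₂, WeierstrassCurve.b₄,
    WeierstrassCurve.b₆]
  linear_combination h

theorem groupLaw_short_eq_iff {x y : K} :
    W.Equation x y ↔
      (y + (W.a₁ * x + W.a₃) / 2) ^ 2 = cub (sA W) (sB W) (x + W.b₂ / 12) := by
  refine ⟨groupLaw_short_eq, fun h => ?_⟩
  rw [equation_iff]
  unfold cub sA sB at h
  simp only [WeierstrassCurve.c₄, WeierstrassCurve.c₆, WeierstrassCurve.b₂, WeierstrassCurve.b₄,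
    WeierstrassCurve.b₆] at h
  linear_combination h

theorem pY_sq {P : W.Point} (hP : P ≠ 0) : pY P ^ 2 = cub (sA W) (sB W) (pX P) := by
  rcases P with _ | ⟨x, y, h⟩
  · exact absurd rfl hP
  · exact groupLaw_short_eq h.1

theorem pX_neg (P : W.Point) : pX (-P) = pX P := by
  rcases P with _ | ⟨x, y, h⟩
  · rfl
  · rfl

theorem pY_neg (P : W.Point) : pY (-P) = -pY P := by
  rcases P with _ | ⟨x, y, h⟩
  · change (0 : K) = -0
    simp
  · rw [Point.neg_some, groupLaw_pY_some, groupLaw_pY_some, negY]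
    ring

theorem eq_or_eq_neg_of_pX_eq {P Q : W.Point} (hP : P ≠ 0) (hQ : Q ≠ 0) (h : pX P = pX Q) :
    P = Q ∨ P = -Q := by
  rcases P with _ | ⟨x₁, y₁, h₁⟩
  · exact absurd rfl hP
  rcases Q with _ | ⟨x₂, y₂, h₂⟩
  · exact absurd rfl hQ
  have hx : x₁ = x₂ := by
    rw [groupLaw_pX_some, groupLaw_pX_some] at h
    exact add_right_cancel h
  exact Point.X_eq_iff.mp hx

theorem add_self_eq_zero_iff {P : W.Point} (hP : P ≠ 0) : P + P = 0 ↔ pY P = 0 := by
  rcases P with _ | ⟨x, y, h⟩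
  · exact absurd rfl hP
  rw [groupLaw_pY_some]
  constructor
  · intro h0
    by_contra hY
    have hy : y ≠ W.negY x y := by
      intro hy
      apply hY
      rw [negY] at hy
      linear_combination (1 / 2 : K) * hy
    rw [Point.add_self_of_Y_ne hy] at h0
    exact Point.some_ne_zero _ h0
  · intro hY
    have hy : y = W.negY x y := by
      rw [negY]
      linear_combination (2 : K) * hY
    exact Point.add_self_of_Y_eq hy

theorem pX_add_self {P : W.Point} (hP : P ≠ 0) (hY : pY P ≠ 0) :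
    P + P ≠ 0 ∧ pX (P + P) = dcub (sA W) (pX P) ^ 2 / (4 * pY P ^ 2) - 2 * pX P ∧
      pY (P + P) = -pY P - dcub (sA W) (pX P) / (2 * pY P) * (pX (P + P) - pX P) := by
  rcases P with _ | ⟨x, y, h⟩
  · exact absurd rfl hP
  rw [groupLaw_pY_some] at hY
  have hy : y ≠ W.negY x y := by
    intro hy
    apply hY
    rw [negY] at hy
    linear_combination (1 / 2 : K) * hy
  have hden : y - W.negY x y ≠ 0 := sub_ne_zero.mpr hy
  have hden' : y - W.negY x y = 2 * (y + (W.a₁ * x + W.a₃) / 2) := by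
    rw [negY]; ring
  have hY2 : (2 : K) * (y + (W.a₁ * x + W.a₃) / 2) ≠ 0 := by rwa [← hden']
  have hsl : W.slope x x y y =
      (3 * x ^ 2 + 2 * W.a₂ * x + W.a₄ - W.a₁ * y) / (y - W.negY x y) :=
    slope_of_Y_ne rfl hy
  -- the shifted slope
  have hL : W.slope x x y y + W.a₁ / 2 =
      dcub (sA W) (x + W.b₂ / 12) / (2 * (y + (W.a₁ * x + W.a₃) / 2)) := by
    rw [hsl, hden', eq_div_iff hY2, add_mul, div_mul_cancel₀ _ hY2]
    unfold dcub sA
    simp only [WeierstrassCurve.c₄, WeierstrassCurve.b₂, WeierstrassCurve.b₄]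
    ring
  have hXY : pX (Point.some x y h + Point.some x y h) =
        (W.slope x x y y + W.a₁ / 2) ^ 2 - 2 * (x + W.b₂ / 12) ∧
      pY (Point.some x y h + Point.some x y h) =
        -(y + (W.a₁ * x + W.a₃) / 2) - (W.slope x x y y + W.a₁ / 2) *
          (pX (Point.some x y h + Point.some x y h) - (x + W.b₂ / 12)) := by
    rw [Point.add_self_of_Y_ne hy, groupLaw_pX_some, groupLaw_pY_some]
    simp only [addY, negAddY, addX, negY, WeierstrassCurve.b₂]
    constructor <;> ring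
  refine ⟨?_, ?_, ?_⟩
  · rw [Point.add_self_of_Y_ne hy]
    exact Point.some_ne_zero _
  · rw [hXY.1, hL, groupLaw_pX_some, groupLaw_pY_some, div_pow]
    congr 2
    ring
  · rw [hXY.2, hL, groupLaw_pX_some, groupLaw_pY_some]

theorem pX_add_of_ne {P Q : W.Point} (hP : P ≠ 0) (hQ : Q ≠ 0) (h : pX P ≠ pX Q) :
    P + Q ≠ 0 ∧ pX (P + Q) = ((pY P - pY Q) / (pX P - pX Q)) ^ 2 - pX P - pX Q := by
  rcases P with _ | ⟨x₁, y₁, h₁⟩
  · exact absurd rfl hP
  rcases Q with _ | ⟨x₂, y₂, h₂⟩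
  · exact absurd rfl hQ
  have hx : x₁ ≠ x₂ := by
    intro hx
    apply h
    rw [groupLaw_pX_some, groupLaw_pX_some, hx]
  have hx' : x₁ - x₂ ≠ 0 := sub_ne_zero.mpr hx
  refine ⟨?_, ?_⟩
  · rw [Point.add_of_X_ne hx]
    exact Point.some_ne_zero _
  · rw [Point.add_of_X_ne hx]
    simp only [groupLaw_pX_some, groupLaw_pY_some]
    rw [slope_of_X_ne hx]
    have e1 : x₁ + W.b₂ / 12 - (x₂ + W.b₂ / 12) = x₁ - x₂ := by ring
    rw [e1]
    simp only [addX, WeierstrassCurve.b₂]
    field_simp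
    ring

theorem exists_point_of_eq (hΔ : W.Δ ≠ 0) {X Y : K} (h : Y ^ 2 = cub (sA W) (sB W) X) :
    ∃ P : W.Point, P ≠ 0 ∧ pX P = X ∧ pY P = Y := by
  set x : K := X - W.b₂ / 12 with hx
  set y : K := Y - (W.a₁ * x + W.a₃) / 2 with hy
  have heq : W.Equation x y := by
    rw [groupLaw_short_eq_iff]
    have e1 : y + (W.a₁ * x + W.a₃) / 2 = Y := by rw [hy]; ring
    have e2 : x + W.b₂ / 12 = X := by rw [hx]; ring
    rw [e1, e2]
    exact h
  have hns : W.Nonsingular x y := (equation_iff_nonsingular_of_Δ_ne_zero hΔ).mp heq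
  refine ⟨Point.some x y hns, Point.some_ne_zero _, ?_, ?_⟩
  · rw [groupLaw_pX_some, hx]; ring
  · rw [groupLaw_pY_some, hy]; ring

end A1

end Fermat.Agent.S51
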