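import Fermat.Agent.S51.TateA

namespace Fermat.Agent.S51

section B2
variable {K : Type*} [Field K] [CharZero K] {A B X₁ X₂ XQ : K}

/-- Auxiliary: the cubic relation in plain variables. -/
theorem tateB_cubic_aux (h : Rel5 A B X₁ X₂) (hQ : psi3 A B XQ = 0) :
    ∃ z β : K, z = tz X₁ X₂ XQ ∧ β = tbeta A B X₁ X₂ ∧ β ≠ 0 ∧
      z ^ 3 * β ^ 2 + 3 * z ^ 2 * (z - 1) ^ 2 * β + (z - 1) ^ 3 = 0 := by
  obtain ⟨v, β, hv, hβ, hβeq, hh, hX, hA, hB⟩ := tate_param h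
  refine ⟨tz X₁ X₂ XQ, β, rfl, hβeq, hβ, ?_⟩
  obtain ⟨z, hz⟩ : ∃ z : K, z = tz X₁ X₂ XQ := ⟨_, rfl⟩
  rw [← hz]
  have hvβ : v * β ≠ 0 := mul_ne_zero hv hβ
  have hXQ : XQ = X₁ + z * (v * β) := by
    rw [hz, tz, hh]; field_simp; ring
  have key : psi3 A B XQ =
      v ^ 4 * β ^ 3 * (z ^ 3 * β ^ 2 + 3 * z ^ 2 * (z - 1) ^ 2 * β + (z - 1) ^ 3) := by
    rw [hXQ, hA, hB, hX]; unfold psi3; ring
  rw [key] at hQ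
  rcases mul_eq_zero.mp hQ with h1 | h1
  · exact absurd h1 (mul_ne_zero (pow_ne_zero _ hv) (pow_ne_zero _ hβ))
  · exact h1

theorem tate_cubic (h : Rel5 A B X₁ X₂) (hQ : psi3 A B XQ = 0) :
    tz X₁ X₂ XQ ^ 3 * tbeta A B X₁ X₂ ^ 2 +
      3 * tz X₁ X₂ XQ ^ 2 * (tz X₁ X₂ XQ - 1) ^ 2 * tbeta A B X₁ X₂ + (tz X₁ X₂ XQ - 1) ^ 3 = 0 := by
  obtain ⟨z, β, hz, hβeq, -, hc⟩ := tateB_cubic_aux h hQ
  rw [← hz, ← hβeq]; exact hc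

theorem tz_ne_zero (h : Rel5 A B X₁ X₂) (hQ : psi3 A B XQ = 0) : tz X₁ X₂ XQ ≠ 0 := by
  obtain ⟨z, β, hz, hβeq, -, hc⟩ := tateB_cubic_aux h hQ
  rw [← hz]
  rintro rfl
  norm_num at hc

theorem tz_ne_one (h : Rel5 A B X₁ X₂) (hQ : psi3 A B XQ = 0) : tz X₁ X₂ XQ ≠ 1 := by
  obtain ⟨z, β, hz, hβeq, hβ, hc⟩ := tateB_cubic_aux h hQ
  rw [← hz]
  rintro rfl
  apply hβ
  have : β ^ 2 = 0 := by linear_combination hc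
  exact pow_eq_zero_iff (two_ne_zero) |>.mp this

omit [CharZero K] in
theorem tateB_tz_swap (h : X₂ ≠ X₁) : tz X₂ X₁ XQ = 1 - tz X₁ X₂ XQ := by
  have h1 : X₂ - X₁ ≠ 0 := sub_ne_zero.mpr h
  have h2 : X₁ - X₂ ≠ 0 := sub_ne_zero.mpr (Ne.symm h)
  unfold tz
  field_simp
  ring

theorem tzeta_swap (h : X₂ ≠ X₁) : tzeta X₂ X₁ XQ = tzeta X₁ X₂ XQ := by
  unfold tzeta
  rw [tateB_tz_swap h]
  ring

theorem teta_swap (h : Rel5 A B X₁ X₂) (hQ : psi3 A B XQ = 0) :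
    teta A B X₂ X₁ XQ = teta A B X₁ X₂ XQ := by
  obtain ⟨z, β, hz, hβeq, hβ, hc⟩ := tateB_cubic_aux h hQ
  have hz0 : z ≠ 0 := hz ▸ tz_ne_zero h hQ
  have hz1 : z ≠ 1 := hz ▸ tz_ne_one h hQ
  have hz1' : z - 1 ≠ 0 := sub_ne_zero.mpr hz1
  unfold teta
  rw [tateB_tz_swap h.1, tbeta_swap h, ← hz, ← hβeq]
  have e1 : (1 : K) - z - 1 = -z := by ring
  rw [e1]
  field_simp
  linear_combination (-2 * (2 * z - 1)) * hc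

theorem teta_sq (h : Rel5 A B X₁ X₂) (hQ : psi3 A B XQ = 0) :
    teta A B X₁ X₂ XQ ^ 2 =
      tzeta X₁ X₂ XQ * (9 * tzeta X₁ X₂ XQ + 4) * (1 - 4 * tzeta X₁ X₂ XQ) := by
  obtain ⟨z, β, hz, hβeq, hβ, hc⟩ := tateB_cubic_aux h hQ
  have hz1 : z ≠ 1 := hz ▸ tz_ne_one h hQ
  have hz1' : z - 1 ≠ 0 := sub_ne_zero.mpr hz1
  unfold teta tzeta
  rw [← hz, ← hβeq]
  field_simp
  linear_combination (4 * z * (2 * z - 1) ^ 2) * hc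

end B2

end Fermat.Agent.S51
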