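import Mathlib

set_option autoImplicit false

namespace Fermat.Agent.S51

open WeierstrassCurve Polynomial

section Short

variable {K : Type*} [Field K] [CharZero K] (W : WeierstrassCurve.Affine K)

/-- short Weierstrass `X`-coordinate of an affine point `(x, y)` -/
noncomputable def t5c_sX (x : K) : K := x + W.b₂ / 12

/-- short Weierstrass `Y`-coordinate of an affine point `(x, y)` -/
noncomputable def t5c_sY (x y : K) : K := y + (W.a₁ * x + W.a₃) / 2

/-- short Weierstrass coefficient `A` -/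
noncomputable def t5c_A : K := -W.c₄ / 48

/-- short Weierstrass coefficient `B` -/
noncomputable def t5c_B : K := -W.c₆ / 864

lemma t5c_short_eq {x y : K} (h : W.Equation x y) :
    t5c_sY W x y ^ 2 = t5c_sX W x ^ 3 + t5c_A W * t5c_sX W x + t5c_B W := by
  rw [WeierstrassCurve.Affine.equation_iff] at h
  simp only [t5c_sX, t5c_sY, t5c_A, t5c_B, WeierstrassCurve.c₄, WeierstrassCurve.c₆,
    WeierstrassCurve.b₂, WeierstrassCurve.b₄, WeierstrassCurve.b₆]
  linear_combination h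

lemma t5c_sY_ne_zero {x y : K} (hy : y ≠ W.negY x y) : t5c_sY W x y ≠ 0 := by
  intro h0
  apply hy
  simp only [t5c_sY, WeierstrassCurve.Affine.negY] at h0 ⊢
  linear_combination 2 * h0

variable [DecidableEq K]

/-- coordinates of `P + P` in short Weierstrass coordinates -/
lemma t5c_double {x y : K} (h : W.Nonsingular x y) (hy : y ≠ W.negY x y) :
    ∃ x' y', ∃ h' : W.Nonsingular x' y',
      WeierstrassCurve.Affine.Point.some x y h + WeierstrassCurve.Affine.Point.some x y h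
        = WeierstrassCurve.Affine.Point.some x' y' h' ∧
      t5c_sX W x' * (4 * t5c_sY W x y ^ 2) =
        t5c_sX W x ^ 4 - 2 * t5c_A W * t5c_sX W x ^ 2 - 8 * t5c_B W * t5c_sX W x
          + t5c_A W ^ 2 ∧
      t5c_sY W x' y' * (8 * t5c_sY W x y ^ 3) =
        t5c_sX W x ^ 6 + 5 * t5c_A W * t5c_sX W x ^ 4 + 20 * t5c_B W * t5c_sX W x ^ 3
          - 5 * t5c_A W ^ 2 * t5c_sX W x ^ 2 - 4 * t5c_A W * t5c_B W * t5c_sX W x
          - 8 * t5c_B W ^ 2 - t5c_A W ^ 3 := by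
  have hne : y - W.negY x y ≠ 0 := sub_ne_zero.mpr hy
  have heq := (WeierstrassCurve.Affine.equation_iff _ _).mp h.1
  have hl : W.slope x x y y * (2 * y + W.a₁ * x + W.a₃)
      = 3 * x ^ 2 + 2 * W.a₂ * x + W.a₄ - W.a₁ * y := by
    rw [WeierstrassCurve.Affine.slope_of_Y_ne rfl hy]
    have : (2 * y + W.a₁ * x + W.a₃) = y - W.negY x y := by
      simp only [WeierstrassCurve.Affine.negY]; ring
    rw [this]
    field_simp
  refine ⟨_, _, _, WeierstrassCurve.Affine.Point.add_self_of_Y_ne hy, ?_, ?_⟩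
  · generalize W.slope x x y y = l at hl
    simp only [t5c_sX, t5c_sY, t5c_A, t5c_B, WeierstrassCurve.c₄, WeierstrassCurve.c₆,
      WeierstrassCurve.b₂, WeierstrassCurve.b₄, WeierstrassCurve.b₆,
      WeierstrassCurve.Affine.addX]
    linear_combination (l * (2 * y + W.a₁ * x + W.a₃)
        + (3 * x ^ 2 + 2 * W.a₂ * x + W.a₄ - W.a₁ * y)
        + W.a₁ * (2 * y + W.a₁ * x + W.a₃)) * hl
      + (-8 * x + (-2 / 3) * W.a₁ ^ 2 + (-8 / 3) * W.a₂) * heq
  · generalize W.slope x x y y = l at hl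
    simp only [t5c_sX, t5c_sY, t5c_A, t5c_B, WeierstrassCurve.c₄, WeierstrassCurve.c₆,
      WeierstrassCurve.b₂, WeierstrassCurve.b₄, WeierstrassCurve.b₆,
      WeierstrassCurve.Affine.addX, WeierstrassCurve.Affine.addY,
      WeierstrassCurve.Affine.negAddY, WeierstrassCurve.Affine.negY]
    linear_combination (-((l * (2 * y + W.a₁ * x + W.a₃)) ^ 2
          + (l * (2 * y + W.a₁ * x + W.a₃)) * (3 * x ^ 2 + 2 * W.a₂ * x + W.a₄ - W.a₁ * y)
          + (3 * x ^ 2 + 2 * W.a₂ * x + W.a₄ - W.a₁ * y) ^ 2)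
        + (-3 * W.a₁ / 2) * (2 * y + W.a₁ * x + W.a₃)
          * (l * (2 * y + W.a₁ * x + W.a₃) + (3 * x ^ 2 + 2 * W.a₂ * x + W.a₄ - W.a₁ * y))
        + (W.a₂ + 3 * x - W.a₁ ^ 2 / 2) * (2 * y + W.a₁ * x + W.a₃) ^ 2) * hl
      + (-8 * y ^ 2 - 8 * y * x * W.a₁ - 8 * y * W.a₃ + 28 * x ^ 3 + 5 * x ^ 2 * W.a₁ ^ 2
        + 28 * x ^ 2 * W.a₂ + (1 / 2) * x * W.a₁ ^ 4 + 4 * x * W.a₁ ^ 2 * W.a₂
        - 2 * x * W.a₁ * W.a₃ + 8 * x * W.a₂ ^ 2 + 4 * x * W.a₄ + (1 / 2) * W.a₁ ^ 3 * W.a₃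
        + W.a₁ ^ 2 * W.a₄ + 2 * W.a₁ * W.a₂ * W.a₃ + 4 * W.a₂ * W.a₄ - 4 * W.a₃ ^ 2
        - 8 * W.a₆) * heq

end Short

section Poly

variable {K : Type*} [Field K]

/-- the degree 16 polynomial whose roots contain the short `X`-coordinates of the
nonzero points killed by `5` -/
noncomputable def t5c_G (A B : K) : K[X] :=
  C (-15) * X ^ 16 + C (-216 * A) * X ^ 14 + C (-1200 * B) * X ^ 13 + C (-52 * A ^ 2) * X ^ 12
    + C (-3744 * A * B) * X ^ 11 + C (1592 * A ^ 3 - 3840 * B ^ 2) * X ^ 10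
    + C (2288 * A ^ 2 * B) * X ^ 9 + C (2070 * A ^ 4 + 4320 * A * B ^ 2) * X ^ 8
    + C (8256 * A ^ 3 * B + 7680 * B ^ 3) * X ^ 7 + C (600 * A ^ 5 + 20352 * A ^ 2 * B ^ 2) * X ^ 6
    + C (1584 * A ^ 4 * B + 34560 * A * B ^ 3) * X ^ 5
    + C (172 * A ^ 6 + 576 * A ^ 3 * B ^ 2 + 19968 * B ^ 4) * X ^ 4
    + C (1120 * A ^ 5 * B + 5120 * A ^ 2 * B ^ 3) * X ^ 3
    + C (-56 * A ^ 7 + 1152 * A ^ 4 * B ^ 2 + 9216 * A * B ^ 4) * X ^ 2
    + C (-112 * A ^ 6 * B - 256 * A ^ 3 * B ^ 3 + 3072 * B ^ 5) * X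
    + C (A ^ 8 - 32 * A ^ 5 * B ^ 2 - 256 * A ^ 2 * B ^ 4)

lemma t5c_G_natDegree_le (A B : K) : (t5c_G A B).natDegree ≤ 16 := by
  unfold t5c_G
  compute_degree

lemma t5c_G_ne_zero [CharZero K] (A B : K) : t5c_G A B ≠ 0 := by
  intro h
  have h16 : (t5c_G A B).coeff 16 = -15 := by
    simp only [t5c_G, coeff_add, coeff_C_mul_X_pow, coeff_C_mul_X, coeff_C]
    norm_num
  rw [h] at h16
  simp at h16

lemma t5c_G_eval (A B x : K) : (t5c_G A B).eval x =
    (x ^ 4 - 2 * A * x ^ 2 - 8 * B * x + A ^ 2) ^ 4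
      - 2 * A * (x ^ 4 - 2 * A * x ^ 2 - 8 * B * x + A ^ 2) ^ 2 * (4 * (x ^ 3 + A * x + B)) ^ 2
      - 8 * B * (x ^ 4 - 2 * A * x ^ 2 - 8 * B * x + A ^ 2) * (4 * (x ^ 3 + A * x + B)) ^ 3
      + A ^ 2 * (4 * (x ^ 3 + A * x + B)) ^ 4
      - 4 * x * (4 * (x ^ 3 + A * x + B)) * ((x ^ 4 - 2 * A * x ^ 2 - 8 * B * x + A ^ 2) ^ 3
        + A * (x ^ 4 - 2 * A * x ^ 2 - 8 * B * x + A ^ 2) * (4 * (x ^ 3 + A * x + B)) ^ 2
        + B * (4 * (x ^ 3 + A * x + B)) ^ 3) := by
  simp only [t5c_G, eval_add, eval_mul, eval_C, eval_pow, eval_X]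
  ring

/-- the algebraic heart: if `X₂ = dup X` and `X = dup X₂` then `X` is a root of `t5c_G` -/
lemma t5c_G_root {A B x x2 : K}
    (h1 : x2 * (4 * (x ^ 3 + A * x + B)) = x ^ 4 - 2 * A * x ^ 2 - 8 * B * x + A ^ 2)
    (h2 : x * (4 * (x2 ^ 3 + A * x2 + B)) = x2 ^ 4 - 2 * A * x2 ^ 2 - 8 * B * x2 + A ^ 2) :
    (t5c_G A B).eval x = 0 := by
  rw [t5c_G_eval]
  linear_combination
    (-(((x ^ 4 - 2 * A * x ^ 2 - 8 * B * x + A ^ 2) ^ 3
        + (x ^ 4 - 2 * A * x ^ 2 - 8 * B * x + A ^ 2) ^ 2 * (x2 * (4 * (x ^ 3 + A * x + B)))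
        + (x ^ 4 - 2 * A * x ^ 2 - 8 * B * x + A ^ 2) * (x2 * (4 * (x ^ 3 + A * x + B))) ^ 2
        + (x2 * (4 * (x ^ 3 + A * x + B))) ^ 3)
      - 2 * A * (4 * (x ^ 3 + A * x + B)) ^ 2 * ((x ^ 4 - 2 * A * x ^ 2 - 8 * B * x + A ^ 2)
        + (x2 * (4 * (x ^ 3 + A * x + B))))
      - 8 * B * (4 * (x ^ 3 + A * x + B)) ^ 3
      - 4 * x * (4 * (x ^ 3 + A * x + B)) * (((x ^ 4 - 2 * A * x ^ 2 - 8 * B * x + A ^ 2) ^ 2
        + (x ^ 4 - 2 * A * x ^ 2 - 8 * B * x + A ^ 2) * (x2 * (4 * (x ^ 3 + A * x + B)))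
        + (x2 * (4 * (x ^ 3 + A * x + B))) ^ 2) + A * (4 * (x ^ 3 + A * x + B)) ^ 2))) * h1
    + (-(4 * (x ^ 3 + A * x + B)) ^ 4) * h2

end Poly

section Torsion

variable {K : Type*} [Field K] [CharZero K] [DecidableEq K] (W : WeierstrassCurve.Affine K)

lemma t5c_root_of_torsion {x y : K} (h : W.Nonsingular x y)
    (h5 : (5 : ℕ) • (WeierstrassCurve.Affine.Point.some x y h) = 0) :
    (t5c_G (t5c_A W) (t5c_B W)).eval (t5c_sX W x) = 0 := by
  have hP0 : WeierstrassCurve.Affine.Point.some x y h ≠ 0 :=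
    WeierstrassCurve.Affine.Point.some_ne_zero h
  generalize hP : WeierstrassCurve.Affine.Point.some x y h = P at h5 hP0
  have h5' : P + P + (P + P) + P = 0 := by
    rw [← h5]; abel
  have hy : y ≠ W.negY x y := by
    intro hy
    have h2 : P + P = 0 := by
      rw [← hP]; exact WeierstrassCurve.Affine.Point.add_self_of_Y_eq hy
    rw [h2] at h5'
    simp at h5'
    exact hP0 h5'
  obtain ⟨x2, y2, h2, hadd, hX2, -⟩ := t5c_double W h hy
  rw [hP] at hadd
  have hy2 : y2 ≠ W.negY x2 y2 := by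
    intro hy2
    have h4 : (P + P) + (P + P) = 0 := by
      rw [hadd]; exact WeierstrassCurve.Affine.Point.add_self_of_Y_eq hy2
    rw [h4] at h5'
    simp at h5'
    exact hP0 h5'
  obtain ⟨x4, y4, h4, hadd4, hX4, -⟩ := t5c_double W h2 hy2
  have h4P : WeierstrassCurve.Affine.Point.some x4 y4 h4 = -P := by
    rw [hadd, hadd4] at h5'
    exact eq_neg_of_add_eq_zero_left h5'
  have hx4 : x4 = x := by
    rw [← hP, WeierstrassCurve.Affine.Point.neg_some] at h4P
    injection h4P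
  subst hx4
  have e1 := t5c_short_eq W h.1
  have e2 := t5c_short_eq W h2.1
  apply t5c_G_root (x2 := t5c_sX W x2)
  · rw [← e1]; exact hX2
  · rw [← e2]; exact hX4

/-- the coordinates of a point -/
def t5c_coords : W.Point → Option (K × K)
  | .zero => none
  | .some x y _ => some (x, y)

omit [CharZero K] [DecidableEq K] in
lemma t5c_coords_injective : Function.Injective (t5c_coords W) := by
  rintro (_ | ⟨x₁, y₁, h₁⟩) (_ | ⟨x₂, y₂, h₂⟩) h <;>
    simp only [t5c_coords, Option.some.injEq, Prod.mk.injEq, reduceCtorEq] at h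
  · rfl
  · obtain ⟨rfl, rfl⟩ := h; rfl

/-- the quadratic polynomial in `y` cutting out the points with a given `x` -/
noncomputable def t5c_Q (x : K) : K[X] :=
  X ^ 2 + C (W.a₁ * x + W.a₃) * X - C (x ^ 3 + W.a₂ * x ^ 2 + W.a₄ * x + W.a₆)

omit [CharZero K] [DecidableEq K] in
lemma t5c_Q_natDegree_le (x : K) : (t5c_Q W x).natDegree ≤ 2 := by
  unfold t5c_Q
  compute_degree

omit [CharZero K] [DecidableEq K] in
lemma t5c_Q_ne_zero (x : K) : t5c_Q W x ≠ 0 := by
  intro h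
  have h2 : (t5c_Q W x).coeff 2 = 1 := by
    simp only [t5c_Q, coeff_sub, coeff_add, coeff_X_pow, coeff_C_mul_X, coeff_C]
    norm_num
  rw [h] at h2
  simp at h2

omit [CharZero K] [DecidableEq K] in
lemma t5c_Q_eval {x y : K} (h : W.Equation x y) : (t5c_Q W x).eval y = 0 := by
  rw [WeierstrassCurve.Affine.equation_iff] at h
  simp only [t5c_Q, eval_sub, eval_add, eval_mul, eval_C, eval_pow, eval_X]
  linear_combination h

/-- a finite set containing the coordinates of all points killed by `5` -/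
noncomputable def t5c_S : Finset (Option (K × K)) :=
  insert none
    ((((t5c_G (t5c_A W) (t5c_B W)).roots.toFinset.image (fun X => X - W.b₂ / 12)).biUnion
      (fun x => (t5c_Q W x).roots.toFinset.image (fun y => (x, y)))).image some)

omit [CharZero K] in
lemma t5c_S_card : (t5c_S W).card ≤ 33 := by
  unfold t5c_S
  refine (Finset.card_insert_le _ _).trans ?_
  refine Nat.succ_le_succ ?_
  refine Finset.card_image_le.trans ?_
  have h1 : ((t5c_G (t5c_A W) (t5c_B W)).roots.toFinset.image (fun X => X - W.b₂ / 12)).card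
      ≤ 16 := by
    refine Finset.card_image_le.trans ?_
    refine (Multiset.toFinset_card_le _).trans ?_
    exact (Polynomial.card_roots' _).trans (t5c_G_natDegree_le _ _)
  have h2 : ∀ x ∈ ((t5c_G (t5c_A W) (t5c_B W)).roots.toFinset.image (fun X => X - W.b₂ / 12)),
      ((t5c_Q W x).roots.toFinset.image (fun y => (x, y))).card ≤ 2 := by
    intro x _
    refine Finset.card_image_le.trans ?_
    refine (Multiset.toFinset_card_le _).trans ?_
    exact (Polynomial.card_roots' _).trans (t5c_Q_natDegree_le W x)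
  calc _ ≤ ((t5c_G (t5c_A W) (t5c_B W)).roots.toFinset.image (fun X => X - W.b₂ / 12)).card * 2 :=
        Finset.card_biUnion_le_card_mul _ _ _ h2
    _ ≤ 16 * 2 := Nat.mul_le_mul_right _ h1
    _ = 32 := by norm_num

lemma t5c_mem_S (P : W.Point) (h5 : (5 : ℕ) • P = 0) : t5c_coords W P ∈ t5c_S W := by
  rcases P with _ | ⟨x, y, h⟩
  · simp [t5c_coords, t5c_S]
  · have hroot := t5c_root_of_torsion W h h5
    simp only [t5c_coords, t5c_S, Finset.mem_insert, reduceCtorEq, Finset.mem_image,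
      Finset.mem_biUnion, Multiset.mem_toFinset, false_or]
    refine ⟨(x, y), ⟨x, ⟨t5c_sX W x, ?_, ?_⟩, y, ?_, rfl⟩, rfl⟩
    · exact (Polynomial.mem_roots (t5c_G_ne_zero _ _)).mpr hroot
    · simp [t5c_sX]
    · exact (Polynomial.mem_roots (t5c_Q_ne_zero W x)).mpr (t5c_Q_eval W h.1)

/-- the points killed by `5` form a finite set of at most `33` elements -/
lemma t5c_finite_aux :
    Finite (Submodule.torsionBy ℤ W.Point ((5 : ℕ) : ℤ)) ∧
      Nat.card (Submodule.torsionBy ℤ W.Point ((5 : ℕ) : ℤ)) ≤ 33 := by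
  have hmem : ∀ P : Submodule.torsionBy ℤ W.Point ((5 : ℕ) : ℤ),
      t5c_coords W P.1 ∈ t5c_S W := by
    intro P
    apply t5c_mem_S
    have := P.2
    rw [Submodule.mem_torsionBy_iff] at this
    rwa [natCast_zsmul] at this
  let φ : Submodule.torsionBy ℤ W.Point ((5 : ℕ) : ℤ) → (t5c_S W) :=
    fun P => ⟨t5c_coords W P.1, hmem P⟩
  have hφ : Function.Injective φ := by
    intro P Q hPQ
    have : t5c_coords W P.1 = t5c_coords W Q.1 := congrArg Subtype.val hPQ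
    exact Subtype.ext (t5c_coords_injective W this)
  have hfin : Finite (Submodule.torsionBy ℤ W.Point ((5 : ℕ) : ℤ)) := Finite.of_injective φ hφ
  refine ⟨hfin, ?_⟩
  calc Nat.card (Submodule.torsionBy ℤ W.Point ((5 : ℕ) : ℤ))
      ≤ Nat.card (t5c_S W) := Nat.card_le_card_of_injective φ hφ
    _ = (t5c_S W).card := by simp
    _ ≤ 33 := t5c_S_card W

/-- the points of a Weierstrass curve killed by `5` form a finite set -/
theorem t5c_finite : Finite (Submodule.torsionBy ℤ W.Point ((5 : ℕ) : ℤ)) :=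
  (t5c_finite_aux W).1

/-- a Weierstrass curve over a field of characteristic zero has at most `25` points killed by `5` -/
theorem t5c_card_le : Nat.card (Submodule.torsionBy ℤ W.Point ((5 : ℕ) : ℤ)) ≤ 25 := by
  obtain ⟨hfin, hcard⟩ := t5c_finite_aux W
  have : Fact (Nat.Prime 5) := ⟨by norm_num⟩
  have hp : IsPGroup 5 (Multiplicative (Submodule.torsionBy ℤ W.Point ((5 : ℕ) : ℤ))) := by
    intro g
    refine ⟨1, ?_⟩
    have h := (Multiplicative.toAdd g).2
    rw [Submodule.mem_torsionBy_iff, natCast_zsmul] at h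
    apply Multiplicative.toAdd.injective
    rw [toAdd_pow, pow_one]
    exact Subtype.ext h
  obtain ⟨n, hn⟩ := (IsPGroup.iff_card).mp hp
  rw [Nat.card_congr Multiplicative.toAdd] at hn
  rw [hn] at hcard ⊢
  by_contra hlt
  have hlt' := not_le.mp hlt
  have hn3 : 3 ≤ n := by
    by_contra h3
    have h3' := not_le.mp h3
    have : 5 ^ n ≤ 5 ^ 2 := Nat.pow_le_pow_right (by norm_num) (by omega)
    omega
  have : 5 ^ 3 ≤ 5 ^ n := Nat.pow_le_pow_right (by norm_num) hn3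
  omega

/-- set version of `t5c_finite` and `t5c_card_le` -/
theorem t5c_five_torsion_finite :
    {P : W.Point | 5 • P = 0}.Finite ∧ {P : W.Point | 5 • P = 0}.ncard ≤ 5 ^ 2 := by
  have hset : {P : W.Point | 5 • P = 0}
      = (Submodule.torsionBy ℤ W.Point ((5 : ℕ) : ℤ) : Set W.Point) := by
    ext P
    rw [SetLike.mem_coe, Submodule.mem_torsionBy_iff, natCast_zsmul]
    rfl
  have hfin := t5c_finite W
  have hcard := t5c_card_le W
  rw [hset]
  refine ⟨Set.toFinite _, ?_⟩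
  rw [← Nat.card_coe_set_eq]
  exact hcard

end Torsion

end Fermat.Agent.S51
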