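import Fermat.Statements.S51
import Fermat.Agent.S51.Defs
import Fermat.Agent.S51.GroupLaw
import Fermat.Agent.S51.Torsion
import Fermat.Agent.S51.Count
import Fermat.Agent.S51.Exist
import Fermat.Agent.S51.Cyclic
import Fermat.Agent.S51.Galois
import Fermat.Agent.S51.TateA
import Fermat.Agent.S51.TateB
import Fermat.Agent.S51.TateCCore
import Fermat.Agent.S51.Descent
import Fermat.Agent.S51.Points15Aux
import Fermat.Agent.S51.Semistable

set_option autoImplicit false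
open WeierstrassCurve WeierstrassCurve.Affine WeierstrassCurve.Affine.Point

namespace Fermat.Agent.S51

local notation "Qbar" => AlgebraicClosure ℚ

theorem h73_nsmul_mod {G : Type*} [AddCommGroup G] {p : ℕ} {P : G} (hP : p • P = 0) (k : ℕ) :
    k • P = (k % p) • P := by
  conv_lhs => rw [← Nat.mod_add_div k p]
  rw [add_nsmul, mul_nsmul, hP, nsmul_zero, add_zero]

/-- A reducible mod-`p` representation with at most `p^2` torsion points has a generator of a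
Galois-stable cyclic subgroup. -/
theorem h73_exists_generator (E : WeierstrassCurve ℚ) (p : ℕ) (hp : p.Prime)
    (hfin : {x : (E⁄Qbar).Point | p • x = 0}.Finite)
    (hcard : {x : (E⁄Qbar).Point | p • x = 0}.ncard ≤ p ^ 2)
    (hex : ∃ P : (E⁄Qbar).Point, P ≠ 0 ∧ p • P = 0)
    (hred : ¬ GaloisRepIsIrreducible (K := Qbar) ℚ E p) :
    ∃ P : (E⁄Qbar).Point, P ≠ 0 ∧ p • P = 0 ∧
      ∀ σ : Qbar ≃ₐ[ℚ] Qbar, ∃ k : ℕ, σ • P = k • P := by
  classical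
  have hnt : Nontrivial (Submodule.torsionBy ℤ (E⁄Qbar).Point p) := by
    obtain ⟨P, hP0, hP⟩ := hex
    refine ⟨⟨⟨P, ?_⟩, 0, ?_⟩⟩
    · rw [Submodule.mem_torsionBy_iff, natCast_zsmul]; exact hP
    · intro h
      exact hP0 (congrArg Subtype.val h)
  unfold GaloisRepIsIrreducible at hred
  push Not at hred
  obtain ⟨N, hstab, hbot, htop⟩ := hred hnt
  obtain ⟨q, hqN, hq0⟩ := (Submodule.ne_bot_iff N).mp hbot
  obtain ⟨t, htN⟩ : ∃ t, t ∉ N := by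
    by_contra hcon
    push Not at hcon
    exact htop ((Submodule.eq_top_iff').mpr hcon)
  let N' : AddSubgroup (E⁄Qbar).Point :=
    N.toAddSubgroup.map (Submodule.torsionBy ℤ (E⁄Qbar).Point p).subtype.toAddMonoidHom
  have hmemN' : ∀ y : Submodule.torsionBy ℤ (E⁄Qbar).Point p,
      (y : (E⁄Qbar).Point) ∈ N' ↔ y ∈ N := by
    intro y
    constructor
    · rintro ⟨z, hz, hzy⟩
      have : z = y := Subtype.ext hzy
      exact this ▸ hz
    · intro hy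
      exact ⟨y, hy, rfl⟩
  have htors : ∀ y : Submodule.torsionBy ℤ (E⁄Qbar).Point p,
      p • (y : (E⁄Qbar).Point) = 0 := by
    intro y
    have := y.2
    rw [Submodule.mem_torsionBy_iff, natCast_zsmul] at this
    exact this
  have hN : ∀ x ∈ N', p • x = 0 := by
    rintro x ⟨z, _, rfl⟩
    exact htors z
  have hne : ∃ x : (E⁄Qbar).Point, p • x = 0 ∧ x ∉ N' :=
    ⟨t, htors t, fun h => htN ((hmemN' t).mp h)⟩
  have hq0' : (q : (E⁄Qbar).Point) ≠ 0 := fun h => hq0 (Subtype.ext h)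
  have cyc := cyclic_of_card_le p hp hfin hcard N' hN hne ((hmemN' q).mpr hqN) hq0'
  refine ⟨q, hq0', htors q, fun σ => ?_⟩
  have h1 : σ • q ∈ N := hstab σ q hqN
  have h2 : ((σ • q : Submodule.torsionBy ℤ (E⁄Qbar).Point p) : (E⁄Qbar).Point) ∈ N' :=
    (hmemN' _).mpr h1
  exact cyc _ h2

theorem h73_map_tz (σ : Qbar ≃ₐ[ℚ] Qbar) (X₁ X₂ XQ : Qbar) :
    σ (tz X₁ X₂ XQ) = tz (σ X₁) (σ X₂) (σ XQ) := by
  simp [tz, map_div₀, map_sub]

theorem h73_map_tzeta (σ : Qbar ≃ₐ[ℚ] Qbar) (X₁ X₂ XQ : Qbar) :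
    σ (tzeta X₁ X₂ XQ) = tzeta (σ X₁) (σ X₂) (σ XQ) := by
  simp [tzeta, h73_map_tz, map_mul, map_sub]

theorem h73_map_tbeta (σ : Qbar ≃ₐ[ℚ] Qbar) (A B X₁ X₂ : Qbar) :
    σ (tbeta A B X₁ X₂) = tbeta (σ A) (σ B) (σ X₁) (σ X₂) := by
  simp [tbeta, cub, map_div₀, map_sub, map_mul, map_add, map_pow, map_ofNat]

theorem h73_map_teta (σ : Qbar ≃ₐ[ℚ] Qbar) (A B X₁ X₂ XQ : Qbar) :
    σ (teta A B X₁ X₂ XQ) = teta (σ A) (σ B) (σ X₁) (σ X₂) (σ XQ) := by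
  simp [teta, h73_map_tz, h73_map_tbeta, map_div₀, map_sub, map_mul, map_add, map_pow, map_ofNat]

theorem h73_disc_baseChange_ne (E : WeierstrassCurve ℚ) (hΔ : E.Δ ≠ 0) : (E⁄Qbar).Δ ≠ 0 := by
  show (E.map (algebraMap ℚ Qbar)).Δ ≠ 0
  rw [WeierstrassCurve.map_Δ]
  exact (map_ne_zero _).mpr hΔ

/-- The Galois-theoretic half of the assembly: if both the mod-3 and the mod-5 representations
are reducible, the parameters `ζ`, `η` are rational. -/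
theorem h73_rational_params (E : WeierstrassCurve ℚ) (hΔ : E.Δ ≠ 0)
    (h3 : ¬ GaloisRepIsIrreducible (K := Qbar) ℚ E 3)
    (h5 : ¬ GaloisRepIsIrreducible (K := Qbar) ℚ E 5) :
    ∃ (X₁ X₂ XQ : Qbar) (ζ η : ℚ),
      Rel5 (sA (E⁄Qbar)) (sB (E⁄Qbar)) X₁ X₂ ∧ psi3 (sA (E⁄Qbar)) (sB (E⁄Qbar)) XQ = 0 ∧
      tzeta X₁ X₂ XQ = algebraMap ℚ Qbar ζ ∧
      teta (sA (E⁄Qbar)) (sB (E⁄Qbar)) X₁ X₂ XQ = algebraMap ℚ Qbar η := by
  have hΔ' : (E⁄Qbar).Δ ≠ 0 := h73_disc_baseChange_ne E hΔ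
  obtain ⟨Q, hQ0, hQ3, hQσ⟩ := h73_exists_generator E 3 Nat.prime_three
    three_torsion_finite.1 three_torsion_finite.2 (exists_three_torsion hΔ') h3
  obtain ⟨P, hP0, hP5, hPσ⟩ := h73_exists_generator E 5 Nat.prime_five
    five_torsion_finite.1 five_torsion_finite.2 (exists_five_torsion hΔ') h5
  -- the 3-torsion abscissa is rational
  have hXQ : ∀ σ : Qbar ≃ₐ[ℚ] Qbar, σ (pX Q) = pX Q := by
    intro σ
    obtain ⟨k, hk⟩ := hQσ σ
    rw [h73_nsmul_mod hQ3 k] at hk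
    rw [← pX_galois_smul]
    have hlt : k % 3 < 3 := Nat.mod_lt _ (by norm_num)
    interval_cases h : k % 3
    · rw [zero_nsmul] at hk
      exact absurd ((galois_smul_eq_zero_iff E σ Q).mp hk) hQ0
    · rw [one_nsmul] at hk
      rw [hk]
    · have h2 : (2 : ℕ) • Q = -Q := by
        apply eq_neg_of_add_eq_zero_left
        have : (2 : ℕ) • Q + Q = (3 : ℕ) • Q := by abel
        rw [this, hQ3]
      rw [hk, h2, pX_neg]
  -- the pair of 5-torsion abscissas is Galois-stable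
  have h2P0 : (2 : ℕ) • P ≠ 0 := by
    intro h
    apply hP0
    have : P = (5 : ℕ) • P - (2 : ℕ) • ((2 : ℕ) • P) := by abel
    rw [this, hP5, h, nsmul_zero, sub_zero]
  have h4P : (4 : ℕ) • P = -P := by
    apply eq_neg_of_add_eq_zero_left
    have : (4 : ℕ) • P + P = (5 : ℕ) • P := by abel
    rw [this, hP5]
  have h3P : (3 : ℕ) • P = -((2 : ℕ) • P) := by
    apply eq_neg_of_add_eq_zero_left
    have : (3 : ℕ) • P + (2 : ℕ) • P = (5 : ℕ) • P := by abel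
    rw [this, hP5]
  have hσX : ∀ σ : Qbar ≃ₐ[ℚ] Qbar,
      (σ (pX P) = pX P ∧ σ (pX (2 • P)) = pX (2 • P)) ∨
      (σ (pX P) = pX (2 • P) ∧ σ (pX (2 • P)) = pX P) := by
    intro σ
    obtain ⟨k, hk⟩ := hPσ σ
    rw [h73_nsmul_mod hP5 k] at hk
    rw [← pX_galois_smul, ← pX_galois_smul, galois_smul_nsmul]
    have hlt : k % 5 < 5 := Nat.mod_lt _ (by norm_num)
    interval_cases h : k % 5
    · rw [zero_nsmul] at hk
      exact absurd ((galois_smul_eq_zero_iff E σ P).mp hk) hP0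
    · rw [one_nsmul] at hk
      left
      rw [hk]
      exact ⟨rfl, rfl⟩
    · right
      rw [hk]
      refine ⟨rfl, ?_⟩
      rw [← mul_nsmul, h4P, pX_neg]
    · right
      rw [hk, h3P]
      refine ⟨pX_neg _, ?_⟩
      rw [neg_nsmul, ← mul_nsmul, h4P, neg_neg]
    · left
      rw [hk, h4P]
      refine ⟨pX_neg _, ?_⟩
      rw [neg_nsmul, pX_neg]
  have hrel : Rel5 (sA (E⁄Qbar)) (sB (E⁄Qbar)) (pX P) (pX (2 • P)) :=
    rel5_of_five_nsmul hP0 hP5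
  have hrel' : Rel5 (sA (E⁄Qbar)) (sB (E⁄Qbar)) (pX (2 • P)) (pX P) := by
    have h := rel5_of_five_nsmul h2P0 (by rw [← mul_nsmul, mul_comm, mul_nsmul, hP5, nsmul_zero] :
      5 • (2 • P) = 0)
    rw [← mul_nsmul, h4P, pX_neg] at h
    exact h
  have hpsi : psi3 (sA (E⁄Qbar)) (sB (E⁄Qbar)) (pX Q) = 0 := psi3_of_three_nsmul hQ0 hQ3
  have hA : ∀ σ : Qbar ≃ₐ[ℚ] Qbar, σ (sA (E⁄Qbar)) = sA (E⁄Qbar) := by
    intro σ
    rw [sA_baseChange]
    exact σ.commutes _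
  have hB : ∀ σ : Qbar ≃ₐ[ℚ] Qbar, σ (sB (E⁄Qbar)) = sB (E⁄Qbar) := by
    intro σ
    rw [sB_baseChange]
    exact σ.commutes _
  obtain ⟨ζ, hζ⟩ := rat_of_fixed (tzeta (pX P) (pX (2 • P)) (pX Q)) (by
    intro σ
    rw [h73_map_tzeta, hXQ σ]
    rcases hσX σ with ⟨h1, h2⟩ | ⟨h1, h2⟩
    · rw [h1, h2]
    · rw [h1, h2]
      exact tzeta_swap hrel.1)
  obtain ⟨η, hη⟩ := rat_of_fixed
    (teta (sA (E⁄Qbar)) (sB (E⁄Qbar)) (pX P) (pX (2 • P)) (pX Q)) (by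
    intro σ
    rw [h73_map_teta, hXQ σ, hA σ, hB σ]
    rcases hσX σ with ⟨h1, h2⟩ | ⟨h1, h2⟩
    · rw [h1, h2]
    · rw [h1, h2]
      exact teta_swap hrel hpsi)
  exact ⟨pX P, pX (2 • P), pX Q, ζ, η, hrel, hpsi, hζ.symm, hη.symm⟩

theorem h73_c4_baseChange (W : WeierstrassCurve ℤ) :
    ((W.map (Int.castRingHom ℚ))⁄Qbar).c₄ = algebraMap ℚ Qbar (W.c₄ : ℚ) := by
  show ((W.map (Int.castRingHom ℚ)).map (algebraMap ℚ Qbar)).c₄ = _
  rw [WeierstrassCurve.map_c₄, WeierstrassCurve.map_c₄]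
  simp

theorem h73_disc_baseChange (W : WeierstrassCurve ℤ) :
    ((W.map (Int.castRingHom ℚ))⁄Qbar).Δ = algebraMap ℚ Qbar (W.Δ : ℚ) := by
  show ((W.map (Int.castRingHom ℚ)).map (algebraMap ℚ Qbar)).Δ = _
  rw [WeierstrassCurve.map_Δ, WeierstrassCurve.map_Δ]
  simp

theorem h73_points_15a1 (ζ η : ℚ) (h : η ^ 2 = ζ * (9 * ζ + 4) * (1 - 4 * ζ)) :
    ζ = 0 ∨ ζ = 1 / 4 ∨ ζ = -4 / 9 ∨ ζ = -1 ∨ ζ = 1 / 9 :=
  points15_of_descent D15 ζ η h

theorem h73_tS_of_tzeta {K : Type*} [Field K] [CharZero K] {A B X₁ X₂ XQ : K}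
    (h : Rel5 A B X₁ X₂) (hQ : psi3 A B XQ = 0)
    (hΔ : 4 * A ^ 3 + 27 * B ^ 2 ≠ 0)
    (hζ : tzeta X₁ X₂ XQ = 0 ∨ tzeta X₁ X₂ XQ = 1 / 4 ∨ tzeta X₁ X₂ XQ = -4 / 9 ∨
      tzeta X₁ X₂ XQ = -1 ∨ tzeta X₁ X₂ XQ = 1 / 9) :
    tS A B X₁ X₂ = -25 / 2 ∨ tS A B X₁ X₂ = -25 / 8 ∨ tS A B X₁ X₂ = -10 ∨
      tS A B X₁ X₂ = -40 :=
  tateC_core (tate_cubic h hQ) (tbeta_ne_zero h) (tate_disc_ne h hΔ) hζ

/-- The full statement, from the skeleton lemmas. -/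
theorem h73_result (W : WeierstrassCurve ℤ) (hΔ : W.Δ ≠ 0) (hW : W.IsSemistableModel) :
    W.ModRepIsIrreducible 3 ∨ W.ModRepIsIrreducible 5 := by
  by_contra hcon
  rw [not_or] at hcon
  obtain ⟨h3, h5⟩ := hcon
  have hEΔ : (W.map (Int.castRingHom ℚ)).Δ ≠ 0 := by
    rw [WeierstrassCurve.map_Δ]
    simpa using hΔ
  obtain ⟨X₁, X₂, XQ, ζ, η, hrel, hpsi, hζ, hη⟩ :=
    h73_rational_params (W.map (Int.castRingHom ℚ)) hEΔ h3 h5
  have hsq := teta_sq hrel hpsi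
  rw [hζ, hη] at hsq
  have hsqQ : η ^ 2 = ζ * (9 * ζ + 4) * (1 - 4 * ζ) := by
    apply (algebraMap ℚ Qbar).injective
    simpa [map_mul, map_add, map_sub, map_pow, map_ofNat] using hsq
  have hlist := h73_points_15a1 ζ η hsqQ
  have hΔ' := h73_disc_baseChange_ne (W.map (Int.castRingHom ℚ)) hEΔ
  have hΔAB : 4 * sA ((W.map (Int.castRingHom ℚ))⁄Qbar) ^ 3 +
      27 * sB ((W.map (Int.castRingHom ℚ))⁄Qbar) ^ 2 ≠ 0 := by
    intro h0
    apply hΔ'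
    rw [disc_eq_sA_sB, h0, mul_zero]
  have hs := h73_tS_of_tzeta hrel hpsi hΔAB (by
    rw [hζ]
    rcases hlist with h | h | h | h | h
    · left; rw [h]; simp
    · right; left; rw [h]; simp
    · right; right; left; rw [h]; simp
    · right; right; right; left; rw [h]; simp
    · right; right; right; right; rw [h]; simp)
  have hc := tate_c4_cube hrel
  rw [← c4_eq_sA, ← disc_eq_sA_sB, h73_c4_baseChange, h73_disc_baseChange] at hc
  have key : ∀ s : ℚ, tS (sA ((W.map (Int.castRingHom ℚ))⁄Qbar))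
      (sB ((W.map (Int.castRingHom ℚ))⁄Qbar)) X₁ X₂ = algebraMap ℚ Qbar s →
      (W.c₄ : ℚ) ^ 3 * s = (W.Δ : ℚ) * (s ^ 2 + 10 * s + 5) ^ 3 := by
    intro s hs
    apply (algebraMap ℚ Qbar).injective
    rw [hs] at hc
    simpa [map_mul, map_add, map_pow, map_ofNat] using hc
  have hss : (5 : ℤ) ∣ W.Δ → ¬ (5 : ℤ) ∣ W.c₄ := by
    have := hW 5 Nat.prime_five
    simpa using this
  rcases hs with h | h | h | h
  · exact semistable_contra W.c₄ W.Δ hΔ hss (-25 / 2) (Or.inl rfl) (key _ (by rw [h]; simp))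
  · exact semistable_contra W.c₄ W.Δ hΔ hss (-25 / 8) (Or.inr (Or.inl rfl))
      (key _ (by rw [h]; simp))
  · exact semistable_contra W.c₄ W.Δ hΔ hss (-10) (Or.inr (Or.inr (Or.inl rfl)))
      (key _ (by rw [h]; simp))
  · exact semistable_contra W.c₄ W.Δ hΔ hss (-40) (Or.inr (Or.inr (Or.inr rfl)))
      (key _ (by rw [h]; simp))

end Fermat.Agent.S51
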