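import Mathlib
import Fermat.Prelude.Def_FLTPrelim_Modularity

set_option autoImplicit false

namespace Fermat.Agent.S51

/-- Arithmetic endgame: if `c4^3 * den = num * Δ` with `5 ∣ num`, `125 ∤ num`, `5 ∤ den`, then
`5` divides both `c4` and `Δ`, contradicting semistability. -/
theorem h73_not_semistable_of_j (c4 Δ num den : ℤ)
    (hss : ∀ p : ℕ, p.Prime → (p : ℤ) ∣ Δ → ¬ (p : ℤ) ∣ c4)
    (h : c4 ^ 3 * den = num * Δ) (h5 : (5 : ℤ) ∣ num) (h125 : ¬ (125 : ℤ) ∣ num)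
    (hden : ¬ (5 : ℤ) ∣ den) : False := by
  have hp5 : Prime (5 : ℤ) := by
    rw [Int.prime_iff_natAbs_prime]; norm_num
  have hc4 : (5 : ℤ) ∣ c4 := by
    have h1 : (5 : ℤ) ∣ c4 ^ 3 * den := by
      rw [h]; exact Dvd.dvd.mul_right h5 Δ
    rcases hp5.dvd_or_dvd h1 with h2 | h2
    · exact hp5.dvd_of_dvd_pow h2
    · exact absurd h2 hden
  have hΔ5 : (5 : ℤ) ∣ Δ := by
    by_contra hcon
    obtain ⟨k, rfl⟩ := hc4
    have h1 : (125 : ℤ) ∣ num * Δ := by
      rw [← h]; exact ⟨k ^ 3 * den, by ring⟩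
    have hcop : IsCoprime (125 : ℤ) Δ := by
      have : IsCoprime (5 : ℤ) Δ := (Prime.coprime_iff_not_dvd hp5).mpr hcon
      have h3 : IsCoprime ((5 : ℤ) ^ 3) Δ := IsCoprime.pow_left this
      norm_num at h3
      exact h3
    exact h125 (hcop.dvd_of_dvd_mul_right h1)
  exact hss 5 (by norm_num) (by exact_mod_cast hΔ5) (by exact_mod_cast hc4)

/-- Rational form: `c4^3 = j * Δ` with `j = num / den`. -/
theorem h73_not_semistable_of_j_rat (c4 Δ num den : ℤ)
    (hss : ∀ p : ℕ, p.Prime → (p : ℤ) ∣ Δ → ¬ (p : ℤ) ∣ c4) (hden0 : den ≠ 0)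
    (h : (c4 : ℚ) ^ 3 = (num : ℚ) / (den : ℚ) * (Δ : ℚ)) (h5 : (5 : ℤ) ∣ num)
    (h125 : ¬ (125 : ℤ) ∣ num) (hden : ¬ (5 : ℤ) ∣ den) : False := by
  refine h73_not_semistable_of_j c4 Δ num den hss ?_ h5 h125 hden
  have hd : (den : ℚ) ≠ 0 := by exact_mod_cast hden0
  have h2 : (c4 : ℚ) ^ 3 * (den : ℚ) = (num : ℚ) * (Δ : ℚ) := by
    rw [h]; field_simp
  exact_mod_cast h2

/-- The four `j`-invariants of the non-cuspidal rational points of `X₀(15)` are not `j`-invariants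
of semistable models. -/
theorem h73_not_semistable_of_j_mem (c4 Δ : ℤ)
    (hss : ∀ p : ℕ, p.Prime → (p : ℤ) ∣ Δ → ¬ (p : ℤ) ∣ c4) (j : ℚ)
    (h : (c4 : ℚ) ^ 3 = j * (Δ : ℚ))
    (hj : j = -25 / 2 ∨ j = -121945 / 32 ∨ j = 46969655 / 32768 ∨ j = -349938025 / 8) :
    False := by
  rcases hj with rfl | rfl | rfl | rfl
  · exact h73_not_semistable_of_j_rat c4 Δ (-25) 2 hss (by norm_num) (by push_cast; linarith [h])
      (by norm_num) (by norm_num) (by norm_num)
  · exact h73_not_semistable_of_j_rat c4 Δ (-121945) 32 hss (by norm_num)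
      (by push_cast; linarith [h]) (by norm_num) (by norm_num) (by norm_num)
  · exact h73_not_semistable_of_j_rat c4 Δ 46969655 32768 hss (by norm_num)
      (by push_cast; linarith [h]) (by norm_num) (by norm_num) (by norm_num)
  · exact h73_not_semistable_of_j_rat c4 Δ (-349938025) 8 hss (by norm_num)
      (by push_cast; linarith [h]) (by norm_num) (by norm_num) (by norm_num)

/-- Wrapper for an integral Weierstrass model. -/
theorem h73_not_semistable_model (W : WeierstrassCurve ℤ) (hW : W.IsSemistableModel) (j : ℚ)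
    (h : (W.c₄ : ℚ) ^ 3 = j * (W.Δ : ℚ))
    (hj : j = -25 / 2 ∨ j = -121945 / 32 ∨ j = 46969655 / 32768 ∨ j = -349938025 / 8) :
    False :=
  h73_not_semistable_of_j_mem W.c₄ W.Δ hW j h hj

/-- Wrapper in terms of the base change to `ℚ`. -/
theorem h73_not_semistable_map (W : WeierstrassCurve ℤ) (hW : W.IsSemistableModel) (j : ℚ)
    (h : (W.map (Int.castRingHom ℚ)).c₄ ^ 3 = j * (W.map (Int.castRingHom ℚ)).Δ)
    (hj : j = -25 / 2 ∨ j = -121945 / 32 ∨ j = 46969655 / 32768 ∨ j = -349938025 / 8) :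
    False := by
  refine h73_not_semistable_model W hW j ?_ hj
  rw [WeierstrassCurve.map_c₄, WeierstrassCurve.map_Δ] at h
  simpa using h

end Fermat.Agent.S51
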